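import Fermat.Agent.HSide.Base
import Fermat.Agent.S41.HmRes
import Fermat.Agent.RTD.GalLemmas

/-!
# The Hecke side data attached to `ClimbData`
-/

set_option autoImplicit false
set_option linter.style.haveILetI false

noncomputable section

open Matrix.SpecialLinearGroup CongruenceSubgroup IsLocalRing
open scoped MatrixGroups

namespace Fermat.Agent.HSide

open TwHecke HeckePar TwExact HeckeRep RTE RTD GalRep S59aux

section Climb

variable {p : ℕ} [hp : Fact p.Prime] {𝒪 : Type} [CommRing 𝒪] [IsDomain 𝒪]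
  [IsDiscreteValuationRing 𝒪] [IsAdicComplete (maximalIdeal 𝒪) 𝒪] [Finite (ResidueField 𝒪)]
  {x : GaloisRepAdic 𝒪} {r N : ℕ} {T S : Finset ℕ} {a : ℕ → 𝒪}

/-- The data of the Hecke side, base level `N₁ = N` or `N p`. -/
def baseOf (hx : ClimbData p x r N T S a) (hp2 : p ≠ 2) (hp𝒪 : (p : 𝒪) ∈ maximalIdeal 𝒪)
    (𝓢 : Setup 𝒪 p) (hT : 𝓢.T₀ ∪ 𝓢.V = T) (N₁ : ℕ) (hN₁ : N₁ ≠ 0)
    (h₁ : N₁ = N ∨ N₁ = N * p) : Base 𝒪 p 𝓢.pr S where
  N := N₁
  a := fun ℓ => residue 𝒪 (a ℓ)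
  ρb := x.residual
  N_ne := hN₁
  p_ne_two := hp2
  p_mem := hp𝒪
  pS := (hx.mem_S p).mpr ⟨hp.out, Or.inl rfl⟩
  N_S := by
    intro ℓ hℓ hd
    rw [hx.mem_S]
    refine ⟨hℓ, ?_⟩
    rcases h₁ with rfl | rfl
    · exact Or.inr (Or.inl hd)
    · rcases hℓ.dvd_mul.mp hd with h | h
      · exact Or.inr (Or.inl h)
      · exact Or.inl ((Nat.prime_dvd_prime_iff_eq hℓ hp.out).mp h)
  three := by
    refine ⟨r, hx.r_prime, ?_, ?_⟩
    · rcases h₁ with rfl | rfl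
      · exact hx.r_dvd
      · exact hx.r_dvd.mul_right p
    · have := hx.r_mod
      omega
  qT_prime := fun v => 𝓢.prime_T (𝓢.pr_mem v)
  qT_inj := 𝓢.pr_injective
  qT_N := by
    intro v hd
    have hv := 𝓢.pr_mem v
    rw [hT] at hv
    obtain ⟨h1, h2, h3⟩ := hx.mem_T _ hv
    rcases h₁ with rfl | rfl
    · exact h3 hd
    · rcases h1.dvd_mul.mp hd with h | h
      · exact h3 h
      · exact h2 ((Nat.prime_dvd_prime_iff_eq h1 hp.out).mp h)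
  qT_S := by
    intro v
    have hv := 𝓢.pr_mem v
    rw [hT] at hv
    exact (hx.mem_S _).mpr ⟨(hx.mem_T _ hv).1, Or.inr (Or.inr hv)⟩
  frob := by
    intro ℓ hℓ hℓS
    exact S41hm.frobAt_residual (T := (↑S : Set ℕ)) (a := a)
      (fun ℓ hℓ hℓT => hx.frob ℓ hℓ hℓT) ℓ hℓ hℓS
  ne := by
    intro S' hS'
    exact S41hm.strongNonEis_of_adic (x := x) (T := (↑S : Set ℕ)) (a := a) hp2 hp.out hp𝒪 hx.abs
      hx.odd S.finite_toSet (fun ℓ hℓ hℓT => hx.frob ℓ hℓ hℓT) (RingHom.id _) S'.finite_toSet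
      (fun ℓ _ => rfl)

theorem natCast_eq_one_of_dvd {k : Type*} [Field k] {p q n : ℕ} (hpk : (p : k) = 0) (hn : n ≠ 0)
    (hq : q.Prime) (h : p ^ n ∣ q - 1) : (q : k) = 1 := by
  obtain ⟨c, hc⟩ := (dvd_pow_self p hn).trans h
  have h1 : q = p * c + 1 := by
    have := hq.one_lt
    omega
  rw [h1]
  push_cast
  rw [hpk, zero_mul, zero_add]

theorem auxs_of_goodQ (hx : ClimbData p x r N T S a) (hp2 : p ≠ 2)
    (hp𝒪 : (p : 𝒪) ∈ maximalIdeal 𝒪) (𝓢 : Setup 𝒪 p) (hρ : 𝓢.ρbar = x.residual)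
    (hT : 𝓢.T₀ ∪ 𝓢.V = T) (N₁ : ℕ) (hN₁ : N₁ ≠ 0) (h₁ : N₁ = N ∨ N₁ = N * p) {m n : ℕ}
    (hn : n ≠ 0) {qv : Fin m → ℕ} (hQ : 𝓢.GoodQ n S qv) :
    Auxs (baseOf hx hp2 hp𝒪 𝓢 hT N₁ hN₁ h₁) qv where
  prime i := (hQ.tw i).prime
  inj := hQ.inj
  notMem := hQ.notMem
  frob := by
    intro i
    have hq := (hQ.tw i).prime
    have hpk : (p : ResidueField 𝒪) = 0 := by
      rw [← map_natCast (residue 𝒪), residue_eq_zero_iff]
      exact hp𝒪
    have h1 := natCast_eq_one_of_dvd hpk hn hq (hQ.tw i).dvd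
    obtain ⟨A, hA⟩ := Frob.exists_liesOverPrime (qv i) hq
    obtain ⟨φ, hφ⟩ := Frob.exists_isFrobeniusAt hq hA
    have h2 := (hQ.tw i).frob A hA φ hφ
    have h3 := TW.charpoly_of_hasMat 𝓢.hrb φ
    have h4 : LinearMap.charpoly (𝓢.ρbar.ρ φ) = Polynomial.X ^ 2 -
        Polynomial.C (residue 𝒪 (a (qv i))) * Polynomial.X + Polynomial.C (qv i : ResidueField 𝒪) := by
      rw [hρ]
      exact (baseOf hx hp2 hp𝒪 𝓢 hT N₁ hN₁ h₁).frob (qv i) hq (hQ.notMem i) A hA φ hφ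
    rw [h3, Matrix.charpoly_fin_two] at h4
    have h5 : (𝓢.rb φ).trace = residue 𝒪 (a (qv i)) := by
      have h6 := congrArg (fun P => Polynomial.coeff P 1) h4
      simp [Polynomial.coeff_C, Polynomial.coeff_X_pow] at h6
      linear_combination h6
    have h6 : (𝓢.rb φ).det = (qv i : ResidueField 𝒪) := by
      have h7 := congrArg (fun P => Polynomial.coeff P 0) h4
      simpa using h7
    rw [h5, h6, h1] at h2
    show residue 𝒪 (a (qv i)) ^ 2 ≠ ((qv i : ResidueField 𝒪) + 1) ^ 2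
    rw [h1]
    intro h7
    apply h2
    rw [h7]
    ring

end Climb

end Fermat.Agent.HSide
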