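import Fermat.Agent.HSide.Top

/-!
# Surjectivity of the traces; bases
-/

set_option autoImplicit false
set_option linter.style.haveILetI false

noncomputable section

open Matrix.SpecialLinearGroup CongruenceSubgroup IsLocalRing
open scoped MatrixGroups

namespace Fermat.Agent.HSide

open TwHecke HeckePar TwExact HeckeRep RTE RTD GalRep

variable {𝒪 : Type} [CommRing 𝒪] [IsLocalRing 𝒪]
  [IsNoetherianRing 𝒪] [IsAdicComplete (maximalIdeal 𝒪) 𝒪] {p : ℕ} [hp : Fact p.Prime]
  {ι : Type} [DecidableEq ι] {qT : ι → ℕ} {S : Finset ℕ} (B : Base 𝒪 p qT S) {m : ℕ}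
  {qv : Fin m → ℕ} [IsLocalRing (Lam 𝒪 p qv)] (A : Auxs B qv)

/-- The pair of traces is onto. -/
theorem Base.mj_surj {s : Finset ι} {v : ι} (hv : v ∉ s) (x y : B.MM qv s) :
    ∃ z : B.MM qv (insert v s), B.mj1 hv A z = x ∧ B.mj2 hv A z = y := by
  have : NeZero p := ⟨hp.out.ne_zero⟩
  have : NeZero (B.lev qv s) := ⟨B.lev_ne A s⟩
  have := B.charP_res
  have := HSide.isAdicComplete_groupRing (𝒪 := 𝒪) (Δ := Dia p qv)
  have := HSide.isNoetherianRing_groupRing (𝒪 := 𝒪) (Δ := Dia p qv)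
  have := HSide.charP_residueField_groupRing (𝒪 := 𝒪) (Δ := Dia p qv) (p := p)
  exact surj_j _ _ _ hp.out B.p_ne_two _ _ (B.residue_eta s) B.strong_th (B.good_lev A s) x y

include A in
theorem Base.free_MM (s : Finset ι) : Module.Free (Lam 𝒪 p qv) (B.MM qv s) ∧
    Module.Finite (Lam 𝒪 p qv) (B.MM qv s) := by
  have : NeZero p := ⟨hp.out.ne_zero⟩
  have : NeZero (B.lev qv s) := ⟨B.lev_ne A s⟩
  have := HSide.isAdicComplete_groupRing (𝒪 := 𝒪) (Δ := Dia p qv)
  have := HSide.isNoetherianRing_groupRing (𝒪 := 𝒪) (Δ := Dia p qv)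
  exact ⟨(B.good_lev A s).free, finite_Hm _ _ _⟩

/-- A basis indexed by `Fin d`, if the bottom module has rank `d`. -/
theorem nonempty_basis_of_surj {R R' : Type*} [CommRing R] [CommRing R'] [Nontrivial R']
    {σ : R →+* R'} {N N' : Type*}
    [AddCommGroup N] [Module R N] [AddCommGroup N'] [Module R' N'] (hσ : Function.Surjective σ)
    (f : N →+ N') (hfs : ∀ r x, f (r • x) = σ r • f x) (hf : Function.Surjective f)
    (hker : ∀ x, f x = 0 → x ∈ (RingHom.ker σ • ⊤ : Submodule R N)) [Module.Free R N]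
    [Module.Finite R N] {d : ℕ} (hd : d = Module.finrank R' N') :
    Nonempty (Module.Basis (Fin d) R N) := by
  have : Nontrivial R := σ.domain_nontrivial
  let f' : N →ₛₗ[σ] N' := { f with map_smul' := hfs }
  have h1 := finrank_eq_of_surj hσ f' hf hker
  exact ⟨Module.finBasisOfFinrankEq R N (h1.trans hd.symm)⟩

end Fermat.Agent.HSide
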