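import Fermat.Agent.HSide.Deg
import Fermat.Agent.S41.HmInj
import Fermat.Agent.RTI.Surj41
import Fermat.Agent.RT.GroupRing
import Fermat.Agent.HeckeRep.Transport

/-!
# Ihara's lemma and its dual, with flexible levels and characters
-/

set_option autoImplicit false
set_option linter.unusedSectionVars false

noncomputable section

open Matrix.SpecialLinearGroup CongruenceSubgroup IsLocalRing
open scoped MatrixGroups

namespace Fermat.Agent.HSide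

open TwHecke HeckePar TwExact

section Ihara

variable {R : Type} [CommRing R] [IsLocalRing R] [IsNoetherianRing R]
  [IsAdicComplete (maximalIdeal R) R] {p : ℕ} [CharP (ResidueField R) p]
  {N N' v d : ℕ} {ε : (ZMod N)ˣ →* Rˣ} {ε' : (ZMod N')ˣ →* Rˣ} {S : Set ℕ}
  {θ : PIdx S → ResidueField R}

theorem mem_ideal_span_smul_top {P : Type} [AddCommGroup P] [Module R P] (ϖ : R) (x : P) :
    x ∈ (Ideal.span {ϖ} • ⊤ : Submodule R P) ↔ ∃ y, x = ϖ • y := by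
  rw [Submodule.ideal_span_singleton_smul]
  constructor
  · intro h
    obtain ⟨y, _, rfl⟩ := (Submodule.mem_smul_pointwise_iff_exists _ _ _).1 h
    exact ⟨y, rfl⟩
  · rintro ⟨y, rfl⟩
    exact Submodule.smul_mem_pointwise_smul _ _ _ trivial

include p in
/-- **Ihara's lemma**, modulo any element `ϖ`. -/
theorem ihara [NeZero N] (hp : p.Prime) (hp2 : p ≠ 2) (hv : v.Prime) (hvN : ¬ v ∣ N)
    (h : N * v = N') (hres : ∀ u, residue R (ε u : R) = 1)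
    (hS : ∀ ℓ : ℕ, ℓ.Prime → ℓ ∣ N' → ℓ ∈ S) (hne : S41hm.StrongNonEis S θ)
    (hG : Good N ε S θ) (hd : d = 1) (hd0 : d ≠ 0) (h1 : N * d ∣ N') (h2 : N * v ∣ N')
    (hε1 : infl (dvd_of_mul h1) ε = ε') (hε2 : infl (dvd_of_mul h2) ε = ε') (ϖ : R)
    {x y : HM N ε R} (hx : x ∈ Hm N ε R S θ) (hy : y ∈ Hm N ε R S θ) {z : HM N' ε' R}
    (hz : z ∈ Hm N' ε' R S θ)
    (e : dg R hd0 h1 hε1 x + dg R hv.ne_zero h2 hε2 y = ϖ • z) :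
    (∃ x' ∈ Hm N ε R S θ, x = ϖ • x') ∧ ∃ y' ∈ Hm N ε R S θ, y = ϖ • y' := by
  subst h
  have hε1' : infl (dvd_mul_right N v) ε = ε' := hε1
  subst hε1'
  have : NeZero v := ⟨hv.ne_zero⟩
  have h3 := S41hm.inj_mod (p := p) hp hp2 hv hvN hres hS hne hG (Ideal.span {ϖ})
    ⟨x, hx⟩ ⟨y, hy⟩ ((mem_ideal_span_smul_top _ _).mpr ⟨⟨z, hz⟩, by
      apply Subtype.ext
      rw [Submodule.coe_add, S41hm.coe_hmRes, S41hm.coe_hmDegB, Submodule.coe_smul, ← e]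
      rw [show dg R hd0 h1 hε1 x = res (dvd_mul_right N v) ε R x from dg_one hd hd0 h1 x]
      rfl⟩)
  rw [mem_ideal_span_smul_top, mem_ideal_span_smul_top] at h3
  obtain ⟨⟨x', hx'⟩, y', hy'⟩ := h3
  exact ⟨⟨x', x'.2, congrArg Subtype.val hx'⟩, y', y'.2, congrArg Subtype.val hy'⟩

include p in
/-- **Injectivity of the pair of degeneracy maps.** -/
theorem ihara_inj [NeZero N] (hp : p.Prime) (hp2 : p ≠ 2) (hv : v.Prime) (hvN : ¬ v ∣ N)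
    (h : N * v = N') (hres : ∀ u, residue R (ε u : R) = 1)
    (hS : ∀ ℓ : ℕ, ℓ.Prime → ℓ ∣ N' → ℓ ∈ S) (hne : S41hm.StrongNonEis S θ)
    (hG : Good N ε S θ) (hd : d = 1) (hd0 : d ≠ 0) (h1 : N * d ∣ N') (h2 : N * v ∣ N')
    (hε1 : infl (dvd_of_mul h1) ε = ε') (hε2 : infl (dvd_of_mul h2) ε = ε')
    {x y : HM N ε R} (hx : x ∈ Hm N ε R S θ) (hy : y ∈ Hm N ε R S θ)
    (e : dg R hd0 h1 hε1 x + dg R hv.ne_zero h2 hε2 y = 0) : x = 0 ∧ y = 0 := by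
  have h3 := ihara (p := p) hp hp2 hv hvN h hres hS hne hG hd hd0 h1 h2 hε1 hε2 (0 : R) hx hy
    (z := 0) (Submodule.zero_mem _) (by rw [e, smul_zero])
  obtain ⟨⟨x', -, hx'⟩, y', -, hy'⟩ := h3
  rw [zero_smul] at hx' hy'
  exact ⟨hx', hy'⟩

include p in
/-- **Surjectivity of the pair of traces.** -/
theorem surj [NeZero N] (hp : p.Prime) (hp2 : p ≠ 2) (hv : v.Prime) (hvN : ¬ v ∣ N)
    (h : N * v = N') (hres : ∀ u, residue R (ε u : R) = 1) (hvS : v ∈ S)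
    (hne : S41hm.StrongNonEis S θ) (hG : Good N ε S θ) (hε : infl (Dvd.intro v h) ε = ε')
    {x y : HM N ε R} (hx : x ∈ Hm N ε R S θ) (hy : y ∈ Hm N ε R S θ) :
    ∃ z ∈ Hm N' ε' R S θ, tg hv hvN h R hε z = x ∧ tB hv hvN h R hε z = y := by
  subst h
  have hε' : infl (dvd_mul_right N v) ε = ε' := hε
  subst hε'
  have : NeZero v := ⟨hv.ne_zero⟩
  obtain ⟨z, hz1, hz2⟩ := RTI.surj_R (p := p) hp hp2 hv hvN hres hvS hne hG ⟨x, hx⟩ ⟨y, hy⟩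
  exact ⟨z, z.2, congrArg Subtype.val hz1, congrArg Subtype.val hz2⟩

end Ihara

/-! ### Group rings -/

section GroupRing

open Fermat.Agent.RT Fermat.Agent.HeckeRep

variable {𝒪 : Type} [CommRing 𝒪] [IsLocalRing 𝒪] {p : ℕ} {Δ : Type} [CommGroup Δ]

instance isLocalHom_groupRing : IsLocalHom (algebraMap 𝒪 (MonoidAlgebra 𝒪 Δ)) := by
  refine ⟨fun a ha => ?_⟩
  have h := ha.map (aug 𝒪 Δ)
  rwa [AlgHom.commutes] at h

theorem isAdicComplete_groupRing [IsNoetherianRing 𝒪] [IsAdicComplete (maximalIdeal 𝒪) 𝒪]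
    [Finite Δ] [IsLocalRing (MonoidAlgebra 𝒪 Δ)] :
    IsAdicComplete (maximalIdeal (MonoidAlgebra 𝒪 Δ)) (MonoidAlgebra 𝒪 Δ) :=
  IsLocalRing.isAdicComplete_of_module_finite (𝒪 := 𝒪)

theorem isNoetherianRing_groupRing [IsNoetherianRing 𝒪] [Finite Δ] :
    IsNoetherianRing (MonoidAlgebra 𝒪 Δ) :=
  IsNoetherianRing.of_finite 𝒪 _

theorem charP_residueField_groupRing [CharP (ResidueField 𝒪) p]
    [IsLocalRing (MonoidAlgebra 𝒪 Δ)] : CharP (ResidueField (MonoidAlgebra 𝒪 Δ)) p :=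
  (RingHom.charP_iff_charP (ResidueField.map (algebraMap 𝒪 (MonoidAlgebra 𝒪 Δ))) p).mp
    inferInstance

theorem residue_taut [Finite Δ] [hp : Fact p.Prime] [IsLocalRing (MonoidAlgebra 𝒪 Δ)]
    (hp𝒪 : (p : 𝒪) ∈ maximalIdeal 𝒪) (hΔ : IsPGroup p Δ) {M : ℕ} (τ : (ZMod M)ˣ →* Δ)
    (u : (ZMod M)ˣ) :
    residue (MonoidAlgebra 𝒪 Δ) ((taut 𝒪 τ u : (MonoidAlgebra 𝒪 Δ)ˣ) : MonoidAlgebra 𝒪 Δ) = 1 := by
  rw [← sub_eq_zero, ← map_one (residue (MonoidAlgebra 𝒪 Δ)), ← map_sub, residue_eq_zero_iff,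
    maximalIdeal_groupRing hp𝒪 hΔ, mem_ker_resAug, map_sub, map_one]
  have h : aug 𝒪 Δ ((taut 𝒪 τ u : (MonoidAlgebra 𝒪 Δ)ˣ) : MonoidAlgebra 𝒪 Δ) = 1 :=
    aug_gr (𝒪 := 𝒪) (τ u)
  rw [h, sub_self]
  exact Ideal.zero_mem _

theorem residue_taut_sq [Finite Δ] [hp : Fact p.Prime] [IsLocalRing (MonoidAlgebra 𝒪 Δ)]
    (hp𝒪 : (p : 𝒪) ∈ maximalIdeal 𝒪) (hΔ : IsPGroup p Δ) {M : ℕ} (τ : (ZMod M)ˣ →* Δ)
    (u : (ZMod M)ˣ) : residue (MonoidAlgebra 𝒪 Δ)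
      (((taut 𝒪 τ ^ 2) u : (MonoidAlgebra 𝒪 Δ)ˣ) : MonoidAlgebra 𝒪 Δ) = 1 := by
  rw [MonoidHom.pow_apply, Units.val_pow_eq_pow_val, map_pow, residue_taut hp𝒪 hΔ, one_pow]

/-- **Surjectivity of the pair of traces** with coefficients `𝒪[Δ]`, twisted by the square of the
tautological character. -/
theorem surj_taut [IsNoetherianRing 𝒪] [IsAdicComplete (maximalIdeal 𝒪) 𝒪]
    [CharP (ResidueField 𝒪) p] [Finite Δ] [hp : Fact p.Prime] [IsLocalRing (MonoidAlgebra 𝒪 Δ)]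
    {N N' v : ℕ} [NeZero N] {S : Set ℕ} {θ : PIdx S → ResidueField (MonoidAlgebra 𝒪 Δ)}
    (hp2 : p ≠ 2) (hp𝒪 : (p : 𝒪) ∈ maximalIdeal 𝒪) (hΔ : IsPGroup p Δ)
    (hv : v.Prime) (hvN : ¬ v ∣ N) (h : N * v = N') (hvS : v ∈ S) {τ : (ZMod N)ˣ →* Δ}
    (hne : S41hm.StrongNonEis S θ) (hG : Good N (taut 𝒪 τ ^ 2) S θ)
    {ε' : (ZMod N')ˣ →* (MonoidAlgebra 𝒪 Δ)ˣ} (hε : infl (Dvd.intro v h) (taut 𝒪 τ ^ 2) = ε')
    {x y : HM N (taut 𝒪 τ ^ 2) (MonoidAlgebra 𝒪 Δ)}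
    (hx : x ∈ Hm N (taut 𝒪 τ ^ 2) (MonoidAlgebra 𝒪 Δ) S θ)
    (hy : y ∈ Hm N (taut 𝒪 τ ^ 2) (MonoidAlgebra 𝒪 Δ) S θ) :
    ∃ z ∈ Hm N' ε' (MonoidAlgebra 𝒪 Δ) S θ, tg hv hvN h (MonoidAlgebra 𝒪 Δ) hε z = x ∧
      tB hv hvN h (MonoidAlgebra 𝒪 Δ) hε z = y := by
  have := isAdicComplete_groupRing (𝒪 := 𝒪) (Δ := Δ)
  have := isNoetherianRing_groupRing (𝒪 := 𝒪) (Δ := Δ)
  have := charP_residueField_groupRing (𝒪 := 𝒪) (Δ := Δ) (p := p)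
  exact surj (p := p) hp.out hp2 hv hvN h (residue_taut_sq hp𝒪 hΔ τ) hvS hne hG hε hx hy

end GroupRing

end Fermat.Agent.HSide
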