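import Fermat.Agent.HSide.Maps
import Fermat.Agent.HSide.BotIhara
import Fermat.Agent.RTD.Diamond
import Fermat.Agent.RTE.Level

/-!
# The levels and the modules of the Hecke side
-/

set_option autoImplicit false
set_option linter.style.haveILetI false

noncomputable section

open Matrix.SpecialLinearGroup CongruenceSubgroup IsLocalRing
open scoped MatrixGroups

namespace Fermat.Agent.HSide

open TwHecke HeckePar TwExact HeckeRep RTE RTD GalRep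

/-- The residual data of the Hecke side: base level `N`, the primes `qT v` to be added, the finite
set `S` of bad primes, the residual system `a` and the residual representation. -/
structure Base (𝒪 : Type) [CommRing 𝒪] [IsLocalRing 𝒪] (p : ℕ) {ι : Type} (qT : ι → ℕ)
    (S : Finset ℕ) where
  N : ℕ
  a : ℕ → ResidueField 𝒪
  ρb : ResidualGaloisRep (ResidueField 𝒪)
  N_ne : N ≠ 0
  p_ne_two : p ≠ 2
  p_mem : (p : 𝒪) ∈ maximalIdeal 𝒪
  pS : p ∈ S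
  N_S : ∀ ℓ : ℕ, ℓ.Prime → ℓ ∣ N → ℓ ∈ S
  three : ∃ r : ℕ, r.Prime ∧ r ∣ N ∧ r % 3 = 2
  qT_prime : ∀ v, (qT v).Prime
  qT_inj : Function.Injective qT
  qT_N : ∀ v, ¬ qT v ∣ N
  qT_S : ∀ v, qT v ∈ S
  frob : ∀ ℓ : ℕ, ℓ.Prime → ℓ ∉ S → HasFrob ρb ℓ (a ℓ)
  ne : ∀ S' : Finset ℕ, S ⊆ S' → S41hm.StrongNonEis (↑S' : Set ℕ) (thOf a (↑S' : Set ℕ))

/-- The auxiliary primes of one Taylor–Wiles level. -/
structure Auxs {𝒪 : Type} [CommRing 𝒪] [IsLocalRing 𝒪] {p : ℕ} {ι : Type} {qT : ι → ℕ}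
    {S : Finset ℕ} (B : Base 𝒪 p qT S) {m : ℕ} (qv : Fin m → ℕ) : Prop where
  prime : ∀ i, (qv i).Prime
  inj : Function.Injective qv
  notMem : ∀ i, qv i ∉ S
  frob : ∀ i, B.a (qv i) ^ 2 ≠ ((qv i : ResidueField 𝒪) + 1) ^ 2

namespace Base

variable {𝒪 : Type} [CommRing 𝒪] [IsLocalRing 𝒪] {p : ℕ} {ι : Type} {qT : ι → ℕ} {S : Finset ℕ}
  (B : Base 𝒪 p qT S)

/-- the level of the bottom modules -/
def NS (s : Finset ι) : ℕ := B.N * ∏ v ∈ s, qT v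

/-- the level of the modules -/
def lev {m : ℕ} (qv : Fin m → ℕ) (s : Finset ι) : ℕ := B.NS s * ∏ i, qv i

/-- the set of bad primes, with the auxiliary primes -/
def Sn (_B : Base 𝒪 p qT S) {m : ℕ} (qv : Fin m → ℕ) : Finset ℕ := S ∪ Finset.univ.image qv

variable {m : ℕ} {qv : Fin m → ℕ}

theorem S_sub : S ⊆ B.Sn qv := Finset.subset_union_left

theorem qv_mem (i : Fin m) : qv i ∈ B.Sn qv :=
  Finset.mem_union_right _ (Finset.mem_image_of_mem _ (Finset.mem_univ i))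

theorem qT_mem (v : ι) : qT v ∈ (↑(B.Sn qv) : Set ℕ) := B.S_sub (B.qT_S v)

include B in
theorem qT_mem' (v : ι) : qT v ∈ (↑S : Set ℕ) := B.qT_S v

theorem qv_dvd (s : Finset ι) (i : Fin m) : qv i ∣ B.lev qv s :=
  (Finset.dvd_prod_of_mem qv (Finset.mem_univ i)).trans (Dvd.intro_left _ rfl)

theorem NS_ne (s : Finset ι) : B.NS s ≠ 0 :=
  mul_ne_zero B.N_ne (Finset.prod_ne_zero_iff.mpr fun v _ => (B.qT_prime v).ne_zero)

instance (s : Finset ι) : NeZero (B.NS s) := ⟨B.NS_ne s⟩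

theorem lev_ne (A : Auxs B qv) (s : Finset ι) : B.lev qv s ≠ 0 :=
  mul_ne_zero (B.NS_ne s) (Finset.prod_ne_zero_iff.mpr fun i _ => (A.prime i).ne_zero)

theorem NS_insert [DecidableEq ι] {s : Finset ι} {v : ι} (hv : v ∉ s) :
    B.NS s * qT v = B.NS (insert v s) := by
  rw [NS, NS, Finset.prod_insert hv]
  ring

theorem lev_insert [DecidableEq ι] {s : Finset ι} {v : ι} (hv : v ∉ s) :
    B.lev qv s * qT v = B.lev qv (insert v s) := by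
  rw [lev, lev, ← B.NS_insert hv]
  ring

theorem NS_mem (s : Finset ι) : ∀ ℓ : ℕ, ℓ.Prime → ℓ ∣ B.NS s → ℓ ∈ S := by
  intro ℓ hℓ h
  rcases hℓ.dvd_mul.mp h with h | h
  · exact B.N_S ℓ hℓ h
  · obtain ⟨v, -, hv⟩ := hℓ.prime.exists_mem_finset_dvd h
    rw [(Nat.prime_dvd_prime_iff_eq hℓ (B.qT_prime v)).mp hv]
    exact B.qT_S v

theorem lev_mem (A : Auxs B qv) (s : Finset ι) :
    ∀ ℓ : ℕ, ℓ.Prime → ℓ ∣ B.lev qv s → ℓ ∈ (↑(B.Sn qv) : Set ℕ) := by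
  intro ℓ hℓ h
  rcases hℓ.dvd_mul.mp h with h | h
  · exact B.S_sub (B.NS_mem s ℓ hℓ h)
  · obtain ⟨i, -, hi⟩ := hℓ.prime.exists_mem_finset_dvd h
    rw [(Nat.prime_dvd_prime_iff_eq hℓ (A.prime i)).mp hi]
    exact B.qv_mem i

theorem qT_not_dvd_NS {s : Finset ι} {v : ι} (hv : v ∉ s) : ¬ qT v ∣ B.NS s := by
  intro h
  rcases (B.qT_prime v).dvd_mul.mp h with h | h
  · exact B.qT_N v h
  · obtain ⟨w, hw, hvw⟩ := (B.qT_prime v).prime.exists_mem_finset_dvd h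
    exact hv ((B.qT_inj ((Nat.prime_dvd_prime_iff_eq (B.qT_prime v) (B.qT_prime w)).mp hvw)) ▸ hw)

theorem not_dvd_prod (A : Auxs B qv) {q : ℕ} (hq : q.Prime) (hqS : q ∈ S) : ¬ q ∣ ∏ i, qv i := by
  intro h
  obtain ⟨i, -, hi⟩ := hq.prime.exists_mem_finset_dvd h
  rw [(Nat.prime_dvd_prime_iff_eq hq (A.prime i)).mp hi] at hqS
  exact A.notMem i hqS

theorem qT_not_dvd_lev (A : Auxs B qv) {s : Finset ι} {v : ι} (hv : v ∉ s) :
    ¬ qT v ∣ B.lev qv s := by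
  intro h
  rcases (B.qT_prime v).dvd_mul.mp h with h | h
  · exact B.qT_not_dvd_NS hv h
  · exact B.not_dvd_prod A (B.qT_prime v) (B.qT_S v) h

theorem qv_not_dvd_NS (A : Auxs B qv) (s : Finset ι) (i : Fin m) : ¬ qv i ∣ B.NS s := fun h =>
  A.notMem i (B.NS_mem s _ (A.prime i) h)

theorem N_dvd_NS (s : Finset ι) : B.N ∣ B.NS s := Dvd.intro _ rfl

theorem NS_dvd_lev (s : Finset ι) : B.NS s ∣ B.lev qv s := Dvd.intro _ rfl

theorem no_three {M : ℕ} (hM : B.N ∣ M) :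
    ∀ x : SL(2, ℤ), x * (ModularGroup.T * ModularGroup.S) * x⁻¹ ∉ Gamma0 M := by
  obtain ⟨r, hr, hrN, h3⟩ := B.three
  exact fun x => no_order_three hr (hrN.trans hM) h3 x

include B in
theorem isUnit_two [hp : Fact p.Prime] : IsUnit (2 : 𝒪) := by
  by_contra h
  have h2 : (2 : 𝒪) ∈ maximalIdeal 𝒪 := h
  obtain ⟨k, hk⟩ := hp.out.odd_of_ne_two B.p_ne_two
  apply (Ideal.ne_top_iff_one (maximalIdeal 𝒪)).mp (Ideal.IsPrime.ne_top inferInstance)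
  have h3 : (1 : 𝒪) = (p : 𝒪) - 2 * (k : 𝒪) := by
    rw [hk]
    push_cast
    ring
  rw [h3]
  exact sub_mem B.p_mem (Ideal.mul_mem_right _ _ h2)

include B in
theorem charP_res [hp : Fact p.Prime] : CharP (ResidueField 𝒪) p := by
  have h1 : (p : ResidueField 𝒪) = 0 := by
    rw [← map_natCast (residue 𝒪), residue_eq_zero_iff]
    exact B.p_mem
  exact (CharP.charP_iff_prime_eq_zero hp.out).mpr h1

end Base

/-- the trivial character as a square -/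
theorem one_sq_eq {R : Type*} [CommRing R] {M : ℕ} : ((1 : (ZMod M)ˣ →* Rˣ) ^ 2) = 1 :=
  MonoidHom.ext fun u => by rw [MonoidHom.pow_apply, MonoidHom.one_apply, one_pow]

theorem residue_one_sq {R : Type} [CommRing R] [IsLocalRing R] {M : ℕ} (u : (ZMod M)ˣ) :
    residue R ((((1 : (ZMod M)ˣ →* Rˣ) ^ 2) u : Rˣ) : R) = 1 := by
  rw [one_sq_eq, MonoidHom.one_apply, Units.val_one, map_one]

theorem sq_neg_one {R : Type*} [CommRing R] {M : ℕ} (η : (ZMod M)ˣ →* Rˣ) : (η ^ 2) (-1) = 1 := by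
  rw [MonoidHom.pow_apply, ← map_pow, neg_one_sq, map_one]

section Good

variable {𝒪 : Type} [CommRing 𝒪] [IsLocalRing 𝒪] [IsNoetherianRing 𝒪]
  [IsAdicComplete (maximalIdeal 𝒪) 𝒪] {p : ℕ} [hp : Fact p.Prime] {ι : Type} {qT : ι → ℕ}
  {S : Finset ℕ} (B : Base 𝒪 p qT S) {m : ℕ} {qv : Fin m → ℕ} (A : Auxs B qv)

/-- `Good` for trivial coefficients. -/
theorem Base.good_bot {M : ℕ} [NeZero M] (hM : B.N ∣ M) {S' : Finset ℕ} (hS' : S ⊆ S')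
    (hMS : ∀ ℓ : ℕ, ℓ.Prime → ℓ ∣ M → ℓ ∈ (↑S' : Set ℕ)) :
    Good M ((1 : (ZMod M)ˣ →* 𝒪ˣ) ^ 2) (↑S' : Set ℕ) (thOf B.a (↑S' : Set ℕ)) :=
  have := B.charP_res
  S41hm.good_of_strong (sq_neg_one _) B.isUnit_two (Or.inr (B.no_three hM)) residue_one_sq hMS
    (B.ne S' hS')

end Good

/-! ### The group ring and the modules -/

section Lam

variable (𝒪 : Type) [CommRing 𝒪] [IsLocalRing 𝒪] (p : ℕ) {m : ℕ} (qv : Fin m → ℕ)

/-- the coefficient ring -/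
abbrev Lam : Type := MonoidAlgebra 𝒪 (Dia p qv)

theorem isPGroup_Dia' [hp : Fact p.Prime] : IsPGroup p (Dia p qv) := by
  have : NeZero p := ⟨hp.out.ne_zero⟩
  obtain ⟨k, hk⟩ := exists_card_Dia p qv
  exact IsPGroup.of_card hk

theorem isLocalRing_Lam [hp : Fact p.Prime] (hp𝒪 : (p : 𝒪) ∈ maximalIdeal 𝒪) :
    IsLocalRing (Lam 𝒪 p qv) := by
  have : NeZero p := ⟨hp.out.ne_zero⟩
  exact RT.isLocalRing_groupRing hp𝒪 (isPGroup_Dia' p qv)

end Lam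

section Mods

variable {𝒪 : Type} [CommRing 𝒪] [IsLocalRing 𝒪]
  {p : ℕ} {ι : Type} {qT : ι → ℕ} {S : Finset ℕ} (B : Base 𝒪 p qT S) {m : ℕ} (qv : Fin m → ℕ)

/-- the character `η` -/
abbrev Base.eta (s : Finset ι) : (ZMod (B.lev qv s))ˣ →* (Lam 𝒪 p qv)ˣ :=
  taut 𝒪 (tauM p qv (B.lev qv s) (B.qv_dvd s))

variable [IsLocalRing (Lam 𝒪 p qv)]

/-- the residual system with values in the residue field of the group ring -/
abbrev Base.th : PIdx (↑(B.Sn qv) : Set ℕ) → ResidueField (Lam 𝒪 p qv) :=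
  thMap (Lam 𝒪 p qv) (thOf B.a (↑(B.Sn qv) : Set ℕ))

/-- **The modules of the Hecke side.** -/
abbrev Base.MM (s : Finset ι) :=
  Hm (B.lev qv s) (B.eta qv s ^ 2) (Lam 𝒪 p qv) (↑(B.Sn qv) : Set ℕ) (B.th qv)

/-- **The modules of the Hecke side with coefficients `𝒪`.** -/
abbrev Base.M1 (s : Finset ι) :=
  Hm (B.lev qv s) ((1 : (ZMod (B.lev qv s))ˣ →* 𝒪ˣ) ^ 2) 𝒪 (↑(B.Sn qv) : Set ℕ)
    (thOf B.a (↑(B.Sn qv) : Set ℕ))

/-- **The bottom modules.** -/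
abbrev Base.M0 (s : Finset ι) :=
  Hm (B.NS s) ((1 : (ZMod (B.NS s))ˣ →* 𝒪ˣ) ^ 2) 𝒪 (↑S : Set ℕ) (thOf B.a (↑S : Set ℕ))

end Mods

section GoodLam

theorem strong_map {F F' : Type*} [Field F] [Field F'] (ψ : F →+* F') {S : Set ℕ} {θ : PIdx S → F}
    (h : S41hm.StrongNonEis S θ) : S41hm.StrongNonEis S (fun ℓ => ψ (θ ℓ)) where
  one n hn := by
    obtain ⟨ℓ, h1, h2⟩ := h.one n hn
    refine ⟨ℓ, h1, fun h3 => h2 (ψ.injective ?_)⟩
    rw [h3, map_add, map_one, map_natCast]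
  two n hn := by
    obtain ⟨ℓ, h1, h2⟩ := h.two n hn
    refine ⟨ℓ, h1, fun h3 => h2 (ψ.injective ?_)⟩
    rw [map_pow, h3, map_pow, map_add, map_one, map_natCast]

variable {𝒪 : Type} [CommRing 𝒪] [IsLocalRing 𝒪]
  {p : ℕ} [hp : Fact p.Prime] {ι : Type} {qT : ι → ℕ}
  {S : Finset ℕ} (B : Base 𝒪 p qT S) {m : ℕ} {qv : Fin m → ℕ} (A : Auxs B qv)

omit hp in
theorem Base.eta_insert [DecidableEq ι] {s : Finset ι} {v : ι} (hv : v ∉ s) :
    infl (Dvd.intro _ (B.lev_insert (qv := qv) hv)) (B.eta qv s) = B.eta qv (insert v s) := by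
  rw [Base.eta, Base.eta, tauM_comp (B.qv_dvd s) (B.qv_dvd (insert v s))
    (Dvd.intro _ (B.lev_insert (qv := qv) hv))]
  rfl

include B in
theorem Base.isUnit_two_Lam : IsUnit (2 : Lam 𝒪 p qv) := by
  have h := B.isUnit_two.map (algebraMap 𝒪 (Lam 𝒪 p qv))
  rwa [map_ofNat] at h

variable [IsLocalRing (Lam 𝒪 p qv)]

theorem Base.residue_eta (s : Finset ι) (u : (ZMod (B.lev qv s))ˣ) :
    residue (Lam 𝒪 p qv) ((B.eta qv s u : (Lam 𝒪 p qv)ˣ) : Lam 𝒪 p qv) = 1 := by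
  have : NeZero p := ⟨hp.out.ne_zero⟩
  exact HeckeRep.residue_taut B.p_mem (isPGroup_Dia' p qv) _ u

theorem Base.residue_eta_sq (s : Finset ι) (u : (ZMod (B.lev qv s))ˣ) :
    residue (Lam 𝒪 p qv) (((B.eta qv s ^ 2) u : (Lam 𝒪 p qv)ˣ) : Lam 𝒪 p qv) = 1 := by
  rw [MonoidHom.pow_apply, Units.val_pow_eq_pow_val, map_pow, B.residue_eta, one_pow]

theorem Base.strong_th : S41hm.StrongNonEis (↑(B.Sn qv) : Set ℕ) (B.th qv) :=
  strong_map _ (B.ne _ B.S_sub)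

variable [IsNoetherianRing 𝒪] [IsAdicComplete (maximalIdeal 𝒪) 𝒪]

include A in
theorem Base.good_lev (s : Finset ι) :
    Good (B.lev qv s) (B.eta qv s ^ 2) (↑(B.Sn qv) : Set ℕ) (B.th qv) := by
  have : NeZero p := ⟨hp.out.ne_zero⟩
  have : NeZero (B.lev qv s) := ⟨B.lev_ne A s⟩
  have := B.charP_res
  have := HSide.isAdicComplete_groupRing (𝒪 := 𝒪) (Δ := Dia p qv)
  have := HSide.isNoetherianRing_groupRing (𝒪 := 𝒪) (Δ := Dia p qv)
  have := HSide.charP_residueField_groupRing (𝒪 := 𝒪) (Δ := Dia p qv) (p := p)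
  exact S41hm.good_of_strong (sq_neg_one _) B.isUnit_two_Lam
    (Or.inr (B.no_three ((B.N_dvd_NS s).trans (B.NS_dvd_lev s)))) (B.residue_eta_sq s)
    (B.lev_mem A s) B.strong_th

include A in
theorem Base.good_M1 (s : Finset ι) :
    Good (B.lev qv s) ((1 : (ZMod (B.lev qv s))ˣ →* 𝒪ˣ) ^ 2) (↑(B.Sn qv) : Set ℕ)
      (thOf B.a (↑(B.Sn qv) : Set ℕ)) :=
  have : NeZero (B.lev qv s) := ⟨B.lev_ne A s⟩
  B.good_bot ((B.N_dvd_NS s).trans (B.NS_dvd_lev s)) B.S_sub (B.lev_mem A s)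

theorem Base.good_M0 (s : Finset ι) :
    Good (B.NS s) ((1 : (ZMod (B.NS s))ˣ →* 𝒪ˣ) ^ 2) (↑S : Set ℕ) (thOf B.a (↑S : Set ℕ)) :=
  B.good_bot (B.N_dvd_NS s) subset_rfl (B.NS_mem s)

end GoodLam

end Fermat.Agent.HSide
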