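import Fermat.Agent.HSide.MainBot
import Fermat.Agent.RTE.NewSide
import Fermat.Agent.S30
import Fermat.Agent.S59.Sides

/-!
# The Hecke side
-/

set_option autoImplicit false
set_option linter.style.haveILetI false
set_option linter.unusedSectionVars false
set_option linter.unusedVariables false

noncomputable section

open Matrix.SpecialLinearGroup CongruenceSubgroup IsLocalRing
open scoped MatrixGroups

namespace Fermat.Agent.HSide

open TwHecke HeckePar TwExact HeckeRep RTE RTD GalRep Sides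
open Fermat.Agent.RT (aug gr)

section NeS

variable {𝒪 : Type} [CommRing 𝒪] [IsLocalRing 𝒪] {p : ℕ} {ι : Type} {qT : ι → ℕ} {S : Finset ℕ}
  (B : Base 𝒪 p qT S)

include B in
theorem ne_of_notMem_S {ℓ : ℕ} (hℓ : ℓ ∉ S) (v : ι) : ℓ ≠ qT v := fun h => hℓ (h ▸ B.qT_S v)

end NeS

variable {𝒪 : Type} [CommRing 𝒪] [IsLocalRing 𝒪]
  [IsNoetherianRing 𝒪] [IsAdicComplete (maximalIdeal 𝒪) 𝒪] [IsAddTorsionFree 𝒪]
  {p : ℕ} [hp : Fact p.Prime]
  {ι : Type} [DecidableEq ι] {qT : ι → ℕ} {S : Finset ℕ} (B : Base 𝒪 p qT S) {m : ℕ}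

section Abbrev

variable {qv : Fin m → ℕ} [IsLocalRing (Lam 𝒪 p qv)] (A : Auxs B qv)

/-- the bottom modules of the Hecke side -/
abbrev Base.M00 (m : ℕ) (s : Finset ι) : Type := Finset (Fin m) → B.M0 s

/-- the Hecke operators on the bottom modules -/
abbrev Base.T00 (m : ℕ) (s : Finset ι) (ℓ : ℕ) : Module.End 𝒪 (B.M00 m s) :=
  LinearMap.pi fun J => B.T0 s ℓ ∘ₗ LinearMap.proj J

variable {s : Finset ι} {v : ι} (hv : v ∉ s)

/-- the degeneracy maps on the bottom modules -/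
abbrev Base.I1 (m : ℕ) : B.M00 m s →ₗ[𝒪] B.M00 m (insert v s) :=
  LinearMap.pi fun J => B.bi1 hv ∘ₗ LinearMap.proj J

/-- the degeneracy maps on the bottom modules -/
abbrev Base.I2 (m : ℕ) : B.M00 m s →ₗ[𝒪] B.M00 m (insert v s) :=
  LinearMap.pi fun J => B.bi2 hv ∘ₗ LinearMap.proj J

/-- **Ihara's lemma** for the bottom modules of the Hecke side. -/
theorem Base.ihara00 (ϖ : 𝒪) (x y : B.M00 m s) (z : B.M00 m (insert v s))
    (e : B.I1 hv m x + B.I2 hv m y = ϖ • z) :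
    (∃ x', x = ϖ • x') ∧ ∃ y', y = ϖ • y' := by
  have h : ∀ J, (∃ x', x J = ϖ • x') ∧ ∃ y', y J = ϖ • y' := fun J =>
    B.bihara hv ϖ (x J) (y J) (z J) (congrFun e J)
  choose x' hx using fun J => (h J).1
  choose y' hy using fun J => (h J).2
  exact ⟨⟨x', funext hx⟩, ⟨y', funext hy⟩⟩

/-- the projection -/
abbrev Base.pi' (s : Finset ι) : B.MM qv s →+ B.M00 m s := B.pi S30.result stmt35 A s

theorem Base.pi'_T (s : Finset ι) {ℓ : ℕ} (hq : ∀ i, ℓ ≠ qv i) (x : B.MM qv s) :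
    B.pi' A s (B.T qv s ℓ x) = B.T00 m s ℓ (B.pi' A s x) :=
  funext fun J => B.pi_T S30.result stmt35 A s hq x J

theorem Base.pi'_i1 (x : B.MM qv s) :
    B.pi' A (insert v s) (B.mi1 qv hv x) = B.I1 hv m (B.pi' A s x) :=
  funext fun J => B.pi_mi1 S30.result stmt35 A hv x J

theorem Base.pi'_i2 (x : B.MM qv s) :
    B.pi' A (insert v s) (B.mi2 qv hv x) = B.I2 hv m (B.pi' A s x) :=
  funext fun J => B.pi_mi2 S30.result stmt35 A hv x J

end Abbrev

variable {qv : ℕ → Fin m → ℕ} [∀ n, IsLocalRing (Lam 𝒪 p (qv n))] (A : ∀ n, Auxs B (qv n))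

set_option maxHeartbeats 1000000 in
/-- **The Hecke side.** -/
def Base.side : HeckeSide 𝒪 p qv qT S where
  M s n := B.MM (qv n) s
  acg := fun s n => inferInstance
  mod := fun s n => inferInstance
  d s := 2 ^ m * Module.finrank 𝒪 (B.M0 s)
  b s n := B.nonempty_basis S30.result stmt35 (A n) s
  T s n ℓ := B.T (qv n) s ℓ
  i1 s v hv n := B.mi1 (qv n) hv
  i2 s v hv n := B.mi2 (qv n) hv
  j1 s v hv n := B.mj1 hv (A n)
  j2 s v hv n := B.mj2 hv (A n)
  i1_T s v hv n ℓ _ hS _ x := B.mi1_T (qv := qv n) hv (ne_of_notMem_S B hS v) x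
  i2_T s v hv n ℓ _ hS _ x := B.mi2_T (qv := qv n) hv (ne_of_notMem_S B hS v) x
  j1_T s v hv n ℓ _ hS _ x := B.mj1_T (qv := qv n) hv (A n) (ne_of_notMem_S B hS v) x
  j2_T s v hv n ℓ _ hS _ x := B.mj2_T (qv := qv n) hv (A n) (ne_of_notMem_S B hS v) x
  j1_i1 s v hv n x := B.mj1_mi1 (qv := qv n) hv (A n) x
  j1_i2 s v hv n x := B.mj1_mi2 (qv := qv n) hv (A n) x
  j2_i1 s v hv n x := B.mj2_mi1 (qv := qv n) hv (A n) x
  j2_i2 s v hv n x := B.mj2_mi2 (qv := qv n) hv (A n) x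
  M₀ s := Finset (Fin m) → B.M0 s
  acg₀ s := inferInstance
  mod₀ s := inferInstance
  T₀ s ℓ := LinearMap.pi fun J => B.T0 s ℓ ∘ₗ LinearMap.proj J
  π s n := B.pi S30.result stmt35 (A n) s
  π_smul s n l x := B.pi_smul S30.result stmt35 (A n) s l x
  π_T s n ℓ _ _ hq x := B.pi'_T (A n) s hq x
  π_surjective s n := B.pi_surjective S30.result stmt35 (A n) s
  π_ker s n x hx := B.pi_ker S30.result stmt35 (A n) s x hx
  I1 _ _ hv := LinearMap.pi fun J => B.bi1 hv ∘ₗ LinearMap.proj J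
  I2 _ _ hv := LinearMap.pi fun J => B.bi2 hv ∘ₗ LinearMap.proj J
  π_i1 s v hv n x := B.pi'_i1 (A n) hv x
  π_i2 s v hv n x := B.pi'_i2 (A n) hv x
  ihara ϖ _ s v hv x y z e := B.ihara00 hv ϖ x y z e

end Fermat.Agent.HSide
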