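import Fermat.Agent.HSide.Comm
import Fermat.Agent.RTE.Level

/-!
# The bottom level: `Hm` of level `N ∏ qv i` as a sum of copies of `Hm` of level `N`
-/

set_option autoImplicit false
set_option linter.style.haveILetI false
set_option linter.unusedSectionVars false

noncomputable section

open CongruenceSubgroup ModularCurve ModularCurve.Period Polynomial IsLocalRing

namespace Fermat.Agent.HSide

open Fermat.Agent.TwExact Fermat.Agent.TwHecke Fermat.Agent.HeckePar Fermat.Agent.GalRep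
  Fermat.Agent.RTE

/-! ### Sums of degeneracy maps -/

section BotSum

variable {ι : Type*} [Fintype ι] {N M' : ℕ} {R : Type*} [CommRing R]
  {ε : (ZMod N)ˣ →* Rˣ} {ε' : (ZMod M')ˣ →* Rˣ} (A : Type*) [AddCommGroup A] [Module R A]

/-- `x ↦ ∑_J B_{∏_{i ∈ J} q_i} x_J`. -/
def botSum (qv : ι → ℕ) (h0 : ∀ i, qv i ≠ 0) (h : ∀ J : Finset ι, N * ∏ i ∈ J, qv i ∣ M')
    (hN : N ∣ M') (hε : infl hN ε = ε') : (Finset ι → HM N ε A) →ₗ[R] HM M' ε' A :=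
  ∑ J : Finset ι, (dg A (Finset.prod_ne_zero_iff.mpr fun i _ => h0 i) (h J) hε) ∘ₗ
    LinearMap.proj J

variable {A} {qv : ι → ℕ} (h0 : ∀ i, qv i ≠ 0) (h : ∀ J : Finset ι, N * ∏ i ∈ J, qv i ∣ M')
  (hN : N ∣ M') (hε : infl hN ε = ε')

theorem botSum_apply (x : Finset ι → HM N ε A) : botSum A qv h0 h hN hε x =
    ∑ J : Finset ι, dg A (Finset.prod_ne_zero_iff.mpr fun i _ => h0 i) (h J) hε (x J) := by
  simp [botSum]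

theorem botSum_map {B : Type*} [AddCommGroup B] [Module R B] (f : A →ₗ[R] B)
    (x : Finset ι → HM N ε A) :
    botSum B qv h0 h hN hε (fun J => H1.map _ f (x J)) =
      H1.map _ f (botSum A qv h0 h hN hε x) := by
  rw [botSum_apply, botSum_apply, map_sum]
  exact Finset.sum_congr rfl fun J _ => dg_map _ _ _ f (x J)

theorem botSum_heckeH {p : ℕ} [hp : Fact p.Prime] (hpq : ∀ i, ¬ p ∣ qv i)
    (hpM : p ∣ M' ↔ p ∣ N) (x : Finset ι → HM N ε A) :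
    botSum A qv h0 h hN hε (fun J => heckeH N p ε A (x J)) =
      heckeH M' p ε' A (botSum A qv h0 h hN hε x) := by
  rw [botSum_apply, botSum_apply, map_sum]
  refine Finset.sum_congr rfl fun J _ => dg_heckeH _ _ _ ?_ hpM (x J)
  intro hd
  obtain ⟨i, _, hi⟩ := (Prime.dvd_finsetProd_iff hp.out.prime _).mp hd
  exact hpq i hi

/-- Sums of degeneracy maps commute with a further degeneracy map. -/
theorem botSum_dg {N₁ M₁' e : ℕ} {ε₁ : (ZMod N₁)ˣ →* Rˣ} {ε₁' : (ZMod M₁')ˣ →* Rˣ}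
    (he : e ≠ 0) (h₁ : ∀ J : Finset ι, N₁ * ∏ i ∈ J, qv i ∣ M₁') (hN₁ : N₁ ∣ M₁')
    (hε₁ : infl hN₁ ε₁ = ε₁') (hNe : N * e ∣ N₁) (hMe : M' * e ∣ M₁')
    (hεe : infl (dvd_of_mul hNe) ε = ε₁) (hεe' : infl (dvd_of_mul hMe) ε' = ε₁')
    (x : Finset ι → HM N ε A) :
    botSum A qv h0 h₁ hN₁ hε₁ (fun J => dg A he hNe hεe (x J)) =
      dg A he hMe hεe' (botSum A qv h0 h hN hε x) := by
  rw [botSum_apply, botSum_apply, map_sum]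
  refine Finset.sum_congr rfl fun J _ => ?_
  have hd0 : (∏ i ∈ J, qv i) ≠ 0 := Finset.prod_ne_zero_iff.mpr fun i _ => h0 i
  have hdvd : N * ((∏ i ∈ J, qv i) * e) ∣ M₁' := by
    rw [← mul_assoc]
    exact (mul_dvd_mul_right (h J) e).trans hMe
  have hε2 : infl (dvd_of_mul hdvd) ε = ε₁' := by
    subst hε hεe'
    ext u
    show ((ε (ZMod.unitsMap _ u) : Rˣ) : R) = ε (ZMod.unitsMap _ (ZMod.unitsMap _ u))
    rw [← MonoidHom.comp_apply (ZMod.unitsMap _) (ZMod.unitsMap _) u, ZMod.unitsMap_comp]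
  rw [dg_dg hd0 he (mul_ne_zero hd0 he) rfl (h J) hMe hdvd hε hεe' hε2,
    dg_dg he hd0 (mul_ne_zero hd0 he) (mul_comm _ _) hNe (h₁ J) hdvd hεe hε₁ hε2]

variable {v : ℕ} (hv : v.Prime) (hvN : ¬ v ∣ N) (hvM : ¬ v ∣ M') {N₁ M₁' : ℕ}
  (hNv : N * v = N₁) (hMv : M' * v = M₁') {ε₁ : (ZMod N₁)ˣ →* Rˣ} {ε₁' : (ZMod M₁')ˣ →* Rˣ}
  (h₁ : ∀ J : Finset ι, N₁ * ∏ i ∈ J, qv i ∣ M₁') (hN₁ : N₁ ∣ M₁') (hε₁ : infl hN₁ ε₁ = ε₁')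
  (hεv : infl (Dvd.intro v hNv) ε = ε₁) (hεv' : infl (Dvd.intro v hMv) ε' = ε₁')

/-- Sums of degeneracy maps commute with the trace at another prime. -/
theorem botSum_tg (x : Finset ι → HM N₁ ε₁ A) :
    botSum A qv h0 h hN hε (fun J => tg hv hvN hNv A hεv (x J)) =
      tg hv hvM hMv A hεv' (botSum A qv h0 h₁ hN₁ hε₁ x) := by
  rw [botSum_apply, botSum_apply, map_sum]
  exact Finset.sum_congr rfl fun J _ =>
    (tg_dg_comm hv hvN hvM hNv hMv _ (h J) (h₁ J) hεv hεv' hε hε₁ (x J)).symm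

theorem botSum_tB (x : Finset ι → HM N₁ ε₁ A) :
    botSum A qv h0 h hN hε (fun J => tB hv hvN hNv A hεv (x J)) =
      tB hv hvM hMv A hεv' (botSum A qv h0 h₁ hN₁ hε₁ x) := by
  rw [botSum_apply, botSum_apply, map_sum]
  exact Finset.sum_congr rfl fun J _ =>
    (tB_dg_comm hv hvN hvM hNv hMv _ (h J) (h₁ J) hεv hεv' hε hε₁ (x J)).symm

include h hε in
theorem botSum_wg (x : Finset ι → HM N₁ ε₁ A) :
    botSum A qv h0 h₁ hN₁ hε₁ (fun J => wg hv hvN hNv A hεv (x J)) =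
      wg hv hvM hMv A hεv' (botSum A qv h0 h₁ hN₁ hε₁ x) := by
  rw [botSum_apply, botSum_apply, map_sum]
  exact Finset.sum_congr rfl fun J _ =>
    (wg_dg_comm hv hvN hvM hNv hMv _ (h J) (h₁ J) hεv hεv' hε hε₁ (x J)).symm

end BotSum

/-! ### Degeneracy maps on the `𝔪`-parts -/

section Mem

variable {M M' : ℕ} {R : Type} [CommRing R] [IsLocalRing R] {ε : (ZMod M)ˣ →* Rˣ}
  {ε' : (ZMod M')ˣ →* Rˣ} {A : Type} [AddCommGroup A] [Module R A] {S : Set ℕ}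
  {θ : PIdx S → ResidueField R}

theorem dg_mem_Hm {d : ℕ} (hd : d ≠ 0) (h : M * d ∣ M') (hε : infl (dvd_of_mul h) ε = ε')
    (hS : ∀ ℓ : PIdx S, ¬ (ℓ.1 : ℕ) ∣ d) (hS' : ∀ ℓ : PIdx S, (ℓ.1 : ℕ) ∣ M' ↔ (ℓ.1 : ℕ) ∣ M)
    {x : HM M ε A} (hx : x ∈ Hm M ε A S θ) : dg A hd h hε x ∈ Hm M' ε' A S θ :=
  map_mem_mpart _ _ _ (fun i x => by
    haveI : Fact (i.1 : ℕ).Prime := ⟨i.1.2⟩
    exact dg_heckeH hd h hε (hS i) (hS' i) x) hx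

theorem tg_mem_Hm {q : ℕ} (hq : q.Prime) (hqM : ¬ q ∣ M) (h : M * q = M')
    (hε : infl (Dvd.intro q h) ε = ε') (hS : ∀ ℓ : PIdx S, (ℓ.1 : ℕ) ≠ q)
    {x : HM M' ε' A} (hx : x ∈ Hm M' ε' A S θ) : tg hq hqM h A hε x ∈ Hm M ε A S θ :=
  map_mem_mpart _ _ _ (fun i x => by
    haveI : Fact (i.1 : ℕ).Prime := ⟨i.1.2⟩
    exact tg_heckeH hq hqM h hε (hS i) x) hx

theorem wg_mem_Hm {q : ℕ} (hq : q.Prime) (hqM : ¬ q ∣ M) (h : M * q = M')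
    (hε : infl (Dvd.intro q h) ε = ε') (hS : ∀ ℓ : PIdx S, (ℓ.1 : ℕ) ≠ q)
    {x : HM M' ε' A} (hx : x ∈ Hm M' ε' A S θ) : wg hq hqM h A hε x ∈ Hm M' ε' A S θ :=
  map_mem_mpart _ _ _ (fun i x => by
    haveI : Fact (i.1 : ℕ).Prime := ⟨i.1.2⟩
    exact wg_heckeH hq hqM h hε (hS i) x) hx

theorem tB_mem_Hm {q : ℕ} (hq : q.Prime) (hqM : ¬ q ∣ M) (h : M * q = M')
    (hε : infl (Dvd.intro q h) ε = ε') (hS : ∀ ℓ : PIdx S, (ℓ.1 : ℕ) ≠ q)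
    {x : HM M' ε' A} (hx : x ∈ Hm M' ε' A S θ) : tB hq hqM h A hε x ∈ Hm M ε A S θ :=
  tg_mem_Hm hq hqM h hε hS (wg_mem_Hm hq hqM h hε hS hx)

end Mem

/-! ### The equivalence -/

section Psum

variable (𝒪 : Type) [CommRing 𝒪]

/-- the degeneracy map for trivial characters, `0` if it is not defined. -/
def dgo (N M' d : ℕ) : HM N (1 : (ZMod N)ˣ →* 𝒪ˣ) 𝒪 →ₗ[𝒪] HM M' (1 : (ZMod M')ˣ →* 𝒪ˣ) 𝒪 :=
  open scoped Classical in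
  if h : d ≠ 0 ∧ N * d ∣ M' then dg 𝒪 h.1 h.2 rfl else 0

theorem dgo_eq {N M' d : ℕ} (hd : d ≠ 0) (h : N * d ∣ M') :
    dgo 𝒪 N M' d = dg 𝒪 hd h rfl := by
  rw [dgo, dif_pos ⟨hd, h⟩]

variable {ι : Type} [DecidableEq ι]

/-- partial sums -/
def psum (N M' : ℕ) (qv : ι → ℕ) (s : Finset ι)
    (x : Finset ι → HM N (1 : (ZMod N)ˣ →* 𝒪ˣ) 𝒪) : HM M' (1 : (ZMod M')ˣ →* 𝒪ˣ) 𝒪 :=
  ∑ J ∈ s.powerset, dgo 𝒪 N M' (∏ i ∈ J, qv i) (x J)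

theorem psum_insert {N M₁ M' : ℕ} {qv : ι → ℕ} (h0 : ∀ i, qv i ≠ 0) {s : Finset ι} {v : ι}
    (hv : v ∉ s) (hM₁ : M₁ = N * ∏ i ∈ s, qv i) (h1 : M₁ * 1 ∣ M') (hM' : M₁ * qv v ∣ M')
    (x : Finset ι → HM N (1 : (ZMod N)ˣ →* 𝒪ˣ) 𝒪) :
    psum 𝒪 N M' qv (insert v s) x = dg 𝒪 one_ne_zero h1 rfl (psum 𝒪 N M₁ qv s x) +
      dg 𝒪 (h0 v) hM' rfl (psum 𝒪 N M₁ qv s (fun J => x (insert v J))) := by
  rw [psum, Finset.sum_powerset_insert hv, psum, psum, map_sum, map_sum]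
  have hd0 : ∀ J : Finset ι, (∏ i ∈ J, qv i) ≠ 0 := fun J =>
    Finset.prod_ne_zero_iff.mpr fun i _ => h0 i
  have hdvd : ∀ J ∈ s.powerset, N * ∏ i ∈ J, qv i ∣ M₁ := by
    intro J hJ
    rw [hM₁]
    exact mul_dvd_mul_left _ (Finset.prod_dvd_prod_of_subset _ _ _ (Finset.mem_powerset.mp hJ))
  congr 1
  · refine Finset.sum_congr rfl fun J hJ => ?_
    have h2 : N * ∏ i ∈ J, qv i ∣ M' := (hdvd J hJ).trans (by rwa [mul_one] at h1)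
    rw [dgo_eq 𝒪 (hd0 J) (hdvd J hJ), dgo_eq 𝒪 (hd0 J) h2,
      dg_dg (ε := 1) (ε' := 1) (ε'' := 1) (hd0 J) one_ne_zero (hd0 J) (mul_one _).symm
        (hdvd J hJ) h1 h2 rfl rfl rfl]
  · refine Finset.sum_congr rfl fun J hJ => ?_
    have hvJ : v ∉ J := fun h => hv (Finset.mem_powerset.mp hJ h)
    have h2 : (∏ i ∈ insert v J, qv i) = (∏ i ∈ J, qv i) * qv v := by
      rw [Finset.prod_insert hvJ, mul_comm]
    have h3 : N * ∏ i ∈ insert v J, qv i ∣ M' := by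
      rw [h2, ← mul_assoc]
      exact (mul_dvd_mul_right (hdvd J hJ) _).trans hM'
    rw [dgo_eq 𝒪 (hd0 J) (hdvd J hJ), dgo_eq 𝒪 (hd0 _) h3,
      dg_dg (ε := 1) (ε' := 1) (ε'' := 1) (hd0 J) (h0 v) (hd0 _) h2 (hdvd J hJ) hM' h3
        rfl rfl rfl]

end Psum

section Equiv

variable {𝒪 : Type} [CommRing 𝒪] [IsLocalRing 𝒪] [IsNoetherianRing 𝒪]
  [IsAdicComplete (maximalIdeal 𝒪) 𝒪] [IsAddTorsionFree 𝒪] {p : ℕ} [hp : Fact p.Prime]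
  {ι : Type} [DecidableEq ι]

theorem psum_mem_Hm {N M' : ℕ} {qv : ι → ℕ} (h0 : ∀ i, qv i ≠ 0) {S : Set ℕ}
    {θ : PIdx S → ResidueField 𝒪} {s : Finset ι} (hM' : M' = N * ∏ i ∈ s, qv i)
    (hqS : ∀ (ℓ : PIdx S), ∀ i ∈ s, ¬ (ℓ.1 : ℕ) ∣ qv i)
    {x : Finset ι → HM N (1 : (ZMod N)ˣ →* 𝒪ˣ) 𝒪}
    (hx : ∀ J ∈ s.powerset, x J ∈ Hm N (1 : (ZMod N)ˣ →* 𝒪ˣ) 𝒪 S θ) :
    psum 𝒪 N M' qv s x ∈ Hm M' (1 : (ZMod M')ˣ →* 𝒪ˣ) 𝒪 S θ := by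
  have hd : ∀ (ℓ : PIdx S), ∀ J ∈ s.powerset, ¬ (ℓ.1 : ℕ) ∣ ∏ i ∈ J, qv i := by
    intro ℓ J hJ h
    obtain ⟨i, hi, hi'⟩ := (Prime.dvd_finsetProd_iff ℓ.1.2.prime _).mp h
    exact hqS ℓ i (Finset.mem_powerset.mp hJ hi) hi'
  rw [psum]
  refine Submodule.sum_mem _ fun J hJ => ?_
  have h1 : N * ∏ i ∈ J, qv i ∣ M' := by
    rw [hM']
    exact mul_dvd_mul_left _ (Finset.prod_dvd_prod_of_subset _ _ _ (Finset.mem_powerset.mp hJ))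
  have hd0 : (∏ i ∈ J, qv i) ≠ 0 := Finset.prod_ne_zero_iff.mpr fun i _ => h0 i
  have h2 : ∀ ℓ : PIdx S, (ℓ.1 : ℕ) ∣ M' ↔ (ℓ.1 : ℕ) ∣ N := by
    intro ℓ
    rw [hM', ℓ.1.2.dvd_mul]
    exact or_iff_left (hd ℓ s (Finset.mem_powerset_self s))
  have h3 : infl (dvd_of_mul h1) (1 : (ZMod N)ˣ →* 𝒪ˣ) = 1 := rfl
  have h4 : dg 𝒪 hd0 h1 h3 (x J) ∈ Hm M' (1 : (ZMod M')ˣ →* 𝒪ˣ) 𝒪 S θ :=
    dg_mem_Hm hd0 h1 h3 (fun ℓ => hd ℓ J hJ) h2 (hx J hJ)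
  rw [dgo_eq 𝒪 hd0 h1]
  exact h4

/-- **The level `N ∏ q`**, for partial products. -/
theorem psum_bijective (h30 : S29aux.S30Statement) (h35 : Stmt35) {N : ℕ} [NeZero N]
    {S₀ S : Finset ℕ} (hS : S₀ ⊆ S) (hpS : p ∈ S₀)
    (hNS : ∀ r : ℕ, r.Prime → r ∣ N → r ∈ S₀)
    (hp𝒪 : (p : 𝒪) ∈ maximalIdeal 𝒪)
    (ρb : ResidualGaloisRep (ResidueField 𝒪)) {a : ℕ → ResidueField 𝒪}
    (hρ : ∀ ℓ : ℕ, ℓ.Prime → ℓ ∉ S₀ → HasFrob ρb ℓ (a ℓ))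
    (hE : ∀ m : ℕ, 0 < m → ∃ ℓ : PIdx (↑S : Set ℕ), (m : ℤ) ∣ ((ℓ.1 : ℕ) : ℤ) - 1 ∧
      thOf a (↑S : Set ℕ) ℓ ≠ (((ℓ.1 : ℕ) : ℕ) : ResidueField 𝒪) + 1)
    (qv : ι → ℕ) (hinj : Function.Injective qv) (hqv : ∀ i, (qv i).Prime)
    (hqS₀ : ∀ i, qv i ∉ S₀) (hqS : ∀ i, qv i ∈ S)
    (ha : ∀ i, a (qv i) ^ 2 ≠ ((qv i : ResidueField 𝒪) + 1) ^ 2) (s : Finset ι) :
    ∀ M' : ℕ, M' = N * ∏ i ∈ s, qv i →
    (∀ x : Finset ι → HM N (1 : (ZMod N)ˣ →* 𝒪ˣ) 𝒪,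
      (∀ J ∈ s.powerset, x J ∈ Hm N (1 : (ZMod N)ˣ →* 𝒪ˣ) 𝒪 (↑S : Set ℕ) (thOf a (↑S : Set ℕ))) →
      psum 𝒪 N M' qv s x = 0 → ∀ J ∈ s.powerset, x J = 0) ∧
    (∀ z ∈ Hm M' (1 : (ZMod M')ˣ →* 𝒪ˣ) 𝒪 (↑S : Set ℕ) (thOf a (↑S : Set ℕ)),
      ∃ x : Finset ι → HM N (1 : (ZMod N)ˣ →* 𝒪ˣ) 𝒪,
      (∀ J, x J ∈ Hm N (1 : (ZMod N)ˣ →* 𝒪ˣ) 𝒪 (↑S : Set ℕ) (thOf a (↑S : Set ℕ))) ∧
        psum 𝒪 N M' qv s x = z) := by
  induction s using Finset.induction_on with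
  | empty =>
    intro M' hM'
    rw [Finset.prod_empty, mul_one] at hM'
    subst hM'
    have key : ∀ x : Finset ι → HM M' (1 : (ZMod M')ˣ →* 𝒪ˣ) 𝒪,
        psum 𝒪 M' M' qv ∅ x = x ∅ := by
      intro x
      have h1 : M' * ∏ i ∈ (∅ : Finset ι), qv i ∣ M' := by
        rw [Finset.prod_empty, mul_one]
      have h0 : (∏ i ∈ (∅ : Finset ι), qv i) ≠ 0 := by
        rw [Finset.prod_empty]; exact one_ne_zero
      rw [psum, Finset.powerset_empty, Finset.sum_singleton, dgo_eq 𝒪 h0 h1]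
      refine (dg_one Finset.prod_empty h0 h1 (x ∅)).trans ?_
      induction x ∅ using H1.ind with
      | h c =>
        rw [res_mk]
        congr 1
        ext g
        rw [resZ_apply]
        rfl
    constructor
    · intro x _ hx J hJ
      rw [Finset.powerset_empty, Finset.mem_singleton] at hJ
      rw [hJ, ← key x]
      exact hx
    · intro z hz
      exact ⟨fun _ => z, fun _ => hz, key _⟩
  | insert v s hvs ih =>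
    intro M' hM'
    obtain ⟨M₁, hM₁⟩ : ∃ M₁, M₁ = N * ∏ i ∈ s, qv i := ⟨_, rfl⟩
    obtain ⟨ih1, ih2⟩ := ih M₁ hM₁
    have hM : M' = M₁ * qv v := by
      rw [hM', Finset.prod_insert hvs, hM₁]
      ring
    subst hM
    have h0 : ∀ i, qv i ≠ 0 := fun i => (hqv i).ne_zero
    haveI : NeZero M₁ := ⟨by
      rw [hM₁]
      exact mul_ne_zero (NeZero.ne N) (Finset.prod_ne_zero_iff.mpr fun r _ => h0 r)⟩
    have hM₁S : ∀ r : ℕ, r.Prime → r ∣ M₁ → r ∈ S := by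
      intro r hr hrM
      rw [hM₁] at hrM
      rcases (Nat.Prime.dvd_mul hr).mp hrM with h | h
      · exact hS (hNS r hr h)
      · obtain ⟨i, hi, hi'⟩ := (Prime.dvd_finsetProd_iff hr.prime _).mp h
        rw [(Nat.prime_dvd_prime_iff_eq hr (hqv i)).mp hi']
        exact hqS i
    have hqM₁ : ¬ qv v ∣ M₁ := by
      intro h
      rw [hM₁] at h
      rcases (Nat.Prime.dvd_mul (hqv v)).mp h with h | h
      · exact hqS₀ v (hNS _ (hqv v) h)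
      · obtain ⟨i, hi, hi'⟩ := (Prime.dvd_finsetProd_iff (hqv v).prime _).mp h
        have h1 := hinj ((Nat.prime_dvd_prime_iff_eq (hqv v) (hqv i)).mp hi')
        rw [h1] at hvs
        exact hvs hi
    have hSq : ∀ ℓ : PIdx (↑S : Set ℕ), (ℓ.1 : ℕ) ≠ qv v := fun ℓ h => ℓ.2 (h ▸ hqS v)
    have hqS' : ∀ (ℓ : PIdx (↑S : Set ℕ)), ∀ i ∈ s, ¬ (ℓ.1 : ℕ) ∣ qv i := by
      intro ℓ i _ h
      exact ℓ.2 ((Nat.prime_dvd_prime_iff_eq ℓ.1.2 (hqv i)).mp h ▸ hqS i)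
    have hbij := levelMap_bijective (p := p) h30 h35 (hqv v) hqM₁ hS hpS (hqS₀ v) (hqS v) hM₁S
      hp𝒪 (ε := 1) rfl ρb hρ hE (ha v) hSq
    have h1 : M₁ * 1 ∣ M₁ * qv v := by rw [mul_one]; exact dvd_mul_right _ _
    have hsplit := psum_insert 𝒪 h0 hvs hM₁ h1 (dvd_refl (M₁ * qv v))
    have hres : ∀ x : HM M₁ (1 : (ZMod M₁)ˣ →* 𝒪ˣ) 𝒪,
        dg 𝒪 one_ne_zero h1 (rfl : infl _ 1 = 1) x =
          res (dvd_mul_right M₁ (qv v)) (1 : (ZMod M₁)ˣ →* 𝒪ˣ) 𝒪 x :=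
      fun x => dg_one rfl one_ne_zero h1 x
    have hdeg : ∀ x : HM M₁ (1 : (ZMod M₁)ˣ →* 𝒪ˣ) 𝒪,
        dg 𝒪 (h0 v) (dvd_refl (M₁ * qv v)) (rfl : infl _ 1 = 1) x =
          degB (hqv v).ne_zero (dvd_refl (M₁ * qv v)) (1 : (ZMod M₁)ˣ →* 𝒪ˣ) 𝒪 x :=
      fun x => rfl
    constructor
    · intro x hx hx0 J hJ
      have hx1 : ∀ J ∈ s.powerset, x J ∈ Hm N (1 : (ZMod N)ˣ →* 𝒪ˣ) 𝒪 (↑S : Set ℕ)
          (thOf a (↑S : Set ℕ)) := fun J hJ => hx J (Finset.mem_powerset.mpr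
        ((Finset.mem_powerset.mp hJ).trans (Finset.subset_insert _ _)))
      have hx2 : ∀ J ∈ s.powerset, x (insert v J) ∈ Hm N (1 : (ZMod N)ˣ →* 𝒪ˣ) 𝒪 (↑S : Set ℕ)
          (thOf a (↑S : Set ℕ)) := fun J hJ => hx _ (Finset.mem_powerset.mpr
        (Finset.insert_subset_insert _ (Finset.mem_powerset.mp hJ)))
      have hm1 := psum_mem_Hm h0 hM₁ hqS' hx1
      have hm2 := psum_mem_Hm h0 hM₁ hqS' hx2
      rw [hsplit, hres, hdeg] at hx0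
      have h2 : levelMap 1 𝒪 (thOf a (↑S : Set ℕ)) (hqv v) hSq (⟨_, hm1⟩, ⟨_, hm2⟩) = 0 :=
        Subtype.ext hx0
      have h3 := (injective_iff_map_eq_zero _).mp hbij.1 _ h2
      have h4 := congrArg (fun z => (z.1 : HM M₁ (1 : (ZMod M₁)ˣ →* 𝒪ˣ) 𝒪)) h3
      have h5 := congrArg (fun z => (z.2 : HM M₁ (1 : (ZMod M₁)ˣ →* 𝒪ˣ) 𝒪)) h3
      have h6 := ih1 _ hx1 h4
      have h7 := ih1 _ hx2 h5
      rw [Finset.powerset_insert, Finset.mem_union, Finset.mem_image] at hJ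
      rcases hJ with hJ | ⟨J', hJ', rfl⟩
      · exact h6 J hJ
      · exact h7 J' hJ'
    · intro z hz
      obtain ⟨⟨⟨z1, hz1⟩, ⟨z2, hz2⟩⟩, hz12⟩ := hbij.2 ⟨z, hz⟩
      obtain ⟨x1, hx1, hx1'⟩ := ih2 z1 hz1
      obtain ⟨x2, hx2, hx2'⟩ := ih2 z2 hz2
      have h8 := congrArg Subtype.val hz12
      rw [coe_levelMap] at h8
      refine ⟨fun J => if v ∈ J then x2 (J.erase v) else x1 J, fun J => ?_, ?_⟩
      · by_cases h : v ∈ J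
        · simp only [h, if_true]
          exact hx2 _
        · simp only [h, if_false]
          exact hx1 _
      · rw [hsplit, hres, hdeg]
        have e1 : psum 𝒪 N M₁ qv s (fun J => if v ∈ J then x2 (J.erase v) else x1 J) = z1 := by
          rw [← hx1', psum, psum]
          refine Finset.sum_congr rfl fun J hJ => ?_
          rw [if_neg fun h => hvs (Finset.mem_powerset.mp hJ h)]
        have e2 : psum 𝒪 N M₁ qv s (fun J => (fun J => if v ∈ J then x2 (J.erase v) else x1 J)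
            (insert v J)) = z2 := by
          rw [← hx2', psum, psum]
          refine Finset.sum_congr rfl fun J hJ => ?_
          show dgo 𝒪 N M₁ _ (if v ∈ insert v J then x2 ((insert v J).erase v) else _) = _
          rw [if_pos (Finset.mem_insert_self _ _), Finset.erase_insert
            fun h => hvs (Finset.mem_powerset.mp hJ h)]
        rw [e1, e2]
        exact h8

/-- `Hm` of level `N` does not depend on the omitted primes. -/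
theorem Hm_eq_S (h30 : S29aux.S30Statement) {N : ℕ} [NeZero N]
    {S₀ S : Finset ℕ} (hS : S₀ ⊆ S) (hpS : p ∈ S₀)
    (hNS : ∀ r : ℕ, r.Prime → r ∣ N → r ∈ S₀)
    (hp𝒪 : (p : 𝒪) ∈ maximalIdeal 𝒪) {ε : (ZMod N)ˣ →* 𝒪ˣ} (hε : ε = 1)
    (ρb : ResidualGaloisRep (ResidueField 𝒪)) {a : ℕ → ResidueField 𝒪}
    (hρ : ∀ ℓ : ℕ, ℓ.Prime → ℓ ∉ S₀ → HasFrob ρb ℓ (a ℓ))
    (hE : ∀ m : ℕ, 0 < m → ∃ ℓ : PIdx (↑S : Set ℕ), (m : ℤ) ∣ ((ℓ.1 : ℕ) : ℤ) - 1 ∧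
      thOf a (↑S : Set ℕ) ℓ ≠ (((ℓ.1 : ℕ) : ℕ) : ResidueField 𝒪) + 1) :
    Hm N ε 𝒪 (↑S : Set ℕ) (thOf a (↑S : Set ℕ)) = Hm N ε 𝒪 (↑S₀ : Set ℕ)
      (thOf a (↑S₀ : Set ℕ)) := by
  refine Hm_eq_of_subset (p := p) h30 (S₁ := S₀) (S := S) (Finset.coe_subset.mpr hS) hpS hNS
    hp𝒪 hε (θ₁ := thOf a (↑S₀ : Set ℕ)) ρb (fun ℓ => hρ _ ℓ.1.2 ℓ.2) ?_
  obtain ⟨ℓ, h1, h2⟩ := hE (2 * N) (Nat.mul_pos two_pos (NeZero.pos N))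
  refine ⟨ℓ, ?_, ?_, h2⟩
  · have h3 : (N : ℤ) ∣ ((ℓ.1 : ℕ) : ℤ) - 1 :=
      (Dvd.intro_left (2 : ℤ) (by push_cast; ring)).trans h1
    have h4 := (ZMod.intCast_zmod_eq_zero_iff_dvd _ _).mpr h3
    push_cast at h4
    exact sub_eq_zero.mp h4
  · have h3 : (2 : ℤ) ∣ ((ℓ.1 : ℕ) : ℤ) - 1 :=
      (Dvd.intro (N : ℤ) (by push_cast; ring)).trans h1
    have h4 : Odd ((ℓ.1 : ℕ) : ℤ) := by
      obtain ⟨c, hc⟩ := h3
      exact ⟨c, by linarith⟩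
    exact_mod_cast h4

/-- The hypotheses on the auxiliary primes. -/
structure BotInput (p : ℕ) (𝒪 : Type) [CommRing 𝒪] [IsLocalRing 𝒪] {ι : Type} [Fintype ι]
    (S₀ S : Finset ℕ) (a : ℕ → ResidueField 𝒪) (qv : ι → ℕ) : Prop where
  h30 : S29aux.S30Statement
  h35 : Stmt35
  hS : S₀ ⊆ S
  hpS : p ∈ S₀
  hp𝒪 : (p : 𝒪) ∈ maximalIdeal 𝒪
  hrep : ∃ ρb : ResidualGaloisRep (ResidueField 𝒪),
    ∀ ℓ : ℕ, ℓ.Prime → ℓ ∉ S₀ → HasFrob ρb ℓ (a ℓ)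
  hE : ∀ m : ℕ, 0 < m → ∃ ℓ : PIdx (↑S : Set ℕ), (m : ℤ) ∣ ((ℓ.1 : ℕ) : ℤ) - 1 ∧
      thOf a (↑S : Set ℕ) ℓ ≠ (((ℓ.1 : ℕ) : ℕ) : ResidueField 𝒪) + 1
  hinj : Function.Injective qv
  hqv : ∀ i, (qv i).Prime
  hqS₀ : ∀ i, qv i ∉ S₀
  hqS : ∀ i, qv i ∈ S
  ha : ∀ i, a (qv i) ^ 2 ≠ ((qv i : ResidueField 𝒪) + 1) ^ 2

variable [Fintype ι]

theorem BotInput.dvd {N M' : ℕ} {qv : ι → ℕ} (hM' : N * ∏ i, qv i = M') (J : Finset ι) :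
    N * ∏ i ∈ J, qv i ∣ M' := by
  rw [← hM']
  exact mul_dvd_mul_left _ (Finset.prod_dvd_prod_of_subset _ _ _ (Finset.subset_univ J))

theorem psum_univ {N M' : ℕ} {qv : ι → ℕ} (h0 : ∀ i, qv i ≠ 0)
    (hM' : N * ∏ i, qv i = M') (hN : N ∣ M') (x : Finset ι → HM N (1 : (ZMod N)ˣ →* 𝒪ˣ) 𝒪) :
    psum 𝒪 N M' qv Finset.univ x =
      botSum 𝒪 qv h0 (BotInput.dvd hM') hN (rfl : infl hN 1 = 1) x := by
  rw [psum, botSum_apply, Finset.powerset_univ]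
  exact Finset.sum_congr rfl fun J _ => by
    rw [dgo_eq 𝒪 (Finset.prod_ne_zero_iff.mpr fun i _ => h0 i) (BotInput.dvd hM' J)]

namespace BotInput

variable {S₀ S : Finset ℕ} {a : ℕ → ResidueField 𝒪} {qv : ι → ℕ} (I : BotInput p 𝒪 S₀ S a qv)
  {N M' : ℕ} [NeZero N] (hNS : ∀ r : ℕ, r.Prime → r ∣ N → r ∈ S₀) (hM' : N * ∏ i, qv i = M')
  {ε : (ZMod N)ˣ →* 𝒪ˣ} {ε' : (ZMod M')ˣ →* 𝒪ˣ} (hε1 : ε = 1) (hN : N ∣ M')
  (hε : infl hN ε = ε')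

include I

omit [IsNoetherianRing 𝒪] [IsAdicComplete (maximalIdeal 𝒪) 𝒪] [IsAddTorsionFree 𝒪] hp
  [DecidableEq ι] [NeZero N] in
theorem ne_zero (i : ι) : qv i ≠ 0 := (I.hqv i).ne_zero

include hNS hM' hε1

theorem botSum_mem {x : Finset ι → HM N ε 𝒪}
    (hx : ∀ J, x J ∈ Hm N ε 𝒪 (↑S₀ : Set ℕ) (thOf a (↑S₀ : Set ℕ))) :
    botSum 𝒪 qv I.ne_zero (dvd hM') hN hε x ∈ Hm M' ε' 𝒪 (↑S : Set ℕ) (thOf a (↑S : Set ℕ)) := by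
  subst hε1
  subst hε
  obtain ⟨ρb, hρ⟩ := I.hrep
  have hEq := Hm_eq_S (p := p) I.h30 I.hS I.hpS hNS I.hp𝒪 (ε := (1 : (ZMod N)ˣ →* 𝒪ˣ)) rfl ρb
    hρ I.hE
  have h1 := psum_mem_Hm (S := (↑S : Set ℕ)) (θ := thOf a (↑S : Set ℕ)) I.ne_zero
    (s := Finset.univ) hM'.symm (fun ℓ i _ h => ℓ.2
      ((Nat.prime_dvd_prime_iff_eq ℓ.1.2 (I.hqv i)).mp h ▸ I.hqS i)) (x := x)
    (fun J _ => hEq ▸ hx J)
  rw [psum_univ I.ne_zero hM' hN] at h1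
  exact h1

/-- **The bottom level.** -/
theorem botSum_bijective :
    (∀ x : Finset ι → HM N ε 𝒪,
      (∀ J, x J ∈ Hm N ε 𝒪 (↑S₀ : Set ℕ) (thOf a (↑S₀ : Set ℕ))) →
      botSum 𝒪 qv I.ne_zero (dvd hM') hN hε x = 0 → x = 0) ∧
    (∀ z ∈ Hm M' ε' 𝒪 (↑S : Set ℕ) (thOf a (↑S : Set ℕ)),
      ∃ x : Finset ι → HM N ε 𝒪,
      (∀ J, x J ∈ Hm N ε 𝒪 (↑S₀ : Set ℕ) (thOf a (↑S₀ : Set ℕ))) ∧
        botSum 𝒪 qv I.ne_zero (dvd hM') hN hε x = z) := by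
  subst hε1
  subst hε
  obtain ⟨ρb, hρ⟩ := I.hrep
  have hEq := Hm_eq_S (p := p) I.h30 I.hS I.hpS hNS I.hp𝒪 (ε := (1 : (ZMod N)ˣ →* 𝒪ˣ)) rfl ρb
    hρ I.hE
  obtain ⟨h1, h2⟩ := psum_bijective (p := p) I.h30 I.h35 I.hS I.hpS hNS I.hp𝒪 ρb hρ I.hE qv
    I.hinj I.hqv I.hqS₀ I.hqS I.ha Finset.univ M' hM'.symm
  constructor
  · intro x hx hx0
    funext J
    refine h1 x (fun J _ => hEq ▸ hx J) ?_ J (by rw [Finset.powerset_univ]; exact Finset.mem_univ _)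
    rw [psum_univ I.ne_zero hM' hN]
    exact hx0
  · intro z hz
    obtain ⟨x, hx, hxz⟩ := h2 z hz
    refine ⟨x, fun J => hEq ▸ hx J, ?_⟩
    rw [← hxz, psum_univ I.ne_zero hM' hN]

/-- **The bottom level**, as a linear equivalence. -/
def botEquiv : (Finset ι → Hm N ε 𝒪 (↑S₀ : Set ℕ) (thOf a (↑S₀ : Set ℕ))) ≃ₗ[𝒪]
    Hm M' ε' 𝒪 (↑S : Set ℕ) (thOf a (↑S : Set ℕ)) :=
  LinearEquiv.ofBijective
    (LinearMap.codRestrict _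
      ((botSum 𝒪 qv I.ne_zero (dvd hM') hN hε) ∘ₗ
        (LinearMap.compLeft (Submodule.subtype
          (Hm N ε 𝒪 (↑S₀ : Set ℕ) (thOf a (↑S₀ : Set ℕ)))) (Finset ι)))
      (fun x => I.botSum_mem hNS hM' hε1 hN hε fun J => (x J).2)) (by
    constructor
    · rw [injective_iff_map_eq_zero]
      intro x hx
      have h1 := (I.botSum_bijective hNS hM' hε1 hN hε).1 (fun J => (x J : HM N ε 𝒪))
        (fun J => (x J).2) (congrArg Subtype.val hx)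
      funext J
      exact Subtype.ext (congrFun h1 J)
    · rintro ⟨z, hz⟩
      obtain ⟨x, hx, hxz⟩ := (I.botSum_bijective hNS hM' hε1 hN hε).2 z hz
      exact ⟨fun J => ⟨x J, hx J⟩, Subtype.ext hxz⟩)

theorem coe_botEquiv (x : Finset ι → Hm N ε 𝒪 (↑S₀ : Set ℕ) (thOf a (↑S₀ : Set ℕ))) :
    (I.botEquiv hNS hM' hε1 hN hε x : HM M' ε' 𝒪) =
      botSum 𝒪 qv I.ne_zero (dvd hM') hN hε (fun J => (x J : HM N ε 𝒪)) := rfl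

omit hNS hε1 [NeZero N] in
/-- Hecke equivariance of `botSum`. -/
theorem botSum_hop (A : Type) [AddCommGroup A] [Module 𝒪 A] (ℓ : PIdx (↑S : Set ℕ))
    (x : Finset ι → HM N ε A) :
    botSum A qv I.ne_zero (dvd hM') hN hε (fun J => hop N ε A (↑S : Set ℕ) ℓ (x J)) =
      hop M' ε' A (↑S : Set ℕ) ℓ (botSum A qv I.ne_zero (dvd hM') hN hε x) := by
  haveI : Fact (ℓ.1 : ℕ).Prime := ⟨ℓ.1.2⟩
  have h1 : ∀ i, ¬ (ℓ.1 : ℕ) ∣ qv i := fun i h => ℓ.2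
    ((Nat.prime_dvd_prime_iff_eq ℓ.1.2 (I.hqv i)).mp h ▸ I.hqS i)
  refine botSum_heckeH _ _ _ _ h1 ?_ x
  rw [← hM', ℓ.1.2.dvd_mul]
  refine or_iff_left fun h => ?_
  obtain ⟨i, _, hi⟩ := (Prime.dvd_finsetProd_iff ℓ.1.2.prime _).mp h
  exact h1 i hi

end BotInput

end Equiv

end Fermat.Agent.HSide
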