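import Fermat.Agent.HSide.Top
import Fermat.Agent.HSide.Bottom

/-!
# The base level `N p`: traces at `p`
-/

set_option autoImplicit false
set_option linter.unusedSectionVars false
set_option linter.style.haveILetI false

noncomputable section

open Matrix.SpecialLinearGroup CongruenceSubgroup IsLocalRing
open scoped MatrixGroups

namespace Fermat.Agent.HSide

open TwHecke HeckePar TwExact HeckeRep RTE RTD GalRep

variable {𝒪 : Type} [CommRing 𝒪] [IsLocalRing 𝒪] {p : ℕ} [hp : Fact p.Prime] {ι : Type}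
  {qT : ι → ℕ} {S : Finset ℕ} (B : Base 𝒪 p qT S)

/-- The base level `N p`. -/
def Base.mulP (hqp : ∀ v, qT v ≠ p) : Base 𝒪 p qT S where
  N := B.N * p
  a := B.a
  ρb := B.ρb
  N_ne := mul_ne_zero B.N_ne hp.out.ne_zero
  p_ne_two := B.p_ne_two
  p_mem := B.p_mem
  pS := B.pS
  N_S := fun ℓ hℓ h => by
    rcases hℓ.dvd_mul.mp h with h | h
    · exact B.N_S ℓ hℓ h
    · rw [(Nat.prime_dvd_prime_iff_eq hℓ hp.out).mp h]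
      exact B.pS
  three := by
    obtain ⟨r, hr, hrN, h3⟩ := B.three
    exact ⟨r, hr, hrN.mul_right p, h3⟩
  qT_prime := B.qT_prime
  qT_inj := B.qT_inj
  qT_N := fun v h => by
    rcases (B.qT_prime v).dvd_mul.mp h with h | h
    · exact B.qT_N v h
    · exact hqp v ((Nat.prime_dvd_prime_iff_eq (B.qT_prime v) hp.out).mp h)
  qT_S := B.qT_S
  frob := B.frob
  ne := B.ne

variable (hqp : ∀ v, qT v ≠ p) (hpN : ¬ p ∣ B.N) {m : ℕ} {qv : Fin m → ℕ}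

@[simp] theorem Base.mulP_N : (B.mulP hqp).N = B.N * p := rfl

@[simp] theorem Base.mulP_a : (B.mulP hqp).a = B.a := rfl

theorem Base.auxs_mulP (A : Auxs B qv) : Auxs (B.mulP hqp) qv :=
  ⟨A.prime, A.inj, A.notMem, A.frob⟩

theorem Base.NS_mulP (s : Finset ι) : B.NS s * p = (B.mulP hqp).NS s := by
  show B.N * _ * p = B.N * p * _
  ring

theorem Base.lev_mulP (s : Finset ι) : B.lev qv s * p = (B.mulP hqp).lev qv s := by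
  show B.NS s * _ * p = (B.mulP hqp).NS s * _
  rw [← B.NS_mulP hqp]
  ring

include hqp hpN in
theorem Base.p_not_dvd_NS (s : Finset ι) : ¬ p ∣ B.NS s := by
  intro h
  rcases hp.out.dvd_mul.mp h with h | h
  · exact hpN h
  · obtain ⟨w, -, hw⟩ := hp.out.prime.exists_mem_finset_dvd h
    exact hqp w ((Nat.prime_dvd_prime_iff_eq hp.out (B.qT_prime w)).mp hw).symm

include hqp hpN in
theorem Base.p_not_dvd_lev (A : Auxs B qv) (s : Finset ι) : ¬ p ∣ B.lev qv s := by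
  intro h
  rcases hp.out.dvd_mul.mp h with h | h
  · exact B.p_not_dvd_NS hqp hpN s h
  · exact B.not_dvd_prod A hp.out B.pS h

theorem Base.p_mem_Sn : p ∈ (↑(B.Sn qv) : Set ℕ) := B.S_sub B.pS

theorem Base.eta_mulP (s : Finset ι) :
    infl (Dvd.intro _ (B.lev_mulP (qv := qv) hqp s)) (B.eta qv s) = (B.mulP hqp).eta qv s := by
  rw [Base.eta, Base.eta, tauM_comp (B.qv_dvd s) ((B.mulP hqp).qv_dvd s)
    (Dvd.intro _ (B.lev_mulP (qv := qv) hqp s))]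
  rfl

theorem infl_one_eq {R : Type*} [CommRing R] {M M' : ℕ} (h : M ∣ M') :
    infl h (1 : (ZMod M)ˣ →* Rˣ) = 1 := rfl

/-! ### The modules with coefficients in the group ring -/

section Lam

variable [IsLocalRing (Lam 𝒪 p qv)] (A : Auxs B qv)

/-- the trace at `p` -/
def Base.t1 (s : Finset ι) : (B.mulP hqp).MM qv s →ₗ[Lam 𝒪 p qv] B.MM qv s :=
  j1 hp.out (B.p_not_dvd_lev hqp hpN A s) (B.lev_mulP hqp s) (B.eta_mulP hqp s) (B.th qv)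
    B.p_mem_Sn

/-- the second trace at `p` -/
def Base.t2 (s : Finset ι) : (B.mulP hqp).MM qv s →ₗ[Lam 𝒪 p qv] B.MM qv s :=
  j2 hp.out (B.p_not_dvd_lev hqp hpN A s) (B.lev_mulP hqp s) (B.eta_mulP hqp s) (B.th qv)
    B.p_mem_Sn

theorem Base.t_surj [IsNoetherianRing 𝒪] [IsAdicComplete (maximalIdeal 𝒪) 𝒪] (s : Finset ι)
    (x y : B.MM qv s) : ∃ z, B.t1 hqp hpN A s z = x ∧ B.t2 hqp hpN A s z = y := by
  have : NeZero p := ⟨hp.out.ne_zero⟩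
  have : NeZero (B.lev qv s) := ⟨B.lev_ne A s⟩
  have := B.charP_res
  have := HSide.isAdicComplete_groupRing (𝒪 := 𝒪) (Δ := Dia p qv)
  have := HSide.isNoetherianRing_groupRing (𝒪 := 𝒪) (Δ := Dia p qv)
  have := HSide.charP_residueField_groupRing (𝒪 := 𝒪) (Δ := Dia p qv) (p := p)
  exact surj_j hp.out _ _ hp.out B.p_ne_two _ _ (B.residue_eta s) B.strong_th (B.good_lev A s) x y

theorem Base.t1_hT (s : Finset ι) (ℓ : PIdx (↑(B.Sn qv) : Set ℕ)) (x : (B.mulP hqp).MM qv s) :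
    B.t1 hqp hpN A s (hT ((B.mulP hqp).eta qv s) ((B.mulP hqp).eta qv s ^ 2) _
      (B.th qv) ℓ x) = hT (B.eta qv s) (B.eta qv s ^ 2) _ (B.th qv) ℓ (B.t1 hqp hpN A s x) :=
  j1_hT _ _ _ _ _ _ ((B.mulP hqp).lev_mem (B.auxs_mulP hqp A) s) ℓ x

theorem Base.t2_hT (s : Finset ι) (ℓ : PIdx (↑(B.Sn qv) : Set ℕ)) (x : (B.mulP hqp).MM qv s) :
    B.t2 hqp hpN A s (hT ((B.mulP hqp).eta qv s) ((B.mulP hqp).eta qv s ^ 2) _
      (B.th qv) ℓ x) = hT (B.eta qv s) (B.eta qv s ^ 2) _ (B.th qv) ℓ (B.t2 hqp hpN A s x) :=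
  j2_hT _ _ _ _ _ _ ((B.mulP hqp).lev_mem (B.auxs_mulP hqp A) s) ℓ x

theorem Base.t1_tvm (s : Finset ι) {q : ℕ} [Fact q.Prime] (hqp' : q ≠ p)
    (x : (B.mulP hqp).MM qv s) :
    B.t1 hqp hpN A s (tvm _ q ((B.mulP hqp).eta qv s) ((B.mulP hqp).eta qv s ^ 2) _
      (B.th qv) x) = tvm _ q (B.eta qv s) (B.eta qv s ^ 2) _ (B.th qv) (B.t1 hqp hpN A s x) :=
  j1_tvm _ _ _ hqp' _ _ _ x

theorem Base.t2_tvm (s : Finset ι) {q : ℕ} [Fact q.Prime] (hqp' : q ≠ p)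
    (x : (B.mulP hqp).MM qv s) :
    B.t2 hqp hpN A s (tvm _ q ((B.mulP hqp).eta qv s) ((B.mulP hqp).eta qv s ^ 2) _
      (B.th qv) x) = tvm _ q (B.eta qv s) (B.eta qv s ^ 2) _ (B.th qv) (B.t2 hqp hpN A s x) :=
  j2_tvm _ _ _ hqp' _ _ _ x

theorem Base.t1_T (s : Finset ι) {q : ℕ} (hqp' : q ≠ p) (x : (B.mulP hqp).MM qv s) :
    B.t1 hqp hpN A s ((B.mulP hqp).T qv s q x) = B.T qv s q (B.t1 hqp hpN A s x) :=
  j1_tvo _ _ _ _ _ _ hqp' x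

theorem Base.t2_T (s : Finset ι) {q : ℕ} (hqp' : q ≠ p) (x : (B.mulP hqp).MM qv s) :
    B.t2 hqp hpN A s ((B.mulP hqp).T qv s q x) = B.T qv s q (B.t2 hqp hpN A s x) :=
  j2_tvo _ _ _ _ _ _ hqp' x

variable [DecidableEq ι] {s : Finset ι} {v : ι} (hv : v ∉ s)

theorem Base.t1_i1 (x : (B.mulP hqp).MM qv s) :
    B.t1 hqp hpN A (insert v s) ((B.mulP hqp).mi1 qv hv x) =
      B.mi1 qv hv (B.t1 hqp hpN A s x) :=
  j1_i1_comm (B.qT_prime v) hp.out (B.lev_insert hv) (B.lev_mulP hqp s)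
    ((B.mulP hqp).lev_insert hv) (B.lev_mulP hqp (insert v s)) (B.eta_insert hv)
    (B.eta_mulP hqp s) ((B.mulP hqp).eta_insert hv) (B.eta_mulP hqp (insert v s)) (B.th qv)
    (B.qT_mem v) B.p_mem_Sn (B.p_not_dvd_lev hqp hpN A s)
    (B.p_not_dvd_lev hqp hpN A (insert v s)) x

theorem Base.t1_i2 (x : (B.mulP hqp).MM qv s) :
    B.t1 hqp hpN A (insert v s) ((B.mulP hqp).mi2 qv hv x) =
      B.mi2 qv hv (B.t1 hqp hpN A s x) :=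
  j1_i2_comm (B.qT_prime v) hp.out (hqp v) (B.lev_insert hv) (B.lev_mulP hqp s)
    ((B.mulP hqp).lev_insert hv) (B.lev_mulP hqp (insert v s)) (B.eta_insert hv)
    (B.eta_mulP hqp s) ((B.mulP hqp).eta_insert hv) (B.eta_mulP hqp (insert v s)) (B.th qv)
    (B.qT_mem v) B.p_mem_Sn (B.p_not_dvd_lev hqp hpN A s)
    (B.p_not_dvd_lev hqp hpN A (insert v s)) x

theorem Base.t2_i1 (x : (B.mulP hqp).MM qv s) :
    B.t2 hqp hpN A (insert v s) ((B.mulP hqp).mi1 qv hv x) =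
      B.mi1 qv hv (B.t2 hqp hpN A s x) :=
  j2_i1_comm (B.qT_prime v) hp.out (hqp v) (B.lev_insert hv) (B.lev_mulP hqp s)
    ((B.mulP hqp).lev_insert hv) (B.lev_mulP hqp (insert v s)) (B.eta_insert hv)
    (B.eta_mulP hqp s) ((B.mulP hqp).eta_insert hv) (B.eta_mulP hqp (insert v s)) (B.th qv)
    (B.qT_mem v) B.p_mem_Sn (B.p_not_dvd_lev hqp hpN A s)
    (B.p_not_dvd_lev hqp hpN A (insert v s)) x

theorem Base.t2_i2 (x : (B.mulP hqp).MM qv s) :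
    B.t2 hqp hpN A (insert v s) ((B.mulP hqp).mi2 qv hv x) =
      B.mi2 qv hv (B.t2 hqp hpN A s x) :=
  j2_i2_comm (B.qT_prime v) hp.out (hqp v) (B.lev_insert hv) (B.lev_mulP hqp s)
    ((B.mulP hqp).lev_insert hv) (B.lev_mulP hqp (insert v s)) (B.eta_insert hv)
    (B.eta_mulP hqp s) ((B.mulP hqp).eta_insert hv) (B.eta_mulP hqp (insert v s)) (B.th qv)
    (B.qT_mem v) B.p_mem_Sn (B.p_not_dvd_lev hqp hpN A s)
    (B.p_not_dvd_lev hqp hpN A (insert v s)) x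

theorem Base.t1_j1 (x : (B.mulP hqp).MM qv (insert v s)) :
    B.t1 hqp hpN A s ((B.mulP hqp).mj1 hv (B.auxs_mulP hqp A) x) =
      B.mj1 hv A (B.t1 hqp hpN A (insert v s) x) :=
  j1_j1_comm (B.qT_prime v) hp.out (B.lev_insert hv) (B.lev_mulP hqp s)
    ((B.mulP hqp).lev_insert hv) (B.lev_mulP hqp (insert v s)) (B.eta_insert hv)
    (B.eta_mulP hqp s) ((B.mulP hqp).eta_insert hv) (B.eta_mulP hqp (insert v s)) (B.th qv)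
    (B.qT_mem v) B.p_mem_Sn (B.qT_not_dvd_lev A hv) (B.p_not_dvd_lev hqp hpN A s)
    ((B.mulP hqp).qT_not_dvd_lev (B.auxs_mulP hqp A) hv)
    (B.p_not_dvd_lev hqp hpN A (insert v s)) x

theorem Base.t1_j2 (x : (B.mulP hqp).MM qv (insert v s)) :
    B.t1 hqp hpN A s ((B.mulP hqp).mj2 hv (B.auxs_mulP hqp A) x) =
      B.mj2 hv A (B.t1 hqp hpN A (insert v s) x) :=
  j1_j2_comm (B.qT_prime v) hp.out (hqp v) (B.lev_insert hv) (B.lev_mulP hqp s)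
    ((B.mulP hqp).lev_insert hv) (B.lev_mulP hqp (insert v s)) (B.eta_insert hv)
    (B.eta_mulP hqp s) ((B.mulP hqp).eta_insert hv) (B.eta_mulP hqp (insert v s)) (B.th qv)
    (B.qT_mem v) B.p_mem_Sn (B.qT_not_dvd_lev A hv) (B.p_not_dvd_lev hqp hpN A s)
    ((B.mulP hqp).qT_not_dvd_lev (B.auxs_mulP hqp A) hv)
    (B.p_not_dvd_lev hqp hpN A (insert v s)) x

theorem Base.t2_j1 (x : (B.mulP hqp).MM qv (insert v s)) :
    B.t2 hqp hpN A s ((B.mulP hqp).mj1 hv (B.auxs_mulP hqp A) x) =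
      B.mj1 hv A (B.t2 hqp hpN A (insert v s) x) :=
  j2_j1_comm (B.qT_prime v) hp.out (hqp v) (B.lev_insert hv) (B.lev_mulP hqp s)
    ((B.mulP hqp).lev_insert hv) (B.lev_mulP hqp (insert v s)) (B.eta_insert hv)
    (B.eta_mulP hqp s) ((B.mulP hqp).eta_insert hv) (B.eta_mulP hqp (insert v s)) (B.th qv)
    (B.qT_mem v) B.p_mem_Sn (B.qT_not_dvd_lev A hv) (B.p_not_dvd_lev hqp hpN A s)
    ((B.mulP hqp).qT_not_dvd_lev (B.auxs_mulP hqp A) hv)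
    (B.p_not_dvd_lev hqp hpN A (insert v s)) x

theorem Base.t2_j2 (x : (B.mulP hqp).MM qv (insert v s)) :
    B.t2 hqp hpN A s ((B.mulP hqp).mj2 hv (B.auxs_mulP hqp A) x) =
      B.mj2 hv A (B.t2 hqp hpN A (insert v s) x) :=
  j2_j2_comm (B.qT_prime v) hp.out (hqp v) (B.lev_insert hv) (B.lev_mulP hqp s)
    ((B.mulP hqp).lev_insert hv) (B.lev_mulP hqp (insert v s)) (B.eta_insert hv)
    (B.eta_mulP hqp s) ((B.mulP hqp).eta_insert hv) (B.eta_mulP hqp (insert v s)) (B.th qv)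
    (B.qT_mem v) B.p_mem_Sn (B.qT_not_dvd_lev A hv) (B.p_not_dvd_lev hqp hpN A s)
    ((B.mulP hqp).qT_not_dvd_lev (B.auxs_mulP hqp A) hv)
    (B.p_not_dvd_lev hqp hpN A (insert v s)) x

end Lam

/-! ### The bottom modules -/

section Bot

variable {𝒪 : Type} [CommRing 𝒪] [IsLocalRing 𝒪] [IsNoetherianRing 𝒪]
  [IsAdicComplete (maximalIdeal 𝒪) 𝒪] [IsAddTorsionFree 𝒪] {p : ℕ} [hp : Fact p.Prime]
  {κ : Type} [DecidableEq κ] [Fintype κ] {S₀ S : Finset ℕ} {a : ℕ → ResidueField 𝒪} {qv : κ → ℕ}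
  (I : BotInput p 𝒪 S₀ S a qv) {N M N₁ M₁ v : ℕ} [NeZero N] [NeZero N₁]
  (hNS : ∀ r : ℕ, r.Prime → r ∣ N → r ∈ S₀) (hM : N * ∏ i, qv i = M)
  (hNS₁ : ∀ r : ℕ, r.Prime → r ∣ N₁ → r ∈ S₀) (hM₁ : N₁ * ∏ i, qv i = M₁)
  (hv : v.Prime) (hvN : ¬ v ∣ N) (hvM : ¬ v ∣ M) (hNv : N * v = N₁) (hMv : M * v = M₁)
  (hvS₀ : v ∈ (↑S₀ : Set ℕ)) (hvS : v ∈ (↑S : Set ℕ)) (hN : N ∣ M) (hN₁ : N₁ ∣ M₁)

/-- `botEquiv` and the trace at another prime -/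
theorem botEquiv_j1 (x : Finset κ → Hm N₁ ((1 : (ZMod N₁)ˣ →* 𝒪ˣ) ^ 2) 𝒪 (↑S₀ : Set ℕ)
    (thOf a (↑S₀ : Set ℕ))) :
    I.botEquiv (ε := (1 : (ZMod N)ˣ →* 𝒪ˣ) ^ 2) (ε' := (1 : (ZMod M)ˣ →* 𝒪ˣ) ^ 2) hNS hM
      one_sq_eq hN rfl (fun J => j1 (η := 1) (η' := 1) hv hvN hNv rfl _ hvS₀ (x J)) =
    j1 (η := 1) (η' := 1) hv hvM hMv rfl _ hvS
      (I.botEquiv (ε := (1 : (ZMod N₁)ˣ →* 𝒪ˣ) ^ 2) (ε' := (1 : (ZMod M₁)ˣ →* 𝒪ˣ) ^ 2) hNS₁ hM₁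
        one_sq_eq hN₁ rfl x) := by
  apply Subtype.ext
  rw [I.coe_botEquiv, coe_j1, I.coe_botEquiv]
  exact botSum_tg I.ne_zero (BotInput.dvd hM) hN rfl hv hvN hvM hNv hMv (BotInput.dvd hM₁) hN₁
    rfl rfl rfl _

/-- `botEquiv` and the second trace at another prime -/
theorem botEquiv_j2 (x : Finset κ → Hm N₁ ((1 : (ZMod N₁)ˣ →* 𝒪ˣ) ^ 2) 𝒪 (↑S₀ : Set ℕ)
    (thOf a (↑S₀ : Set ℕ))) :
    I.botEquiv (ε := (1 : (ZMod N)ˣ →* 𝒪ˣ) ^ 2) (ε' := (1 : (ZMod M)ˣ →* 𝒪ˣ) ^ 2) hNS hM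
      one_sq_eq hN rfl (fun J => j2 (η := 1) (η' := 1) hv hvN hNv rfl _ hvS₀ (x J)) =
    j2 (η := 1) (η' := 1) hv hvM hMv rfl _ hvS
      (I.botEquiv (ε := (1 : (ZMod N₁)ˣ →* 𝒪ˣ) ^ 2) (ε' := (1 : (ZMod M₁)ˣ →* 𝒪ˣ) ^ 2) hNS₁ hM₁
        one_sq_eq hN₁ rfl x) := by
  apply Subtype.ext
  rw [I.coe_botEquiv, coe_j2, I.coe_botEquiv, MonoidHom.one_apply, Units.val_one, one_smul]
  have key := botSum_tB (ε := (1 : (ZMod N)ˣ →* 𝒪ˣ) ^ 2) (ε' := (1 : (ZMod M)ˣ →* 𝒪ˣ) ^ 2)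
    (ε₁ := (1 : (ZMod N₁)ˣ →* 𝒪ˣ) ^ 2) (ε₁' := (1 : (ZMod M₁)ˣ →* 𝒪ˣ) ^ 2) (A := 𝒪)
    I.ne_zero (BotInput.dvd hM) hN rfl hv hvN hvM hNv hMv
    (BotInput.dvd hM₁) hN₁ rfl rfl rfl (fun J => (x J : HM N₁ ((1 : (ZMod N₁)ˣ →* 𝒪ˣ) ^ 2) 𝒪))
  refine Eq.trans ?_ key
  congr 1
  funext J
  rw [coe_j2, MonoidHom.one_apply, Units.val_one, one_smul]

section Pi

variable {R : Type} [CommRing R] [IsLocalRing R] (σ : R →+* 𝒪) [IsLocalHom σ]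
  (hσ : Function.Surjective σ) {θ : PIdx (↑S : Set ℕ) → ResidueField R}
  (hθ : ∀ ℓ, thOf a (↑S : Set ℕ) ℓ = ResidueField.map σ (θ ℓ))
  {η : (ZMod M)ˣ →* Rˣ} {η₁ : (ZMod M₁)ˣ →* Rˣ} (hη : infl (Dvd.intro v hMv) η = η₁)
  (hs : ∀ u, (((1 : (ZMod M)ˣ →* 𝒪ˣ) u : 𝒪ˣ) : 𝒪) = σ (η u))
  (k : ∀ u, ((((1 : (ZMod M)ˣ →* 𝒪ˣ) ^ 2) u : 𝒪ˣ) : 𝒪) = σ (((η ^ 2) u : Rˣ) : R))
  (k₁ : ∀ u, ((((1 : (ZMod M₁)ˣ →* 𝒪ˣ) ^ 2) u : 𝒪ˣ) : 𝒪) = σ (((η₁ ^ 2) u : Rˣ) : R))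

/-- the projection to the bottom modules and the trace at another prime -/
theorem pi_j1 (x : Hm M₁ (η₁ ^ 2) R (↑S : Set ℕ) θ) :
    (I.botEquiv (ε := (1 : (ZMod N)ˣ →* 𝒪ˣ) ^ 2) (ε' := (1 : (ZMod M)ˣ →* 𝒪ˣ) ^ 2) hNS hM
      one_sq_eq hN rfl).symm (sgm σ k hθ hσ (j1 hv hvM hMv hη θ hvS x)) =
    fun J => j1 (η := 1) (η' := 1) hv hvN hNv rfl _ hvS₀
      ((I.botEquiv (ε := (1 : (ZMod N₁)ˣ →* 𝒪ˣ) ^ 2) (ε' := (1 : (ZMod M₁)ˣ →* 𝒪ˣ) ^ 2) hNS₁ hM₁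
        one_sq_eq hN₁ rfl).symm (sgm σ k₁ hθ hσ x) J) := by
  rw [LinearEquiv.symm_apply_eq, botEquiv_j1 I hNS hM hNS₁ hM₁ hv hvN hvM hNv hMv hvS₀ hvS hN hN₁,
    LinearEquiv.apply_symm_apply]
  exact sgm_j1 σ hσ hθ hv hvM hMv hη rfl hvS x

include hs in
/-- the projection to the bottom modules and the second trace at another prime -/
theorem pi_j2 (x : Hm M₁ (η₁ ^ 2) R (↑S : Set ℕ) θ) :
    (I.botEquiv (ε := (1 : (ZMod N)ˣ →* 𝒪ˣ) ^ 2) (ε' := (1 : (ZMod M)ˣ →* 𝒪ˣ) ^ 2) hNS hM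
      one_sq_eq hN rfl).symm (sgm σ k hθ hσ (j2 hv hvM hMv hη θ hvS x)) =
    fun J => j2 (η := 1) (η' := 1) hv hvN hNv rfl _ hvS₀
      ((I.botEquiv (ε := (1 : (ZMod N₁)ˣ →* 𝒪ˣ) ^ 2) (ε' := (1 : (ZMod M₁)ˣ →* 𝒪ˣ) ^ 2) hNS₁ hM₁
        one_sq_eq hN₁ rfl).symm (sgm σ k₁ hθ hσ x) J) := by
  rw [LinearEquiv.symm_apply_eq, botEquiv_j2 I hNS hM hNS₁ hM₁ hv hvN hvM hNv hMv hvS₀ hvS hN hN₁,
    LinearEquiv.apply_symm_apply]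
  exact sgm_j2 σ hσ hθ hv hvM hMv hη rfl hs hvS x

end Pi

end Bot

section BotBase

/-- the trace at `p` on the bottom modules -/
def Base.b1 (s : Finset ι) : (B.mulP hqp).M0 s →ₗ[𝒪] B.M0 s :=
  j1 (η := 1) (η' := 1) hp.out (B.p_not_dvd_NS hqp hpN s) (B.NS_mulP hqp s) rfl _ B.pS

/-- the second trace at `p` on the bottom modules -/
def Base.b2 (s : Finset ι) : (B.mulP hqp).M0 s →ₗ[𝒪] B.M0 s :=
  j2 (η := 1) (η' := 1) hp.out (B.p_not_dvd_NS hqp hpN s) (B.NS_mulP hqp s) rfl _ B.pS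

end BotBase

end Fermat.Agent.HSide
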