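import Fermat.Agent.HSide.MainBot
import Fermat.Agent.HSide.NewP

/-!
# The projection to the bottom level and the traces at `p`
-/

set_option autoImplicit false
set_option linter.unusedSectionVars false
set_option linter.style.haveILetI false

noncomputable section

open IsLocalRing

namespace Fermat.Agent.HSide

open TwHecke HeckePar TwExact HeckeRep RTE RTD GalRep

variable {𝒪 : Type} [CommRing 𝒪] [IsLocalRing 𝒪] [IsNoetherianRing 𝒪]
  [IsAdicComplete (maximalIdeal 𝒪) 𝒪] [IsAddTorsionFree 𝒪] {p : ℕ} [hp : Fact p.Prime]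
  {ι : Type} {qT : ι → ℕ} {S : Finset ℕ} (h30 : S29aux.S30Statement) (h35 : Stmt35)
  (B : Base 𝒪 p qT S)
  (hqp : ∀ v, qT v ≠ p) (hpN : ¬ p ∣ B.N) {m : ℕ} {qv : Fin m → ℕ}
  (A : Auxs B qv) [IsLocalRing (Lam 𝒪 p qv)] (s : Finset ι)

theorem Base.pi_t1 (x : (B.mulP hqp).MM qv s) (J : Finset (Fin m)) :
    B.pi h30 h35 A s (B.t1 hqp hpN A s x) J =
      B.b1 hqp hpN s ((B.mulP hqp).pi h30 h35 (B.auxs_mulP hqp A) s x J) :=
  congrFun ((B.botInput h30 h35 A).proj_j1 (B.NS_mem s) (B.lev_eq s) (augR 𝒪 p qv)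
    (augR_surjective 𝒪 p qv) B.map_th (B.aug_eta s) hp.out (B.p_not_dvd_NS hqp hpN s)
    (B.p_not_dvd_lev hqp hpN A s) (B.NS_mulP hqp s) (B.lev_mulP hqp s) B.pS B.p_mem_Sn
    ((B.mulP hqp).NS_mem s) ((B.mulP hqp).lev_eq s) ((B.mulP hqp).aug_eta s)
    (B.eta_mulP hqp s) x) J

theorem Base.pi_t2 (x : (B.mulP hqp).MM qv s) (J : Finset (Fin m)) :
    B.pi h30 h35 A s (B.t2 hqp hpN A s x) J =
      B.b2 hqp hpN s ((B.mulP hqp).pi h30 h35 (B.auxs_mulP hqp A) s x J) :=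
  congrFun ((B.botInput h30 h35 A).proj_j2 (B.NS_mem s) (B.lev_eq s) (augR 𝒪 p qv)
    (augR_surjective 𝒪 p qv) B.map_th (B.aug_eta s) hp.out (B.p_not_dvd_NS hqp hpN s)
    (B.p_not_dvd_lev hqp hpN A s) (B.NS_mulP hqp s) (B.lev_mulP hqp s) B.pS B.p_mem_Sn
    ((B.mulP hqp).NS_mem s) ((B.mulP hqp).lev_eq s) ((B.mulP hqp).aug_eta s)
    (B.eta_mulP hqp s) x) J

end Fermat.Agent.HSide
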