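import Fermat.Agent.HSide.Base

/-!
# Relations between Hecke operators on the modules of the Hecke side

A polynomial in the Hecke operators which vanishes on the cusp forms of level `M * ∏ qv i` and
trivial character vanishes (for the normalised operators) on `B.MM qv s`; no hypothesis on the
occurrence of the residual system.
-/

set_option autoImplicit false
set_option linter.style.haveILetI false

noncomputable section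

open Matrix.SpecialLinearGroup CongruenceSubgroup IsLocalRing
open scoped MatrixGroups

namespace Fermat.Agent.HSide

open TwHecke HeckePar TwExact HeckeRep RTE RTD GalRep

section General

variable {𝒪 : Type} [CommRing 𝒪] [IsDomain 𝒪] [IsDiscreteValuationRing 𝒪]
  [IsAdicComplete (maximalIdeal 𝒪) 𝒪] [Finite (ResidueField 𝒪)] [CharZero 𝒪]

/-- **Relations on the `𝔪`-part, coefficients in a group ring.** -/
theorem cev_Hm_eq_zero {Δ : Type} [CommGroup Δ] [Finite Δ] [IsLocalRing (MonoidAlgebra 𝒪 Δ)]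
    {M Q₀ L : ℕ} [NeZero M] [NeZero Q₀] [NeZero L] (hQM : Q₀ ∣ M) (hL : M * Q₀ ∣ L) {S : Set ℕ}
    (hS : ∀ ℓ : ℕ, ℓ.Prime → ℓ ∣ L → ℓ ∈ S) (τ₀ : (ZMod Q₀)ˣ →* Δ)
    {θ : PIdx S → ResidueField (MonoidAlgebra 𝒪 Δ)} (hne : S41hm.StrongNonEis S θ)
    (hη : ∀ u, residue (MonoidAlgebra 𝒪 Δ)
      (taut 𝒪 (τ₀.comp (ZMod.unitsMap hQM)) u : MonoidAlgebra 𝒪 Δ) = 1)
    (hG : Good M ((taut 𝒪 (τ₀.comp (ZMod.unitsMap hQM))) ^ 2) S θ)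
    (hc : ∀ i j, Commute (hT (taut 𝒪 (τ₀.comp (ZMod.unitsMap hQM)))
      ((taut 𝒪 (τ₀.comp (ZMod.unitsMap hQM))) ^ 2) S θ i)
      (hT (taut 𝒪 (τ₀.comp (ZMod.unitsMap hQM)))
      ((taut 𝒪 (τ₀.comp (ZMod.unitsMap hQM))) ^ 2) S θ j))
    (t : MvPolynomial (PIdx S) ℤ) (ht : evS L S t = 0) :
    cev (R := ℤ) (hT (taut 𝒪 (τ₀.comp (ZMod.unitsMap hQM)))
      ((taut 𝒪 (τ₀.comp (ZMod.unitsMap hQM))) ^ 2) S θ) hc t = 0 := by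
  have := Fintype.ofFinite Δ
  have hnoeth := HeckeRep.isNoetherianRing_groupRing (𝒪 := 𝒪) (Δ := Δ)
  have hcomp := HeckeRep.isAdicComplete_groupRing (𝒪 := 𝒪) (Δ := Δ)
  obtain ⟨ι, hι⟩ := RT.exists_embedding 𝒪
  obtain ⟨ℓ₀, h1, h2, h3⟩ := exists_aux hne (M := M)
  have hMS : ∀ ℓ : ℕ, ℓ.Prime → ℓ ∣ M → ℓ ∈ S := fun ℓ hℓ hd =>
    hS ℓ hℓ (hd.trans ((Dvd.intro _ rfl).trans hL))
  have hNZ : NeZero (M * Q₀) := ⟨mul_ne_zero (NeZero.ne M) (NeZero.ne Q₀)⟩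
  have ht' : evS (M * Q₀) S t = 0 := evS_eq_zero_of_dvd hL hS ht
  exact relation_of_torsion (𝒪 := 𝒪) hη hG t (ℓ₀ := ℓ₀) h3 (fun x =>
    relation_group hQM ι hι hMS τ₀ t rfl ht' h1 h2 x)

/-- **Relations on the `𝔪`-part, trivial coefficients.** -/
theorem cev_Hm_one_eq_zero {M L : ℕ} [NeZero M] [NeZero L] (hL : M ∣ L) {S : Set ℕ}
    (hS : ∀ ℓ : ℕ, ℓ.Prime → ℓ ∣ L → ℓ ∈ S) {θ : PIdx S → ResidueField 𝒪}
    (hne : S41hm.StrongNonEis S θ) (hG : Good M ((1 : (ZMod M)ˣ →* 𝒪ˣ) ^ 2) S θ)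
    (hc : ∀ i j, Commute (hT (1 : (ZMod M)ˣ →* 𝒪ˣ) (1 ^ 2) S θ i)
      (hT (1 : (ZMod M)ˣ →* 𝒪ˣ) (1 ^ 2) S θ j))
    (t : MvPolynomial (PIdx S) ℤ) (ht : evS L S t = 0) :
    cev (R := ℤ) (hT (1 : (ZMod M)ˣ →* 𝒪ˣ) (1 ^ 2) S θ) hc t = 0 := by
  obtain ⟨ι, hι⟩ := RT.exists_embedding 𝒪
  obtain ⟨ℓ₀, h1, h2, h3⟩ := exists_aux hne (M := M)
  have hη : ∀ u : (ZMod M)ˣ, residue 𝒪 (((1 : (ZMod M)ˣ →* 𝒪ˣ) u : 𝒪ˣ) : 𝒪) = 1 := fun u => by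
    rw [MonoidHom.one_apply, Units.val_one, map_one]
  refine relation_of_torsion (𝒪 := 𝒪) hη hG t (ℓ₀ := ℓ₀) h3 (fun x => ?_)
  exact relation_triv ι hι (fun ℓ hℓ hd => hS ℓ hℓ (hd.trans hL)) t
    (evS_eq_zero_of_dvd hL hS ht) h1 h2 x

end General

section MM

variable {𝒪 : Type} [CommRing 𝒪] [IsDomain 𝒪] [IsDiscreteValuationRing 𝒪]
  [IsAdicComplete (maximalIdeal 𝒪) 𝒪] [Finite (ResidueField 𝒪)] [CharZero 𝒪]
  {p : ℕ} [hp : Fact p.Prime] {ι : Type} {qT : ι → ℕ} {S : Finset ℕ}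
  (B : Base 𝒪 p qT S) {m : ℕ} {qv : Fin m → ℕ} (A : Auxs B qv) [IsLocalRing (Lam 𝒪 p qv)]

include A in
/-- the normalised Hecke operators on `B.MM qv s` commute. -/
theorem Base.hT_comm (s : Finset ι) (i j : PIdx (↑(B.Sn qv) : Set ℕ)) :
    Commute (hT (B.eta qv s) (B.eta qv s ^ 2) (↑(B.Sn qv) : Set ℕ) (B.th qv) i)
      (hT (B.eta qv s) (B.eta qv s ^ 2) (↑(B.Sn qv) : Set ℕ) (B.th qv) j) := by
  haveI : NeZero p := ⟨hp.out.ne_zero⟩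
  haveI : NeZero (B.lev qv s) := ⟨B.lev_ne A s⟩
  have := HeckeRep.isNoetherianRing_groupRing (𝒪 := 𝒪) (Δ := Dia p qv)
  have := HeckeRep.isAdicComplete_groupRing (𝒪 := 𝒪) (Δ := Dia p qv)
  exact hT_commute _ _ _ i j

include A in
/-- **Relations on the modules `B.MM qv s`**, at any multiple `L` of `lev * ∏ qv`. -/
theorem Base.cev_MM_eq_zero_of_dvd (s : Finset ι) {L : ℕ} [NeZero L]
    (hL : B.lev qv s * ∏ i, qv i ∣ L)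
    (hLS : ∀ ℓ : ℕ, ℓ.Prime → ℓ ∣ L → ℓ ∈ (↑(B.Sn qv) : Set ℕ))
    (hc : ∀ i j, Commute (hT (B.eta qv s) (B.eta qv s ^ 2) (↑(B.Sn qv) : Set ℕ) (B.th qv) i)
      (hT (B.eta qv s) (B.eta qv s ^ 2) (↑(B.Sn qv) : Set ℕ) (B.th qv) j))
    (t : MvPolynomial (PIdx (↑(B.Sn qv) : Set ℕ)) ℤ) (ht : evS L (↑(B.Sn qv) : Set ℕ) t = 0) :
    cev (R := ℤ) (hT (B.eta qv s) (B.eta qv s ^ 2) (↑(B.Sn qv) : Set ℕ) (B.th qv)) hc t = 0 := by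
  haveI : NeZero p := ⟨hp.out.ne_zero⟩
  haveI : NeZero (B.lev qv s) := ⟨B.lev_ne A s⟩
  have hQ : ∏ i, qv i ≠ 0 := Finset.prod_ne_zero_iff.mpr fun i _ => (A.prime i).ne_zero
  haveI : NeZero (∏ i, qv i) := ⟨hQ⟩
  have hdvd : ∏ i, qv i ∣ B.lev qv s := Dvd.intro_left _ rfl
  have heta : B.eta qv s = taut 𝒪 ((tauM p qv (∏ i, qv i) (fun i =>
      Finset.dvd_prod_of_mem qv (Finset.mem_univ i))).comp (ZMod.unitsMap hdvd)) := by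
    rw [← tauM_comp (fun i => Finset.dvd_prod_of_mem qv (Finset.mem_univ i)) (B.qv_dvd s) hdvd]
  have hres := B.residue_eta (qv := qv) s
  have hG := B.good_lev A s
  have key : ∀ (η : (ZMod (B.lev qv s))ˣ →* (Lam 𝒪 p qv)ˣ), η = taut 𝒪 ((tauM p qv (∏ i, qv i)
      (fun i => Finset.dvd_prod_of_mem qv (Finset.mem_univ i))).comp (ZMod.unitsMap hdvd)) →
      (∀ u, residue (Lam 𝒪 p qv) ((η u : (Lam 𝒪 p qv)ˣ) : Lam 𝒪 p qv) = 1) →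
      Good (B.lev qv s) (η ^ 2) (↑(B.Sn qv) : Set ℕ) (B.th qv) →
      ∀ (hc : ∀ i j, Commute (hT η (η ^ 2) (↑(B.Sn qv) : Set ℕ) (B.th qv) i)
        (hT η (η ^ 2) (↑(B.Sn qv) : Set ℕ) (B.th qv) j)),
      cev (R := ℤ) (hT η (η ^ 2) (↑(B.Sn qv) : Set ℕ) (B.th qv)) hc t = 0 := by
    rintro η rfl h1 h2 hc
    exact cev_Hm_eq_zero hdvd hL hLS _ B.strong_th h1 h2 hc t ht
  exact key _ heta hres hG hc

include A in
/-- **Relations on the modules `B.MM qv s`.** -/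
theorem Base.cev_MM_eq_zero (s : Finset ι) [NeZero (B.lev qv s * ∏ i, qv i)]
    (hc : ∀ i j, Commute (hT (B.eta qv s) (B.eta qv s ^ 2) (↑(B.Sn qv) : Set ℕ) (B.th qv) i)
      (hT (B.eta qv s) (B.eta qv s ^ 2) (↑(B.Sn qv) : Set ℕ) (B.th qv) j))
    (t : MvPolynomial (PIdx (↑(B.Sn qv) : Set ℕ)) ℤ)
    (ht : evS (B.lev qv s * ∏ i, qv i) (↑(B.Sn qv) : Set ℕ) t = 0) :
    cev (R := ℤ) (hT (B.eta qv s) (B.eta qv s ^ 2) (↑(B.Sn qv) : Set ℕ) (B.th qv)) hc t = 0 := by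
  refine B.cev_MM_eq_zero_of_dvd A s dvd_rfl (fun ℓ hℓ hd => ?_) hc t ht
  rcases hℓ.dvd_mul.mp hd with h | h
  · exact B.lev_mem A s ℓ hℓ h
  · exact B.lev_mem A s ℓ hℓ (h.trans (Dvd.intro_left _ rfl))

/-- **Relations on the modules `B.M0 s`.** -/
theorem Base.cev_M0_eq_zero (s : Finset ι)
    (hc : ∀ i j, Commute
      (hT (1 : (ZMod (B.NS s))ˣ →* 𝒪ˣ) (1 ^ 2) (↑S : Set ℕ) (thOf B.a (↑S : Set ℕ)) i)
      (hT (1 : (ZMod (B.NS s))ˣ →* 𝒪ˣ) (1 ^ 2) (↑S : Set ℕ) (thOf B.a (↑S : Set ℕ)) j))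
    (t : MvPolynomial (PIdx (↑S : Set ℕ)) ℤ) (ht : evS (B.NS s) (↑S : Set ℕ) t = 0) :
    cev (R := ℤ) (hT (1 : (ZMod (B.NS s))ˣ →* 𝒪ˣ) (1 ^ 2) (↑S : Set ℕ) (thOf B.a (↑S : Set ℕ)))
      hc t = 0 :=
  cev_Hm_one_eq_zero dvd_rfl (B.NS_mem s) (B.ne S subset_rfl) (B.good_M0 s) hc t ht

end MM

end Fermat.Agent.HSide
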