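import Fermat.Agent.HSide.TypeNew
import Fermat.Agent.HSide.RelMM
import Fermat.Agent.HeckeRep.FlatOfEvS

/-!
# The Hecke operators which vanish on the modules of level prime to `p`

`B` is a base of level `N` prime to `p`, `B.mulP hqp` the base of level `N * p`.

* `Base.flat_MM`: the specialisations of the Hecke representation of level
  `(B.mulP hqp).lev2 qv s` which kill the operators `t` with `t1 ∘ t = t2 ∘ t = 0` are flat at `p`.
-/

set_option autoImplicit false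
set_option linter.unusedSectionVars false
set_option linter.unusedVariables false

noncomputable section

open CongruenceSubgroup
open scoped MatrixGroups

namespace Fermat.Agent.HSide

open IsLocalRing TwHecke HeckePar TwExact HeckeRep GalRep CuspForm RTE RTD

/-- naturality of the evaluation of polynomials with integer coefficients. -/
theorem cev_int_natural {R H H' κ : Type*} [CommRing R] [AddCommGroup H] [Module R H]
    [AddCommGroup H'] [Module R H'] {T : κ → Module.End R H} (hT : ∀ i j, Commute (T i) (T j))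
    {T' : κ → Module.End R H'} (hT' : ∀ i j, Commute (T' i) (T' j)) (f : H →ₗ[R] H')
    (hf : ∀ i x, f (T i x) = T' i (f x)) (t : MvPolynomial κ ℤ) (x : H) :
    f (cev (R := ℤ) T hT t x) = cev (R := ℤ) T' hT' t (f x) := by
  induction t using MvPolynomial.induction_on generalizing x with
  | C a =>
    rw [cev_C, cev_C, algebraMap_int_eq, algebraMap_int_eq, eq_intCast, eq_intCast,
      Module.End.intCast_apply, Module.End.intCast_apply, map_zsmul]
  | add p q hp hq =>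
    rw [map_add, map_add, LinearMap.add_apply, LinearMap.add_apply, map_add, hp, hq]
  | mul_X p i hp =>
    rw [map_mul, map_mul, cev_X, cev_X, Module.End.mul_apply, Module.End.mul_apply, hp, hf]

section Top

variable {𝒪 : Type} [CommRing 𝒪] [IsDomain 𝒪] [IsDiscreteValuationRing 𝒪]
  [IsAdicComplete (maximalIdeal 𝒪) 𝒪] [Finite (ResidueField 𝒪)] [CharZero 𝒪]
  {p : ℕ} [hp : Fact p.Prime] {ι : Type} {qT : ι → ℕ} {S : Finset ℕ}
  (B : Base 𝒪 p qT S) {m : ℕ} {qv : Fin m → ℕ}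

/-- the Hecke operators of level `N p` which vanish at the level `N` prime to `p` are killed by
the traces at `p`. -/
theorem Base.t_act_eq_zero [IsLocalRing (Lam 𝒪 p qv)] (A : Auxs B qv) (hqp : ∀ v, qT v ≠ p)
    (hpN : ¬ p ∣ B.N) (s : Finset ι) {L L' : ℕ} [NeZero L] [NeZero L']
    (hL' : B.lev qv s * ∏ i, qv i ∣ L')
    (hLS' : ∀ ℓ : ℕ, ℓ.Prime → ℓ ∣ L' → ℓ ∈ (↑(B.Sn qv) : Set ℕ))
    (F : heckeAlgebra L 2 (↑(B.Sn qv) : Set ℕ) →+*
      Module.End (Lam 𝒪 p qv) ((B.mulP hqp).MM qv s))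
    (hF : ∀ ℓ, F (genS L (↑(B.Sn qv) : Set ℕ) ℓ) =
      hT ((B.mulP hqp).eta qv s) ((B.mulP hqp).eta qv s ^ 2) (↑(B.Sn qv) : Set ℕ) (B.th qv) ℓ)
    (t : HeckeAlgS (↑(B.Sn qv) : Set ℕ)) (ht : evS L' (↑(B.Sn qv) : Set ℕ) t = 0)
    (z : (B.mulP hqp).MM qv s) :
    B.t1 hqp hpN A s (F (evS L (↑(B.Sn qv) : Set ℕ) t) z) = 0 ∧
      B.t2 hqp hpN A s (F (evS L (↑(B.Sn qv) : Set ℕ) t) z) = 0 := by
  have hA := B.auxs_mulP hqp A
  have h1 := NewRel.act_evS ((B.mulP hqp).hT_comm hA s) F hF t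
  have h2 := B.cev_MM_eq_zero_of_dvd A s hL' hLS' (B.hT_comm A s) t ht
  constructor
  · refine (congrArg (fun g => B.t1 hqp hpN A s (g z)) h1).trans ?_
    refine (cev_int_natural ((B.mulP hqp).hT_comm hA s) (B.hT_comm A s) (B.t1 hqp hpN A s)
      (fun i x => B.t1_hT hqp hpN A s i x) t z).trans ?_
    exact congrArg (fun g : Module.End (Lam 𝒪 p qv) (B.MM qv s) => g (B.t1 hqp hpN A s z)) h2
  · refine (congrArg (fun g => B.t2 hqp hpN A s (g z)) h1).trans ?_
    refine (cev_int_natural ((B.mulP hqp).hT_comm hA s) (B.hT_comm A s) (B.t2 hqp hpN A s)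
      (fun i x => B.t2_hT hqp hpN A s i x) t z).trans ?_
    exact congrArg (fun g : Module.End (Lam 𝒪 p qv) (B.MM qv s) => g (B.t2 hqp hpN A s z)) h2

/-- **Flatness modulo the operators which vanish on the modules of level prime to `p`.** -/
theorem Base.flat_MM [IsLocalRing (Lam 𝒪 p qv)] (A : Auxs B qv) (hqp : ∀ v, qT v ≠ p)
    (hpN : ¬ p ∣ B.N) {ρbar : ResidualGaloisRep (ResidueField 𝒪)}
    (ctx : HCtx p ρbar (B.Sn qv) (thOf B.a (↑(B.Sn qv) : Set ℕ))) (s : Finset ι)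
    [NeZero ((B.mulP hqp).lev2 qv s)]
    (hLS : ∀ q : ℕ, q.Prime → q ∣ (B.mulP hqp).lev2 qv s → q ∈ B.Sn qv)
    (h : Occ ((B.mulP hqp).lev2 qv s) (↑(B.Sn qv) : Set ℕ) (thOf B.a (↑(B.Sn qv) : Set ℕ)))
    (act : heckeLocal ((B.mulP hqp).lev2 qv s) (↑(B.Sn qv) : Set ℕ) 𝒪 (sysHom h) →+*
      Module.End (Lam 𝒪 p qv) ((B.mulP hqp).MM qv s))
    (hact : ∀ ℓ, act (heckeLocal.π ((B.mulP hqp).lev2 qv s) (↑(B.Sn qv) : Set ℕ) 𝒪 (sysHom h)
        (genS ((B.mulP hqp).lev2 qv s) (↑(B.Sn qv) : Set ℕ) ℓ)) =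
      hT ((B.mulP hqp).eta qv s) ((B.mulP hqp).eta qv s ^ 2) (↑(B.Sn qv) : Set ℕ) (B.th qv) ℓ)
    {B' : Type} [CommRing B'] [IsLocalRing B'] [IsNoetherianRing B'] [Finite (ResidueField B')]
    (f : heckeLocal ((B.mulP hqp).lev2 qv s) (↑(B.Sn qv) : Set ℕ) 𝒪 (sysHom h) →+* B')
    (hf : IsLocalHom f)
    (hfK : ∀ t, (∀ z, B.t1 hqp hpN A s (act t z) = 0 ∧ B.t2 hqp hpN A s (act t z) = 0) →
      f t = 0) :
    ((heckeDatum ctx hLS h).ρ.baseChangeAlong f hf).IsFlatAt p := by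
  have hNZ : NeZero (B.lev2 qv s) := B.neZero_lev2 A s
  have hm : ¬ p ∣ B.lev2 qv s := B.not_dvd_lev2 hp.out (B.p_not_dvd_lev hqp hpN A s)
  exact heckeDatum_flat_of_evS (L' := B.lev2 qv s) ctx hLS h hm (B.lev2_mem A s) f hf
    fun t ht => hfK _ fun z => B.t_act_eq_zero A hqp hpN s (L' := B.lev2 qv s) dvd_rfl
      (B.lev2_mem' A s) (act.comp (heckeLocal.π ((B.mulP hqp).lev2 qv s)
        (↑(B.Sn qv) : Set ℕ) 𝒪 (sysHom h))) hact t ht z

end Top

end Fermat.Agent.HSide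

end
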