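import Fermat.Agent.HSide.Base
import Fermat.Agent.HeckeRep.SubAct

/-!
# The Hecke algebras of the Hecke side and their actions

For one Taylor–Wiles set `qv` and one `s`: the localised Hecke algebra `B.TT` of level
`NS s * Q ^ 2`, the Galois representation `B.rho` over it, and its action on `B.MM qv s`; the same
for the bottom level.
-/

set_option autoImplicit false
set_option linter.style.haveILetI false
set_option linter.unusedSectionVars false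

noncomputable section

open Matrix.SpecialLinearGroup CongruenceSubgroup IsLocalRing
open scoped MatrixGroups

namespace Fermat.Agent.HSide

open TwHecke HeckePar TwExact HeckeRep RTE RTD GalRep CuspForm GaloisRepAdic

/-- the absolute Galois group -/
local notation "GQ'" => (AlgebraicClosure ℚ ≃ₐ[ℚ] AlgebraicClosure ℚ)

namespace Base

section Level

variable {𝒪 : Type} [CommRing 𝒪] [IsLocalRing 𝒪] {p : ℕ} {ι : Type} {qT : ι → ℕ} {S : Finset ℕ}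
  (B : Base 𝒪 p qT S) {m : ℕ} (qv : Fin m → ℕ)

/-- the level of the Hecke algebras -/
def lev2 (s : Finset ι) : ℕ := B.lev qv s * ∏ i, qv i

variable {qv}

theorem lev2_eq (s : Finset ι) : B.lev2 qv s = B.NS s * (∏ i, qv i) * (∏ i, qv i) := rfl

theorem lev_dvd_lev2 (s : Finset ι) : B.lev qv s ∣ B.lev2 qv s := Dvd.intro _ rfl

theorem lev2_ne (A : Auxs B qv) (s : Finset ι) : B.lev2 qv s ≠ 0 :=
  mul_ne_zero (B.lev_ne A s) (Finset.prod_ne_zero_iff.mpr fun i _ => (A.prime i).ne_zero)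

theorem neZero_lev2 (A : Auxs B qv) (s : Finset ι) : NeZero (B.lev2 qv s) := ⟨B.lev2_ne A s⟩

theorem prime_dvd_lev2 {s : Finset ι} {q : ℕ} (hq : q.Prime) (h : q ∣ B.lev2 qv s) :
    q ∣ B.lev qv s := by
  rcases hq.dvd_mul.mp h with h | h
  · exact h
  · exact h.trans (Dvd.intro_left _ rfl)

theorem not_dvd_lev2 {s : Finset ι} {q : ℕ} (hq : q.Prime) (h : ¬ q ∣ B.lev qv s) :
    ¬ q ∣ B.lev2 qv s := fun h' => h (B.prime_dvd_lev2 hq h')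

theorem lev2_mem' (A : Auxs B qv) (s : Finset ι) :
    ∀ ℓ : ℕ, ℓ.Prime → ℓ ∣ B.lev2 qv s → ℓ ∈ (↑(B.Sn qv) : Set ℕ) := fun ℓ hℓ h =>
  B.lev_mem A s ℓ hℓ (B.prime_dvd_lev2 hℓ h)

theorem lev2_mem (A : Auxs B qv) (s : Finset ι) :
    ∀ ℓ : ℕ, ℓ.Prime → ℓ ∣ B.lev2 qv s → ℓ ∈ B.Sn qv := fun ℓ hℓ h =>
  B.lev_mem A s ℓ hℓ (B.prime_dvd_lev2 hℓ h)

theorem qT_not_dvd_lev2 (A : Auxs B qv) {s : Finset ι} {v : ι} (hv : v ∉ s) :
    ¬ qT v ∣ B.lev2 qv s := B.not_dvd_lev2 (B.qT_prime v) (B.qT_not_dvd_lev A hv)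

variable (qv)

/-- the residual data at the Taylor–Wiles level -/
theorem hctx (habs : B.ρb.IsAbsolutelyIrreducible) :
    HCtx p B.ρb (B.Sn qv) (thOf B.a (↑(B.Sn qv) : Set ℕ)) where
  two := B.p_ne_two
  mem := B.p_mem
  mem_S := B.S_sub B.pS
  abs := habs
  frob ℓ A hA σ hσ := B.frob _ ℓ.1.2 (fun h => ℓ.2 (B.S_sub h)) A hA σ hσ

/-- the residual data at the bottom level -/
theorem hctx₀ (habs : B.ρb.IsAbsolutelyIrreducible) :
    HCtx p B.ρb S (thOf B.a (↑S : Set ℕ)) where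
  two := B.p_ne_two
  mem := B.p_mem
  mem_S := B.pS
  abs := habs
  frob ℓ A hA σ hσ := B.frob _ ℓ.1.2 (fun h => ℓ.2 h) A hA σ hσ

end Level

section Occ

variable {𝒪 : Type} [CommRing 𝒪] [IsLocalRing 𝒪] {p : ℕ} {ι : Type} {qT : ι → ℕ} {S : Finset ℕ}
  (B : Base 𝒪 p qT S) {m : ℕ} {qv : Fin m → ℕ}

/-- the residual system occurs at all the levels if it occurs at level `N`. -/
theorem occ_lev2 (A : Auxs B qv) (s : Finset ι) [NeZero B.N] [NeZero (B.lev2 qv s)]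
    (h : Occ B.N (↑S : Set ℕ) (thOf B.a (↑S : Set ℕ))) :
    Occ (B.lev2 qv s) (↑(B.Sn qv) : Set ℕ) (thOf B.a (↑(B.Sn qv) : Set ℕ)) :=
  (h.incl (Finset.coe_subset.mpr B.S_sub)).up
    ((B.N_dvd_NS s).trans ((B.NS_dvd_lev s).trans (B.lev_dvd_lev2 s))) (B.lev2_mem' A s)

/-- the residual system occurs at all the bottom levels if it occurs at level `N`. -/
theorem occ_NS (s : Finset ι) [NeZero B.N]
    (h : Occ B.N (↑S : Set ℕ) (thOf B.a (↑S : Set ℕ))) :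
    Occ (B.NS s) (↑S : Set ℕ) (thOf B.a (↑S : Set ℕ)) :=
  h.up (B.N_dvd_NS s) (B.NS_mem s)

end Occ

end Base

section Aux

variable {𝒪 : Type} [CommRing 𝒪] [IsDomain 𝒪] [IsDiscreteValuationRing 𝒪]
  [IsAdicComplete (maximalIdeal 𝒪) 𝒪] [Finite (ResidueField 𝒪)] [CharZero 𝒪]
  {Δ : Type} [CommGroup Δ] [Finite Δ] [IsLocalRing (MonoidAlgebra 𝒪 Δ)]

/-- `exists_act` with a character which is only equal to one of smaller level. -/
theorem exists_act_tau {M Q₀ L : ℕ} [NeZero M] [NeZero Q₀] [NeZero L]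
    (hQM : Q₀ ∣ M) (hL : M * Q₀ ∣ L) {S : Set ℕ}
    (hS : ∀ ℓ : ℕ, ℓ.Prime → ℓ ∣ L → ℓ ∈ S) (τ : (ZMod M)ˣ →* Δ) (τ₀ : (ZMod Q₀)ˣ →* Δ)
    (hτ : τ = τ₀.comp (ZMod.unitsMap hQM))
    {θ₀ : PIdx S → ResidueField 𝒪} (h : Occ L S θ₀) (hne : S41hm.StrongNonEis S θ₀)
    (hη : ∀ u, residue (MonoidAlgebra 𝒪 Δ) (taut 𝒪 τ u : MonoidAlgebra 𝒪 Δ) = 1)
    (hG : Good M ((taut 𝒪 τ) ^ 2) S (thMap (MonoidAlgebra 𝒪 Δ) θ₀)) :
    ∃ act : heckeLocal L S 𝒪 (sysHom h) →+*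
        Module.End (MonoidAlgebra 𝒪 Δ) (Hm M ((taut 𝒪 τ) ^ 2)
          (MonoidAlgebra 𝒪 Δ) S (thMap (MonoidAlgebra 𝒪 Δ) θ₀)),
      (∀ a, act (algebraMap 𝒪 _ a) =
        algebraMap (MonoidAlgebra 𝒪 Δ) _ (algebraMap 𝒪 (MonoidAlgebra 𝒪 Δ) a)) ∧
      ∀ ℓ, act (heckeLocal.π L S 𝒪 (sysHom h) (genS L S ℓ)) =
        hT (taut 𝒪 τ) ((taut 𝒪 τ) ^ 2) S (thMap (MonoidAlgebra 𝒪 Δ) θ₀) ℓ := by
  subst hτ
  exact exists_act hQM hL hS τ₀ h hne hη hG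

end Aux

namespace Base

section Act

variable {𝒪 : Type} [CommRing 𝒪] [IsDomain 𝒪] [IsDiscreteValuationRing 𝒪]
  [IsAdicComplete (maximalIdeal 𝒪) 𝒪] [Finite (ResidueField 𝒪)] [CharZero 𝒪]
  {p : ℕ} [hp : Fact p.Prime] {ι : Type} {qT : ι → ℕ} {S : Finset ℕ}
  (B : Base 𝒪 p qT S) {m : ℕ} {qv : Fin m → ℕ} (A : Auxs B qv)

/-- the localised Hecke algebra of level `NS s * Q ^ 2` -/
abbrev TT (s : Finset ι) [NeZero (B.lev2 qv s)]
    (h : Occ (B.lev2 qv s) (↑(B.Sn qv) : Set ℕ) (thOf B.a (↑(B.Sn qv) : Set ℕ))) : Type :=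
  heckeLocal (B.lev2 qv s) (↑(B.Sn qv) : Set ℕ) 𝒪 (sysHom h)

include A in
/-- **The action of the localised Hecke algebra of level `NS s * Q ^ 2` on `M s`.** -/
theorem exists_actT [IsLocalRing (Lam 𝒪 p qv)] (s : Finset ι) [NeZero (B.lev2 qv s)]
    (h : Occ (B.lev2 qv s) (↑(B.Sn qv) : Set ℕ) (thOf B.a (↑(B.Sn qv) : Set ℕ))) :
    ∃ act : B.TT s h →+* Module.End (Lam 𝒪 p qv) (B.MM qv s),
      (∀ c : 𝒪, act (algebraMap 𝒪 _ c) =
        algebraMap (Lam 𝒪 p qv) _ (algebraMap 𝒪 (Lam 𝒪 p qv) c)) ∧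
      ∀ ℓ, act (heckeLocal.π (B.lev2 qv s) (↑(B.Sn qv) : Set ℕ) 𝒪 (sysHom h)
          (genS (B.lev2 qv s) (↑(B.Sn qv) : Set ℕ) ℓ)) =
        hT (B.eta qv s) (B.eta qv s ^ 2) (↑(B.Sn qv) : Set ℕ) (B.th qv) ℓ := by
  have : NeZero p := ⟨hp.out.ne_zero⟩
  have : NeZero (B.lev qv s) := ⟨B.lev_ne A s⟩
  have : NeZero (∏ i, qv i) := ⟨Finset.prod_ne_zero_iff.mpr fun i _ => (A.prime i).ne_zero⟩
  exact exists_act_tau (Dvd.intro_left _ rfl : (∏ i, qv i) ∣ B.lev qv s) (dvd_refl _)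
    (B.lev2_mem' A s) (tauM p qv (B.lev qv s) (B.qv_dvd s))
    (tauM p qv (∏ i, qv i) (fun i => Finset.dvd_prod_of_mem qv (Finset.mem_univ i)))
    (tauM_comp _ _ _) h (B.ne _ B.S_sub) (B.residue_eta s) (B.good_lev A s)

/-- **The action at the bottom level.** -/
theorem exists_actT₀ (s : Finset ι)
    (h : Occ (B.NS s) (↑S : Set ℕ) (thOf B.a (↑S : Set ℕ))) :
    ∃ act : heckeLocal (B.NS s) (↑S : Set ℕ) 𝒪 (sysHom h) →+* Module.End 𝒪 (B.M0 s),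
      (∀ c : 𝒪, act (algebraMap 𝒪 _ c) = algebraMap 𝒪 _ c) ∧
      ∀ ℓ, act (heckeLocal.π (B.NS s) (↑S : Set ℕ) 𝒪 (sysHom h)
          (genS (B.NS s) (↑S : Set ℕ) ℓ)) =
        hT 1 (1 ^ 2) (↑S : Set ℕ) (thOf B.a (↑S : Set ℕ)) ℓ :=
  exists_act_triv (dvd_refl _) (B.NS_mem s) one_sq_eq h (B.ne _ subset_rfl) (B.good_M0 s)

end Act

end Base

section Pi

variable {R X κ : Type*} [CommRing R] [AddCommGroup X] [Module R X]

/-- componentwise action -/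
def piAct (κ : Type*) : Module.End R X →+* Module.End R (κ → X) where
  toFun f := LinearMap.pi fun k => f.comp (LinearMap.proj k)
  map_one' := rfl
  map_mul' _ _ := rfl
  map_zero' := rfl
  map_add' _ _ := rfl

@[simp] lemma piAct_apply (f : Module.End R X) (x : κ → X) (k : κ) :
    piAct κ f x k = f (x k) := rfl

lemma piAct_algebraMap (c : R) : piAct κ (algebraMap R (Module.End R X) c) = algebraMap R _ c := rfl

end Pi

end Fermat.Agent.HSide
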