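import Fermat.Agent.HeckeRep.Good1
import Fermat.Agent.HSide.Base

/-!
# The action of the trace of Frobenius at the primes `v`, on the Hecke side

`act_trace_eq_tvm` : any action of a complete local ring `R` carrying a Galois representation `ρ`
with cyclotomic determinant on `H¹(Γ₀(M), 𝒪[Δ](η²))_𝔪` such that `tr ρ(Frob_ℓ)` acts as `η(ℓ) T_ℓ`
for all `ℓ ∉ S`, satisfies `tr ρ(Frob_v) = η(v) T_v = tvm` for all primes `v ∤ M`, `v ≠ p`.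
-/

set_option autoImplicit false
set_option linter.style.haveILetI false

noncomputable section

open Matrix.SpecialLinearGroup CongruenceSubgroup IsLocalRing
open scoped MatrixGroups

namespace Fermat.Agent.HSide

open TwHecke HeckePar TwExact HeckeRep RTE RTD GalRep

section General

variable {𝒪 : Type} [CommRing 𝒪] [IsDomain 𝒪] [IsDiscreteValuationRing 𝒪]
  [IsAdicComplete (maximalIdeal 𝒪) 𝒪] [Finite (ResidueField 𝒪)] [CharZero 𝒪]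
variable {R : Type} [CommRing R] [IsLocalRing R] [IsAdicComplete (maximalIdeal R) R]
variable {Δ : Type} [CommGroup Δ] [Finite Δ] [IsLocalRing (MonoidAlgebra 𝒪 Δ)]

/-- **The trace of Frobenius at a good prime `v`**, coefficients `𝒪[Δ](τ²)`. -/
theorem act_trace_eq_tvm {p : ℕ} [Fact p.Prime] (hp𝒪 : (p : 𝒪) ∈ maximalIdeal 𝒪)
    {M : ℕ} [NeZero M] {S : Finset ℕ} (hpS : p ∈ S)
    (hMS : ∀ ℓ : ℕ, ℓ.Prime → ℓ ∣ M → ℓ ∈ (↑S : Set ℕ)) (τ : (ZMod M)ˣ →* Δ)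
    {θ : PIdx (↑S : Set ℕ) → ResidueField (MonoidAlgebra 𝒪 Δ)}
    (hne : S41hm.StrongNonEis (↑S : Set ℕ) θ)
    (hη : ∀ u, residue (MonoidAlgebra 𝒪 Δ) (taut 𝒪 τ u : MonoidAlgebra 𝒪 Δ) = 1)
    (hG : Good M ((taut 𝒪 τ) ^ 2) (↑S : Set ℕ) θ)
    (ρ : GaloisRepAdic R) (hdet : ρ.DetIsCyclotomic p)
    (act : R →+* Module.End (MonoidAlgebra 𝒪 Δ)
      (Hm M ((taut 𝒪 τ) ^ 2) (MonoidAlgebra 𝒪 Δ) (↑S : Set ℕ) θ))
    (hact : ∀ (ℓ : PIdx (↑S : Set ℕ)) (A : ValuationSubring (AlgebraicClosure ℚ)),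
      A.LiesOverPrime (ℓ.1 : ℕ) → ∀ σ : GQ, A.IsFrobeniusAt σ (ℓ.1 : ℕ) →
        act (LinearMap.trace R ρ.V (ρ.ρ σ)) = hT (taut 𝒪 τ) ((taut 𝒪 τ) ^ 2) (↑S : Set ℕ) θ ℓ)
    {v : ℕ} [hv : Fact v.Prime] (hvp : v ≠ p) (hvM : ¬ v ∣ M)
    {A : ValuationSubring (AlgebraicClosure ℚ)} (hA : A.LiesOverPrime v) {Φ : GQ}
    (hΦ : A.IsFrobeniusAt Φ v) :
    act (LinearMap.trace R ρ.V (ρ.ρ Φ)) =
      tvm M v (taut 𝒪 τ) ((taut 𝒪 τ) ^ 2) (↑S : Set ℕ) θ := by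
  obtain ⟨τ₀, hτ₀⟩ : ∃ τ₀ : (ZMod M)ˣ →* Δ, τ = τ₀.comp (ZMod.unitsMap (dvd_refl M)) :=
    ⟨τ, by rw [ZMod.unitsMap_self, MonoidHom.comp_id]⟩
  subst hτ₀
  have := Fintype.ofFinite Δ
  have hlh := HeckeRep.isLocalHom_groupRing (𝒪 := 𝒪) (Δ := Δ)
  have hnoeth := HeckeRep.isNoetherianRing_groupRing (𝒪 := 𝒪) (Δ := Δ)
  have hcomp := HeckeRep.isAdicComplete_groupRing (𝒪 := 𝒪) (Δ := Δ)
  have hresfin : Finite (ResidueField (MonoidAlgebra 𝒪 Δ)) :=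
    IsLocalRing.ResidueField.finite_of_finite (R := 𝒪) inferInstance
  have hpR : (p : MonoidAlgebra 𝒪 Δ) ∈ maximalIdeal (MonoidAlgebra 𝒪 Δ) := by
    rw [← map_natCast (algebraMap 𝒪 (MonoidAlgebra 𝒪 Δ))]
    exact map_nonunit (algebraMap 𝒪 (MonoidAlgebra 𝒪 Δ)) _ hp𝒪
  obtain ⟨ι, hι⟩ := RT.exists_embedding 𝒪
  obtain ⟨ℓ₀, h1, h2, h3⟩ := exists_aux hne (M := M)
  have hincl : (↑(S.erase v) : Set ℕ) ⊆ (↑S : Set ℕ) :=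
    Finset.coe_subset.mpr (Finset.erase_subset v S)
  have hMS' : ∀ q : ℕ, q.Prime → q ∣ M → q ∈ S.erase v := fun q hq hqM =>
    Finset.mem_erase.mpr ⟨fun h => hvM (h ▸ hqM), Finset.mem_coe.mp (hMS q hq hqM)⟩
  have hNS : ∀ q : ℕ, q.Prime → q ∣ M * M → q ∈ S.erase v := fun q hq hqM =>
    hMS' q hq (((Nat.Prime.dvd_mul hq).mp hqM).elim id id)
  have hNZ : NeZero (M * M) := ⟨mul_ne_zero (NeZero.ne M) (NeZero.ne M)⟩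
  refine LinearMap.ext fun x => Subtype.ext ?_
  exact act_trace_frobenius_of_relations (N := M * M) hpR hpS hv.out hvp hNS
    (taut 𝒪 (τ₀.comp (ZMod.unitsMap (dvd_refl M)))) θ (fun t ht x hx => by
      refine relation_of_torsion_incl (𝒪 := 𝒪) hincl hη hG t h3 (fun x => ?_) hx
      exact relation_group (dvd_refl M) ι hι (fun ℓ hℓ hd => Finset.mem_coe.mpr (hMS' ℓ hℓ hd)) τ₀
        t rfl ht h1 h2 x)
    ρ hdet act hact hA hΦ x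

/-- **The trace of Frobenius at a good prime `v`**, coefficients `𝒪`. -/
theorem act_trace_eq_tvm_one {p : ℕ} [Fact p.Prime] (hp𝒪 : (p : 𝒪) ∈ maximalIdeal 𝒪)
    {M : ℕ} [NeZero M] {S : Finset ℕ} (hpS : p ∈ S)
    (hMS : ∀ ℓ : ℕ, ℓ.Prime → ℓ ∣ M → ℓ ∈ (↑S : Set ℕ))
    {θ₀ : PIdx (↑S : Set ℕ) → ResidueField 𝒪} (hne : S41hm.StrongNonEis (↑S : Set ℕ) θ₀)
    (hG : Good M ((1 : (ZMod M)ˣ →* 𝒪ˣ) ^ 2) (↑S : Set ℕ) θ₀)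
    (ρ : GaloisRepAdic R) (hdet : ρ.DetIsCyclotomic p)
    (act : R →+* Module.End 𝒪 (Hm M ((1 : (ZMod M)ˣ →* 𝒪ˣ) ^ 2) 𝒪 (↑S : Set ℕ) θ₀))
    (hact : ∀ (ℓ : PIdx (↑S : Set ℕ)) (A : ValuationSubring (AlgebraicClosure ℚ)),
      A.LiesOverPrime (ℓ.1 : ℕ) → ∀ σ : GQ, A.IsFrobeniusAt σ (ℓ.1 : ℕ) →
        act (LinearMap.trace R ρ.V (ρ.ρ σ)) =
          hT 1 ((1 : (ZMod M)ˣ →* 𝒪ˣ) ^ 2) (↑S : Set ℕ) θ₀ ℓ)
    {v : ℕ} [hv : Fact v.Prime] (hvp : v ≠ p) (hvM : ¬ v ∣ M)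
    {A : ValuationSubring (AlgebraicClosure ℚ)} (hA : A.LiesOverPrime v) {Φ : GQ}
    (hΦ : A.IsFrobeniusAt Φ v) :
    act (LinearMap.trace R ρ.V (ρ.ρ Φ)) =
      tvm M v 1 ((1 : (ZMod M)ˣ →* 𝒪ˣ) ^ 2) (↑S : Set ℕ) θ₀ := by
  refine LinearMap.ext fun x => Subtype.ext ?_
  rw [coe_tvm, MonoidHom.one_apply, Units.val_one, one_smul]
  exact act_trace_frobenius_triv hp𝒪 hpS (fun ℓ hℓ hd => Finset.mem_coe.mp (hMS ℓ hℓ hd))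
    (one_sq_eq) hne hG ρ hdet act hact hv.out hvp hvM hA hΦ x

end General

section BaseLevel

variable {𝒪 : Type} [CommRing 𝒪] [IsDomain 𝒪] [IsDiscreteValuationRing 𝒪]
  [IsAdicComplete (maximalIdeal 𝒪) 𝒪] [Finite (ResidueField 𝒪)] [CharZero 𝒪]
variable {R : Type} [CommRing R] [IsLocalRing R] [IsAdicComplete (maximalIdeal R) R]
variable {p : ℕ} [hp : Fact p.Prime] {ι : Type} {qT : ι → ℕ}
  {S : Finset ℕ} (B : Base 𝒪 p qT S) {m : ℕ} {qv : Fin m → ℕ} (A : Auxs B qv)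

include A in
/-- **[g1]** on the modules `B.MM qv s`, for every prime `q` which does not divide the level. -/
theorem Base.act_tvm [IsLocalRing (Lam 𝒪 p qv)] (s : Finset ι)
    (ρ : GaloisRepAdic R) (hdet : ρ.DetIsCyclotomic p)
    (act : R →+* Module.End (Lam 𝒪 p qv) (B.MM qv s))
    (hact : ∀ (ℓ : PIdx (↑(B.Sn qv) : Set ℕ)) (A : ValuationSubring (AlgebraicClosure ℚ)),
      A.LiesOverPrime (ℓ.1 : ℕ) → ∀ σ : GQ, A.IsFrobeniusAt σ (ℓ.1 : ℕ) →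
        act (LinearMap.trace R ρ.V (ρ.ρ σ)) =
          hT (B.eta qv s) (B.eta qv s ^ 2) (↑(B.Sn qv) : Set ℕ) (B.th qv) ℓ)
    {q : ℕ} [hq : Fact q.Prime] (hqp : q ≠ p) (hqM : ¬ q ∣ B.lev qv s)
    {A' : ValuationSubring (AlgebraicClosure ℚ)} (hA' : A'.LiesOverPrime q) {Φ : GQ}
    (hΦ : A'.IsFrobeniusAt Φ q) :
    act (LinearMap.trace R ρ.V (ρ.ρ Φ)) =
      tvm (B.lev qv s) q (B.eta qv s) (B.eta qv s ^ 2) (↑(B.Sn qv) : Set ℕ) (B.th qv) := by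
  have : NeZero p := ⟨hp.out.ne_zero⟩
  have : NeZero (B.lev qv s) := ⟨B.lev_ne A s⟩
  exact act_trace_eq_tvm B.p_mem (B.S_sub B.pS) (B.lev_mem A s)
    (tauM p qv (B.lev qv s) (B.qv_dvd s)) B.strong_th (B.residue_eta s) (B.good_lev A s) ρ hdet
    act hact hqp hqM hA' hΦ

include A in
/-- **[g1]**, for the primes `qT v`, `v ∉ s`. -/
theorem Base.act_v [IsLocalRing (Lam 𝒪 p qv)] {s : Finset ι} {v : ι} (hv : v ∉ s)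
    (hvp : qT v ≠ p) (ρ : GaloisRepAdic R) (hdet : ρ.DetIsCyclotomic p)
    (act : R →+* Module.End (Lam 𝒪 p qv) (B.MM qv s))
    (hact : ∀ (ℓ : PIdx (↑(B.Sn qv) : Set ℕ)) (A : ValuationSubring (AlgebraicClosure ℚ)),
      A.LiesOverPrime (ℓ.1 : ℕ) → ∀ σ : GQ, A.IsFrobeniusAt σ (ℓ.1 : ℕ) →
        act (LinearMap.trace R ρ.V (ρ.ρ σ)) =
          hT (B.eta qv s) (B.eta qv s ^ 2) (↑(B.Sn qv) : Set ℕ) (B.th qv) ℓ)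
    [Fact (qT v).Prime]
    {A' : ValuationSubring (AlgebraicClosure ℚ)} (hA' : A'.LiesOverPrime (qT v)) {Φ : GQ}
    (hΦ : A'.IsFrobeniusAt Φ (qT v)) :
    act (LinearMap.trace R ρ.V (ρ.ρ Φ)) =
      tvm (B.lev qv s) (qT v) (B.eta qv s) (B.eta qv s ^ 2) (↑(B.Sn qv) : Set ℕ) (B.th qv) :=
  B.act_tvm A s ρ hdet act hact hvp (B.qT_not_dvd_lev A hv) hA' hΦ

/-- **[g1]** at the bottom, `B.M0 s`, for every prime `q` which does not divide the level. -/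
theorem Base.act_tvm_bot (s : Finset ι)
    (ρ : GaloisRepAdic R) (hdet : ρ.DetIsCyclotomic p)
    (act : R →+* Module.End 𝒪 (B.M0 s))
    (hact : ∀ (ℓ : PIdx (↑S : Set ℕ)) (A : ValuationSubring (AlgebraicClosure ℚ)),
      A.LiesOverPrime (ℓ.1 : ℕ) → ∀ σ : GQ, A.IsFrobeniusAt σ (ℓ.1 : ℕ) →
        act (LinearMap.trace R ρ.V (ρ.ρ σ)) =
          hT 1 ((1 : (ZMod (B.NS s))ˣ →* 𝒪ˣ) ^ 2) (↑S : Set ℕ) (thOf B.a (↑S : Set ℕ)) ℓ)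
    {q : ℕ} [hq : Fact q.Prime] (hqp : q ≠ p) (hqM : ¬ q ∣ B.NS s)
    {A' : ValuationSubring (AlgebraicClosure ℚ)} (hA' : A'.LiesOverPrime q) {Φ : GQ}
    (hΦ : A'.IsFrobeniusAt Φ q) :
    act (LinearMap.trace R ρ.V (ρ.ρ Φ)) =
      tvm (B.NS s) q 1 ((1 : (ZMod (B.NS s))ˣ →* 𝒪ˣ) ^ 2) (↑S : Set ℕ)
        (thOf B.a (↑S : Set ℕ)) :=
  act_trace_eq_tvm_one B.p_mem B.pS (fun ℓ hℓ hd => Finset.mem_coe.mpr (B.NS_mem s ℓ hℓ hd))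
    (B.ne S subset_rfl) (B.good_M0 s) ρ hdet act hact hqp hqM hA' hΦ

/-- **[g1]** on `B.M1 qv s`. -/
theorem Base.act_tvm_M1 [IsLocalRing (Lam 𝒪 p qv)] (A : Auxs B qv) (s : Finset ι)
    (ρ : GaloisRepAdic R) (hdet : ρ.DetIsCyclotomic p)
    (act : R →+* Module.End 𝒪 (B.M1 qv s))
    (hact : ∀ (ℓ : PIdx (↑(B.Sn qv) : Set ℕ)) (A : ValuationSubring (AlgebraicClosure ℚ)),
      A.LiesOverPrime (ℓ.1 : ℕ) → ∀ σ : GQ, A.IsFrobeniusAt σ (ℓ.1 : ℕ) →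
        act (LinearMap.trace R ρ.V (ρ.ρ σ)) =
          hT 1 ((1 : (ZMod (B.lev qv s))ˣ →* 𝒪ˣ) ^ 2) (↑(B.Sn qv) : Set ℕ)
            (thOf B.a (↑(B.Sn qv) : Set ℕ)) ℓ)
    {q : ℕ} [hq : Fact q.Prime] (hqp : q ≠ p) (hqM : ¬ q ∣ B.lev qv s)
    {A' : ValuationSubring (AlgebraicClosure ℚ)} (hA' : A'.LiesOverPrime q) {Φ : GQ}
    (hΦ : A'.IsFrobeniusAt Φ q) :
    act (LinearMap.trace R ρ.V (ρ.ρ Φ)) =
      tvm (B.lev qv s) q 1 ((1 : (ZMod (B.lev qv s))ˣ →* 𝒪ˣ) ^ 2) (↑(B.Sn qv) : Set ℕ)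
        (thOf B.a (↑(B.Sn qv) : Set ℕ)) :=
  have : NeZero (B.lev qv s) := ⟨B.lev_ne A s⟩
  act_trace_eq_tvm_one B.p_mem (B.S_sub B.pS) (B.lev_mem A s)
    (B.ne _ B.S_sub) (B.good_M1 A s) ρ hdet act hact hqp hqM hA' hΦ

end BaseLevel

end Fermat.Agent.HSide
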