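import Fermat.Agent.HSide.Deg
import Fermat.Agent.RTI.Main
import Fermat.Agent.TwExact.Change

/-!
# The map on `𝔪`-parts induced by a surjection of coefficient rings
-/

set_option autoImplicit false
set_option linter.style.haveILetI false

noncomputable section

open Matrix.SpecialLinearGroup CongruenceSubgroup IsLocalRing
open scoped MatrixGroups

namespace Fermat.Agent.HSide

open TwHecke HeckePar TwExact

section Sig

variable {M : ℕ} {R R' : Type} [CommRing R] [CommRing R'] (σ : R →+* R')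
  {ε : (ZMod M)ˣ →* Rˣ} {ε' : (ZMod M)ˣ →* R'ˣ} (hε : ∀ u, (ε' u : R') = σ (ε u))

/-- The change of coefficients `R → R'`. -/
def sg : HM M ε R →ₛₗ[σ] HM M ε' R' := HM.mapₛ hε (σ.toSemilinearMap)

theorem sg_heckeH {p : ℕ} [Fact p.Prime] (x : HM M ε R) :
    sg σ hε (heckeH M p ε R x) = heckeH M p ε' R' (sg σ hε x) := (heckeH_mapₛ hε _ x).symm

theorem sg_eq (hε₀ : ε' = letI := σ.toAlgebra; epsMap M ε R') (x : HM M ε R) :
    letI := σ.toAlgebra
    sg σ hε x = (hε₀ ▸ HMChange (R' := R') M ε R' (H1.map (chr M ε) (Algebra.linearMap R R') x) :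
      HM M ε' R') := by
  subst hε₀
  induction x using H1.ind with
  | h c => rfl

theorem eps_eq (hε : ∀ u, (ε' u : R') = σ (ε u)) :
    ε' = letI := σ.toAlgebra; epsMap M ε R' := by
  ext u
  exact hε u

variable [IsLocalRing R] [IsLocalRing R'] [IsLocalHom σ] {S : Set ℕ} {θ : PIdx S → ResidueField R}
  {θ' : PIdx S → ResidueField R'} (hθ : ∀ ℓ, θ' ℓ = ResidueField.map σ (θ ℓ))

include hθ in
theorem sg_mem (hσ : Function.Surjective σ) {x : HM M ε R} (hx : x ∈ Hm M ε R S θ) :
    sg σ hε x ∈ Hm M ε' R' S θ' := by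
  letI := σ.toAlgebra
  have hl : IsLocalHom (algebraMap R R') := inferInstanceAs (IsLocalHom σ)
  obtain rfl : ε' = epsMap M ε R' := eps_eq σ hε
  obtain rfl : θ' = thMap R' θ := funext hθ
  rw [sg_eq σ hε rfl]
  exact (mem_Hm_change M ε S θ R' hσ _).mpr (map_mem_Hm M ε S θ _ hx)

/-- The change of coefficients on the `𝔪`-parts -/
def sgm (hσ : Function.Surjective σ) : Hm M ε R S θ →ₛₗ[σ] Hm M ε' R' S θ' where
  toFun x := ⟨sg σ hε x.1, sg_mem σ hε hθ hσ x.2⟩
  map_add' x y := Subtype.ext (map_add (sg σ hε) x.1 y.1)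
  map_smul' r x := Subtype.ext (map_smulₛₗ (sg σ hε) r x.1)

@[simp] theorem coe_sgm (hσ : Function.Surjective σ) (x : Hm M ε R S θ) :
    (sgm σ hε hθ hσ x : HM M ε' R') = sg σ hε x.1 := rfl

variable [NeZero M] [IsNoetherianRing R] [IsAdicComplete (maximalIdeal R) R]

theorem sgm_surjective (hσ : Function.Surjective σ) (hG : Good M ε S θ) :
    Function.Surjective (sgm σ hε hθ hσ) := by
  letI := σ.toAlgebra
  have hl : IsLocalHom (algebraMap R R') := inferInstanceAs (IsLocalHom σ)
  obtain rfl : ε' = epsMap M ε R' := eps_eq σ hε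
  obtain rfl : θ' = thMap R' θ := funext hθ
  intro y
  obtain ⟨z, rfl⟩ := (HmChange M ε S θ R' hσ).surjective y
  obtain ⟨x, rfl⟩ := hG.surjective (Algebra.linearMap R R') hσ z
  refine ⟨x, Subtype.ext ?_⟩
  rw [coe_sgm, sg_eq σ hε rfl]
  rfl

/-- **The kernel of the change of coefficients.** -/
theorem sgm_ker (hσ : Function.Surjective σ) (hG : Good M ε S θ) (x : Hm M ε R S θ) :
    sgm σ hε hθ hσ x = 0 ↔ x ∈ (RingHom.ker σ • ⊤ : Submodule R (Hm M ε R S θ)) := by
  letI := σ.toAlgebra
  have hl : IsLocalHom (algebraMap R R') := inferInstanceAs (IsLocalHom σ)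
  obtain rfl : ε' = epsMap M ε R' := eps_eq σ hε
  obtain rfl : θ' = thMap R' θ := funext hθ
  rw [← RTI.ker_HmMap hG (Algebra.linearMap R R') hσ (RingHom.ker σ) rfl, LinearMap.mem_ker,
    ← Subtype.coe_inj, ← Subtype.coe_inj, coe_sgm, sg_eq σ hε rfl, coe_HmMap]
  exact (HMChange (R' := R') M ε R').map_eq_zero_iff

end Sig

/-! ### Bases -/

section Basis

variable {R R' : Type*} [CommRing R] [CommRing R'] {σ : R →+* R'} {N N' : Type*} [AddCommGroup N]
  [Module R N] [AddCommGroup N'] [Module R' N']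

theorem repr_mem_of_mem_smul_top {ι : Type*} (b : Module.Basis ι R N) {I : Ideal R} {x : N}
    (hx : x ∈ (I • ⊤ : Submodule R N)) (i : ι) : b.repr x i ∈ I := by
  refine Submodule.smul_induction_on hx ?_ ?_
  · intro r hr y _
    rw [map_smul, Finsupp.smul_apply, smul_eq_mul]
    exact I.mul_mem_right _ hr
  · intro y z hy hz
    rw [map_add, Finsupp.add_apply]
    exact I.add_mem hy hz

/-- A basis over `R` gives a basis over `R'`. -/
theorem exists_basis_of_surj (hσ : Function.Surjective σ) (f : N →ₛₗ[σ] N')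
    (hf : Function.Surjective f)
    (hker : ∀ x, f x = 0 → x ∈ (RingHom.ker σ • ⊤ : Submodule R N)) {ι : Type*} [Finite ι]
    (b : Module.Basis ι R N) : ∃ b' : Module.Basis ι R' N', ∀ i, b' i = f (b i) := by
  classical
  have := Fintype.ofFinite ι
  have hli : LinearIndependent R' (fun i => f (b i)) := by
    rw [Fintype.linearIndependent_iff]
    intro g hg i
    choose c hc using fun i => hσ (g i)
    have h1 : f (∑ i, c i • b i) = 0 := by
      rw [map_sum, ← hg]
      exact Finset.sum_congr rfl fun i _ => by rw [map_smulₛₗ, hc]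
    have h2 := repr_mem_of_mem_smul_top b (hker _ h1) i
    rw [b.repr_sum_self, RingHom.mem_ker, hc] at h2
    exact h2
  have hsp : ⊤ ≤ Submodule.span R' (Set.range fun i => f (b i)) := by
    rintro y -
    obtain ⟨x, rfl⟩ := hf y
    rw [← b.sum_repr x, map_sum]
    refine Submodule.sum_mem _ fun i _ => ?_
    rw [map_smulₛₗ]
    exact Submodule.smul_mem _ _ (Submodule.subset_span ⟨i, rfl⟩)
  exact ⟨Module.Basis.mk hli hsp, fun i => Module.Basis.mk_apply _ _ i⟩

/-- the rank does not change -/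
theorem finrank_eq_of_surj [Nontrivial R'] (hσ : Function.Surjective σ) (f : N →ₛₗ[σ] N')
    (hf : Function.Surjective f)
    (hker : ∀ x, f x = 0 → x ∈ (RingHom.ker σ • ⊤ : Submodule R N)) [Module.Free R N]
    [Module.Finite R N] : Module.finrank R N = Module.finrank R' N' := by
  have : Nontrivial R := σ.domain_nontrivial
  obtain ⟨b', -⟩ := exists_basis_of_surj hσ f hf hker (Module.Free.chooseBasis R N)
  rw [Module.finrank_eq_card_basis (Module.Free.chooseBasis R N), Module.finrank_eq_card_basis b']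

end Basis

end Fermat.Agent.HSide
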