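import Fermat.Agent.HSide.NewP

/-!
# The bottom modules: degeneracy maps, Ihara's lemma
-/

set_option autoImplicit false
set_option linter.unusedSectionVars false
set_option linter.style.haveILetI false

noncomputable section

open Matrix.SpecialLinearGroup CongruenceSubgroup IsLocalRing
open scoped MatrixGroups

namespace Fermat.Agent.HSide

open TwHecke HeckePar TwExact HeckeRep RTE RTD GalRep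

section Bot

variable {𝒪 : Type} [CommRing 𝒪] [IsLocalRing 𝒪] [IsNoetherianRing 𝒪]
  [IsAdicComplete (maximalIdeal 𝒪) 𝒪] [IsAddTorsionFree 𝒪] {p : ℕ} [hp : Fact p.Prime]
  {κ : Type} [DecidableEq κ] [Fintype κ] {S₀ S : Finset ℕ} {a : ℕ → ResidueField 𝒪} {qv : κ → ℕ}
  (I : BotInput p 𝒪 S₀ S a qv) {N M N₁ M₁ v : ℕ} [NeZero N] [NeZero N₁]
  (hNS : ∀ r : ℕ, r.Prime → r ∣ N → r ∈ S₀) (hM : N * ∏ i, qv i = M)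
  (hNS₁ : ∀ r : ℕ, r.Prime → r ∣ N₁ → r ∈ S₀) (hM₁ : N₁ * ∏ i, qv i = M₁)
  (hv : v.Prime) (hNv : N * v = N₁) (hMv : M * v = M₁)
  (hvS₀ : v ∈ (↑S₀ : Set ℕ)) (hvS : v ∈ (↑S : Set ℕ)) (hN : N ∣ M) (hN₁ : N₁ ∣ M₁)

/-- `botEquiv` and the degeneracy map at another prime -/
theorem botEquiv_i1 (x : Finset κ → Hm N ((1 : (ZMod N)ˣ →* 𝒪ˣ) ^ 2) 𝒪 (↑S₀ : Set ℕ)
    (thOf a (↑S₀ : Set ℕ))) :
    I.botEquiv (ε := (1 : (ZMod N₁)ˣ →* 𝒪ˣ) ^ 2) (ε' := (1 : (ZMod M₁)ˣ →* 𝒪ˣ) ^ 2) hNS₁ hM₁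
      one_sq_eq hN₁ rfl (fun J => i1 (η := 1) (η' := 1) hv hNv rfl _ hvS₀ (x J)) =
    i1 (η := 1) (η' := 1) hv hMv rfl _ hvS
      (I.botEquiv (ε := (1 : (ZMod N)ˣ →* 𝒪ˣ) ^ 2) (ε' := (1 : (ZMod M)ˣ →* 𝒪ˣ) ^ 2) hNS hM
        one_sq_eq hN rfl x) := by
  apply Subtype.ext
  rw [I.coe_botEquiv, coe_i1, I.coe_botEquiv]
  exact botSum_dg I.ne_zero (BotInput.dvd hM) hN rfl one_ne_zero (BotInput.dvd hM₁) hN₁ rfl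
    (dvd1 hNv) (dvd1 hMv) rfl rfl (fun J => (x J : HM N ((1 : (ZMod N)ˣ →* 𝒪ˣ) ^ 2) 𝒪))

/-- `botEquiv` and the second degeneracy map at another prime -/
theorem botEquiv_i2 (x : Finset κ → Hm N ((1 : (ZMod N)ˣ →* 𝒪ˣ) ^ 2) 𝒪 (↑S₀ : Set ℕ)
    (thOf a (↑S₀ : Set ℕ))) :
    I.botEquiv (ε := (1 : (ZMod N₁)ˣ →* 𝒪ˣ) ^ 2) (ε' := (1 : (ZMod M₁)ˣ →* 𝒪ˣ) ^ 2) hNS₁ hM₁
      one_sq_eq hN₁ rfl (fun J => i2 (η := 1) (η' := 1) hv hNv rfl _ hvS₀ (x J)) =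
    i2 (η := 1) (η' := 1) hv hMv rfl _ hvS
      (I.botEquiv (ε := (1 : (ZMod N)ˣ →* 𝒪ˣ) ^ 2) (ε' := (1 : (ZMod M)ˣ →* 𝒪ˣ) ^ 2) hNS hM
        one_sq_eq hN rfl x) := by
  apply Subtype.ext
  rw [I.coe_botEquiv, coe_i2, I.coe_botEquiv, MonoidHom.one_apply, inv_one, Units.val_one,
    one_smul]
  have key := botSum_dg (ε := (1 : (ZMod N)ˣ →* 𝒪ˣ) ^ 2) (ε' := (1 : (ZMod M)ˣ →* 𝒪ˣ) ^ 2)
    (ε₁ := (1 : (ZMod N₁)ˣ →* 𝒪ˣ) ^ 2) (ε₁' := (1 : (ZMod M₁)ˣ →* 𝒪ˣ) ^ 2) (A := 𝒪)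
    I.ne_zero (BotInput.dvd hM) hN rfl hv.ne_zero (BotInput.dvd hM₁) hN₁ rfl
    (dvdv hNv) (dvdv hMv) rfl rfl (fun J => (x J : HM N ((1 : (ZMod N)ˣ →* 𝒪ˣ) ^ 2) 𝒪))
  refine Eq.trans ?_ key
  congr 1
  funext J
  rw [coe_i2, MonoidHom.one_apply, inv_one, Units.val_one, one_smul]

section Pi

variable {R : Type} [CommRing R] [IsLocalRing R] (σ : R →+* 𝒪) [IsLocalHom σ]
  (hσ : Function.Surjective σ) {θ : PIdx (↑S : Set ℕ) → ResidueField R}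
  (hθ : ∀ ℓ, thOf a (↑S : Set ℕ) ℓ = ResidueField.map σ (θ ℓ))
  {η : (ZMod M)ˣ →* Rˣ} {η₁ : (ZMod M₁)ˣ →* Rˣ} (hη : infl (Dvd.intro v hMv) η = η₁)
  (hs : ∀ u, (((1 : (ZMod M)ˣ →* 𝒪ˣ) u : 𝒪ˣ) : 𝒪) = σ (η u))
  (k : ∀ u, ((((1 : (ZMod M)ˣ →* 𝒪ˣ) ^ 2) u : 𝒪ˣ) : 𝒪) = σ (((η ^ 2) u : Rˣ) : R))
  (k₁ : ∀ u, ((((1 : (ZMod M₁)ˣ →* 𝒪ˣ) ^ 2) u : 𝒪ˣ) : 𝒪) = σ (((η₁ ^ 2) u : Rˣ) : R))

/-- the projection to the bottom modules and the degeneracy map at another prime -/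
theorem pi_i1 (x : Hm M (η ^ 2) R (↑S : Set ℕ) θ) :
    (I.botEquiv (ε := (1 : (ZMod N₁)ˣ →* 𝒪ˣ) ^ 2) (ε' := (1 : (ZMod M₁)ˣ →* 𝒪ˣ) ^ 2) hNS₁ hM₁
      one_sq_eq hN₁ rfl).symm (sgm σ k₁ hθ hσ (i1 hv hMv hη θ hvS x)) =
    fun J => i1 (η := 1) (η' := 1) hv hNv rfl _ hvS₀
      ((I.botEquiv (ε := (1 : (ZMod N)ˣ →* 𝒪ˣ) ^ 2) (ε' := (1 : (ZMod M)ˣ →* 𝒪ˣ) ^ 2) hNS hM
        one_sq_eq hN rfl).symm (sgm σ k hθ hσ x) J) := by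
  refine (LinearEquiv.symm_apply_eq _).mpr ?_
  refine Eq.trans ?_ (botEquiv_i1 I hNS hM hNS₁ hM₁ hv hNv hMv hvS₀ hvS hN hN₁
    ((I.botEquiv (ε := (1 : (ZMod N)ˣ →* 𝒪ˣ) ^ 2) (ε' := (1 : (ZMod M)ˣ →* 𝒪ˣ) ^ 2) hNS hM
        one_sq_eq hN rfl).symm (sgm σ k hθ hσ x))).symm
  rw [LinearEquiv.apply_symm_apply]
  exact sgm_i1 (χ := 1) (χ' := 1) (k := k) (k' := k₁) σ hσ hθ hv hMv hη rfl hvS x

include hs in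
/-- the projection to the bottom modules and the second degeneracy map at another prime -/
theorem pi_i2 (x : Hm M (η ^ 2) R (↑S : Set ℕ) θ) :
    (I.botEquiv (ε := (1 : (ZMod N₁)ˣ →* 𝒪ˣ) ^ 2) (ε' := (1 : (ZMod M₁)ˣ →* 𝒪ˣ) ^ 2) hNS₁ hM₁
      one_sq_eq hN₁ rfl).symm (sgm σ k₁ hθ hσ (i2 hv hMv hη θ hvS x)) =
    fun J => i2 (η := 1) (η' := 1) hv hNv rfl _ hvS₀
      ((I.botEquiv (ε := (1 : (ZMod N)ˣ →* 𝒪ˣ) ^ 2) (ε' := (1 : (ZMod M)ˣ →* 𝒪ˣ) ^ 2) hNS hM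
        one_sq_eq hN rfl).symm (sgm σ k hθ hσ x) J) := by
  refine (LinearEquiv.symm_apply_eq _).mpr ?_
  refine Eq.trans ?_ (botEquiv_i2 I hNS hM hNS₁ hM₁ hv hNv hMv hvS₀ hvS hN hN₁
    ((I.botEquiv (ε := (1 : (ZMod N)ˣ →* 𝒪ˣ) ^ 2) (ε' := (1 : (ZMod M)ˣ →* 𝒪ˣ) ^ 2) hNS hM
        one_sq_eq hN rfl).symm (sgm σ k hθ hσ x))).symm
  rw [LinearEquiv.apply_symm_apply]
  exact sgm_i2 (χ := 1) (χ' := 1) (k := k) (k' := k₁) σ hσ hθ hv hMv hη rfl hs hvS x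

end Pi

end Bot

section Maps

variable {𝒪 : Type} [CommRing 𝒪] [IsLocalRing 𝒪] {p : ℕ} {ι : Type} [DecidableEq ι]
  {qT : ι → ℕ} {S : Finset ℕ} (B : Base 𝒪 p qT S) {s : Finset ι} {v : ι} (hv : v ∉ s)

/-- the degeneracy map on the bottom modules -/
def Base.bi1 : B.M0 s →ₗ[𝒪] B.M0 (insert v s) :=
  i1 (η := 1) (η' := 1) (B.qT_prime v) (B.NS_insert hv) rfl _ (B.qT_mem' v)

/-- the second degeneracy map on the bottom modules -/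
def Base.bi2 : B.M0 s →ₗ[𝒪] B.M0 (insert v s) :=
  i2 (η := 1) (η' := 1) (B.qT_prime v) (B.NS_insert hv) rfl _ (B.qT_mem' v)

/-- **Ihara's lemma** on the bottom modules -/
theorem Base.bihara [IsNoetherianRing 𝒪] [IsAdicComplete (maximalIdeal 𝒪) 𝒪]
    [hp : Fact p.Prime] (ϖ : 𝒪) (x y : B.M0 s) (z : B.M0 (insert v s))
    (e : B.bi1 hv x + B.bi2 hv y = ϖ • z) : (∃ x', x = ϖ • x') ∧ ∃ y', y = ϖ • y' := by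
  have := B.charP_res
  exact ihara_i (B.qT_prime v) (B.qT_not_dvd_NS hv) (B.NS_insert hv) hp.out B.p_ne_two rfl
    (B.qT_mem' v) (fun u => by rw [MonoidHom.one_apply, Units.val_one, map_one])
    (B.ne S subset_rfl) (B.good_M0 s) (B.NS_mem (insert v s)) ϖ x y z e

end Maps

end Fermat.Agent.HSide
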