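import Fermat.Agent.HSide.Deg

/-!
# Commutation of degeneracy maps, traces and Atkin–Lehner operators at different primes
-/

set_option autoImplicit false

noncomputable section

open Matrix.SpecialLinearGroup CongruenceSubgroup
open scoped MatrixGroups

namespace Fermat.Agent.HSide

open TwHecke HeckePar

/-! ### Preliminaries -/

section Prelim

/-- the upper left entry of an element of `Γ₀(M')`, modulo `M ∣ M'` -/
theorem eps_eq_one {M M' : ℕ} {R : Type*} [CommRing R] {ε : (ZMod M)ˣ →* Rˣ}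
    {ε' : (ZMod M')ˣ →* Rˣ} (h : M ∣ M') (hε : infl h ε = ε') {c : Gamma0 M'}
    (hc : (((c : SL(2, ℤ)) 0 0 : ℤ) : ZMod M) = 1) : ((chr M' ε' c : Rˣ) : R) = 1 := by
  subst hε
  show ((ε (aMap' h c) : Rˣ) : R) = 1
  have : aMap' h c = 1 := Units.ext (by rw [val_aMap', hc, Units.val_one])
  rw [this, map_one, Units.val_one]

theorem not_dvd_of_prime_mul {q v M M' : ℕ} (hq : q.Prime) (hv : v.Prime) (hne : q ≠ v)
    (h : M * v = M') (hqM : ¬ q ∣ M) : ¬ q ∣ M' := by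
  subst h
  intro hd
  rcases hq.dvd_mul.mp hd with h1 | h1
  · exact hqM h1
  · exact hne ((Nat.prime_dvd_prime_iff_eq hq hv).mp h1)

theorem mem_Gamma0_iff {M : ℕ} (g : SL(2, ℤ)) : g ∈ Gamma0 M ↔ (M : ℤ) ∣ g 1 0 := by
  rw [Gamma0_mem, ZMod.intCast_zmod_eq_zero_iff_dvd]

theorem unitOf_unitsMap {M M' q : ℕ} (h : M ∣ M') (hq : q.Prime) (hqM' : ¬ q ∣ M') :
    ZMod.unitsMap h (unitOf M' q) = unitOf M q := by
  have hqM : ¬ q ∣ M := fun h' => hqM' (h'.trans h)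
  apply Units.ext
  rw [val_unitOf (isUnit_prime hq hqM)]
  show ZMod.castHom h (ZMod M) (unitOf M' q : ZMod M') = _
  rw [val_unitOf (isUnit_prime hq hqM'), map_intCast]

theorem wt_unitOf {M M' q : ℕ} {R : Type*} [CommRing R] {ε : (ZMod M)ˣ →* Rˣ}
    {ε' : (ZMod M')ˣ →* Rˣ} (h : M ∣ M') (hε : infl h ε = ε') (hq : q.Prime) (hqM' : ¬ q ∣ M') :
    wt ε' (unitOf M' q) = wt ε (unitOf M q) := by
  subst hε
  rw [wt_infl, unitOf_unitsMap h hq hqM']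

end Prelim

/-! ### Degeneracy maps and traces -/

section DgTg

variable {M₀ M₁ N₀ N₁ q d : ℕ} (hq : q.Prime) (hqM : ¬ q ∣ M₀) (hqN : ¬ q ∣ N₀)
  (hM : M₀ * q = M₁) (hN : N₀ * q = N₁) (hd : d ≠ 0) (h₀ : M₀ * d ∣ N₀) (h₁ : M₁ * d ∣ N₁)
variable {R : Type*} [CommRing R] {ε₀ : (ZMod M₀)ˣ →* Rˣ} {ε₁ : (ZMod M₁)ˣ →* Rˣ}
  {χ₀ : (ZMod N₀)ˣ →* Rˣ} {χ₁ : (ZMod N₁)ˣ →* Rˣ}
  {A : Type*} [AddCommGroup A] [Module R A]

/-- Degeneracy maps commute with the trace at another prime. -/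
theorem tg_dg_comm (hε : infl (Dvd.intro q hM) ε₀ = ε₁) (hχ : infl (Dvd.intro q hN) χ₀ = χ₁)
    (h₀ε : infl (dvd_of_mul h₀) ε₀ = χ₀) (h₁ε : infl (dvd_of_mul h₁) ε₁ = χ₁)
    (x : HM M₁ ε₁ A) :
    tg hq hqN hN A hχ (dg A hd h₁ h₁ε x) = dg A hd h₀ h₀ε (tg hq hqM hM A hε x) := by
  have : NeZero q := ⟨hq.ne_zero⟩
  have hw1 := (dg_isWeight hd h₁ h₁ε 1).comp (trC_isWeight hq hqN hN hχ)
  have hw2 := (trC_isWeight hq hqM hM hε).comp (dg_isWeight hd h₀ h₀ε 1)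
  have e1 : tg hq hqN hN A hχ (dg A hd h₁ h₁ε x) =
      ((bCorr hd h₁).comp (trC hq hqN hN)).tr A hw1 x := (Corr.tr_comp _ _ _ _ x).symm
  have e2 : dg A hd h₀ h₀ε (tg hq hqM hM A hε x) =
      ((trC hq hqM hM).comp (bCorr hd h₀)).tr A hw2 x := (Corr.tr_comp _ _ _ _ x).symm
  rw [e1, e2]
  have hdp : (0 : ℤ) < d := by exact_mod_cast Nat.pos_of_ne_zero hd
  refine tr_eq_of_card ((bCorr_isRep hd h₁).comp (trC_isRep hq hqN hN))
    ((trC_isRep hq hqM hM).comp (bCorr_isRep hd h₀)) ?_ ?_ hw1 hw2 ?_ ?_ x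
  · refine pInj_of_det (d : ℤ) hdp
      (fun x => by rw [Matrix.det_mul, det_kRep, det_diag, mul_one]) ?_
    rintro ⟨⟨⟩, x⟩ ⟨⟨⟩, y⟩ c hc
    have h1 : !![(d : ℤ), 0; 0, 1] *
        (((kG N₀ q x * (kG N₀ q y)⁻¹ : Gamma0 N₀) : SL(2, ℤ)) : Matrix (Fin 2) (Fin 2) ℤ) =
          ((c : SL(2, ℤ)) : Matrix (Fin 2) (Fin 2) ℤ) * !![(d : ℤ), 0; 0, 1] := by
      refine mul_right_cancel_of_det (C := kRep N₀ q y) (by rw [det_kRep]; exact one_pos) ?_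
      rw [Matrix.mul_assoc, ← coe_kG N₀ q y, mul_inv_mul_coe, coe_kG, coe_kG]
      rw [Matrix.mul_assoc]
      exact hc
    obtain ⟨-, -, h10, -⟩ := (eq_mul_iff_entries _ _ _).mp h1
    rw [entry_mul] at h10
    simp only [Matrix.of_apply, Matrix.cons_val', Matrix.cons_val_zero, Matrix.cons_val_one,
      Matrix.cons_val_fin_one, zero_mul, one_mul, mul_zero, zero_add, add_zero] at h10
    have h2 : (kG N₀ q x * (kG N₀ q y)⁻¹ : SL(2, ℤ)) ∈ Gamma0 N₁ := by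
      rw [mem_Gamma0_iff]
      obtain ⟨z, hz⟩ := dvd_lower c
      obtain ⟨z', hz'⟩ := dvd_lower (kG N₀ q x * (kG N₀ q y)⁻¹)
      have h3 : ((kG N₀ q x * (kG N₀ q y)⁻¹ : SL(2, ℤ)) : Matrix (Fin 2) (Fin 2) ℤ) 1 0 =
        (c : SL(2, ℤ)) 1 0 * d := h10
      have h4 : ((kG N₀ q x * (kG N₀ q y)⁻¹ : SL(2, ℤ)) : Matrix (Fin 2) (Fin 2) ℤ) 1 0 =
        N₀ * z' := hz'
      have h5 : (q : ℤ) ∣ N₀ * z' := by
        rw [← h4, h3, hz, ← hM]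
        push_cast
        exact ⟨M₀ * z * d, by ring⟩
      have h6 : (q : ℤ) ∣ z' := by
        rcases (Nat.prime_iff_prime_int.mp hq).dvd_or_dvd h5 with h | h
        · exact absurd (Int.natCast_dvd_natCast.mp h) hqN
        · exact h
      obtain ⟨w, rfl⟩ := h6
      show (N₁ : ℤ) ∣ ((kG N₀ q x * (kG N₀ q y)⁻¹ : SL(2, ℤ)) : Matrix (Fin 2) (Fin 2) ℤ) 1 0
      rw [h4, ← hN]
      push_cast
      exact ⟨w, by ring⟩
    have h3 := kRep_inj' hq hqN hN x y ⟨_, h2⟩ (by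
      show kRep N₀ q x = (((kG N₀ q x * (kG N₀ q y)⁻¹ : Gamma0 N₀) : SL(2, ℤ)) :
        Matrix (Fin 2) (Fin 2) ℤ) * kRep N₀ q y
      rw [← coe_kG N₀ q y, mul_inv_mul_coe, coe_kG])
    rw [h3]
  · refine pInj_of_det (d : ℤ) hdp
      (fun x => by rw [Matrix.det_mul, det_kRep, det_diag, one_mul]) ?_
    rintro ⟨x, ⟨⟩⟩ ⟨y, ⟨⟩⟩ c hc
    rw [← Matrix.mul_assoc] at hc
    have h1 := mul_right_cancel_of_det (by rw [det_diag]; exact hdp) hc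
    rw [kRep_inj' hq hqM hM x y c h1]
  · rintro ⟨⟨⟩, l⟩
    obtain ⟨k, c, hc⟩ := exists_kRep' hq hqM hM (bHom hd h₀ (kG N₀ q l))
    refine ⟨(k, ()), c, 1, 1, one_pos, one_pos, ?_, ?_⟩
    · rw [one_smul, one_smul]
      show !![(d : ℤ), 0; 0, 1] * kRep N₀ q l = _ * (kRep M₀ q k * !![(d : ℤ), 0; 0, 1])
      rw [← Matrix.mul_assoc, ← hc, ← coe_kG N₀ q l, bHom_spec]
    · show (1 : R) * 1 = 1 * 1 * ((chr M₁ ε₁ c : Rˣ) : R)
      rw [eps_eq_one (Dvd.intro q hM) hε]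
      · ring
      · have h1 := congrFun (congrFun hc 0) 0
        rw [entry_mul, kRep_00, mul_one] at h1
        have h2 : ((bHom hd h₀ (kG N₀ q l) : SL(2, ℤ)) : Matrix (Fin 2) (Fin 2) ℤ) 0 0 = 1 := by
          show (bHom hd h₀ (kG N₀ q l) : SL(2, ℤ)) 0 0 = 1
          rw [bHom_00]
          exact kRep_00 _ _ _
        rw [h2] at h1
        have h3 := congrArg (Int.cast : ℤ → ZMod M₀) h1
        push_cast at h3
        rw [kRep_10, mul_zero, add_zero] at h3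
        exact h3.symm
  · rw [Fintype.card_prod, Fintype.card_prod, mul_comm]

/-- Degeneracy maps commute with the Atkin–Lehner operator at another prime. -/
theorem wg_dg_comm (hε : infl (Dvd.intro q hM) ε₀ = ε₁) (hχ : infl (Dvd.intro q hN) χ₀ = χ₁)
    (h₀ε : infl (dvd_of_mul h₀) ε₀ = χ₀) (h₁ε : infl (dvd_of_mul h₁) ε₁ = χ₁)
    (x : HM M₁ ε₁ A) :
    wg hq hqN hN A hχ (dg A hd h₁ h₁ε x) = dg A hd h₁ h₁ε (wg hq hqM hM A hε x) := by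
  have hw1 := (dg_isWeight hd h₁ h₁ε 1).comp
    (wC_isWeight hq hqN hN hχ (wt χ₀ (unitOf N₀ q)))
  have hw2 := (wC_isWeight hq hqM hM hε (wt ε₀ (unitOf M₀ q))).comp (dg_isWeight hd h₁ h₁ε 1)
  have e1 : wg hq hqN hN A hχ (dg A hd h₁ h₁ε x) =
      ((bCorr hd h₁).comp (wC hq hqN hN)).tr A hw1 x := (Corr.tr_comp _ _ _ _ x).symm
  have e2 : dg A hd h₁ h₁ε (wg hq hqM hM A hε x) =
      ((wC hq hqM hM).comp (bCorr hd h₁)).tr A hw2 x := (Corr.tr_comp _ _ _ _ x).symm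
  rw [e1, e2]
  obtain ⟨m, hm⟩ := h₀
  have hb := wbd hq hqM
  have hb' := wbd hq hqN
  refine tr_eq_of_card ((bCorr_isRep hd h₁).comp (wC_isRep hq hqN hN))
    ((wC_isRep hq hqM hM).comp (bCorr_isRep hd h₁)) (pInj_subsingleton _ _)
    (pInj_subsingleton _ _) hw1 hw2 ?_ rfl x
  rintro ⟨⟨⟩, ⟨⟩⟩
  refine ⟨((), ()), mkG M₁ (q * wd hq hqM - d * wb hq hqN * M₀) (d * wb hq hqN - wb hq hqM)
    (M₀ * q * (m * wd hq hqM - wd hq hqN)) (q * wd hq hqN - M₀ * m * wb hq hqM) ?_ ?_, 1, 1,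
    one_pos, one_pos, ?_, ?_⟩
  · have hm' : (N₀ : ℤ) = M₀ * d * m := by exact_mod_cast hm
    rw [hm'] at hb'
    generalize wb hq hqM = b at hb ⊢
    generalize wd hq hqM = e at hb ⊢
    generalize wb hq hqN = b' at hb' ⊢
    generalize wd hq hqN = e' at hb' ⊢
    linear_combination hb + (q * e - M₀ * b) * hb'
  · rw [← hM]
    push_cast
    exact dvd_mul_right _ _
  · rw [one_smul, one_smul, coe_mkG]
    show !![(d : ℤ), 0; 0, 1] * wMat hq hqN = _ * (wMat hq hqM * !![(d : ℤ), 0; 0, 1])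
    have hm' : (N₀ : ℤ) = M₀ * d * m := by exact_mod_cast hm
    rw [wMat, wMat]
    generalize wb hq hqM = b at hb ⊢
    generalize wd hq hqM = e at hb ⊢
    generalize wb hq hqN = b' at hb' ⊢
    generalize wd hq hqN = e' at hb' ⊢
    rw [hm']
    apply mat_ext <;> simp only [entry_mul, Matrix.of_apply,
      Matrix.cons_val', Matrix.cons_val_zero, Matrix.cons_val_one, Matrix.cons_val_fin_one]
    · linear_combination (-(q * d : ℤ)) * hb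
    · linear_combination (-(d * b' : ℤ)) * hb
    · linear_combination (-(M₀ * d * m * q : ℤ)) * hb
    · linear_combination (-(q * e' : ℤ)) * hb
  · show wt ε₀ (unitOf M₀ q) * 1 = 1 * wt χ₀ (unitOf N₀ q) * ((chr M₁ ε₁ _ : Rˣ) : R)
    rw [eps_eq_one (Dvd.intro q hM) hε, wt_unitOf (dvd_of_mul ⟨m, hm⟩) h₀ε hq hqN]
    · ring
    · show (((q : ℤ) * wd hq hqM - d * wb hq hqN * M₀ : ℤ) : ZMod M₀) = 1
      have h1 := congrArg (Int.cast : ℤ → ZMod M₀) hb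
      push_cast at h1 ⊢
      rw [ZMod.natCast_self] at h1 ⊢
      linear_combination h1

theorem tB_dg_comm (hε : infl (Dvd.intro q hM) ε₀ = ε₁) (hχ : infl (Dvd.intro q hN) χ₀ = χ₁)
    (h₀ε : infl (dvd_of_mul h₀) ε₀ = χ₀) (h₁ε : infl (dvd_of_mul h₁) ε₁ = χ₁)
    (x : HM M₁ ε₁ A) :
    tB hq hqN hN A hχ (dg A hd h₁ h₁ε x) = dg A hd h₀ h₀ε (tB hq hqM hM A hε x) := by
  rw [tB_apply, tB_apply, wg_dg_comm hq hqM hqN hM hN hd h₀ h₁ hε hχ h₀ε h₁ε,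
    tg_dg_comm hq hqM hqN hM hN hd h₀ h₁ hε hχ h₀ε h₁ε]

end DgTg

end Fermat.Agent.HSide
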