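import Fermat.Agent.HSide.Comm

/-!
# Commutation of traces and Atkin–Lehner operators at different primes
-/

set_option autoImplicit false

noncomputable section

open Matrix.SpecialLinearGroup CongruenceSubgroup
open scoped MatrixGroups

namespace Fermat.Agent.HSide

open TwHecke HeckePar

section AL

/-- Two matrices of Atkin–Lehner type at `Q` differ by an element of `Γ₀(M Q)`. -/
theorem exists_al {M Q N : ℕ} (hN : M * Q = N) {x y z w x' y' z' w' : ℤ}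
    (hdet : Q * x * w - M * y * z = 1) (hdet' : Q * x' * w' - M * y' * z' = 1) :
    ∃ c : Gamma0 N, !![(Q : ℤ) * x', y'; M * Q * z', Q * w'] =
      ((c : SL(2, ℤ)) : Matrix (Fin 2) (Fin 2) ℤ) * !![(Q : ℤ) * x, y; M * Q * z, Q * w] ∧
      (((c : SL(2, ℤ)) 0 0 : ℤ) : ZMod M) * (x : ZMod M) = (x' : ZMod M) := by
  refine ⟨mkG N (Q * x' * w - M * y' * z) (x * y' - x' * y) (M * Q * (z' * w - w' * z))
    (Q * w' * x - M * z' * y) ?_ ?_, ?_, ?_⟩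
  · linear_combination (Q * x' * w' - M * y' * z') * hdet + hdet'
  · rw [← hN]
    push_cast
    exact dvd_mul_right _ _
  · rw [coe_mkG]
    apply mat_ext <;> simp only [entry_mul, Matrix.of_apply,
      Matrix.cons_val', Matrix.cons_val_zero, Matrix.cons_val_one, Matrix.cons_val_fin_one]
    · linear_combination (-(Q * x' : ℤ)) * hdet
    · linear_combination (-y' : ℤ) * hdet
    · linear_combination (-(M * Q * z' : ℤ)) * hdet
    · linear_combination (-(Q * w' : ℤ)) * hdet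
  · show (((Q : ℤ) * x' * w - M * y' * z : ℤ) : ZMod M) * (x : ZMod M) = x'
    have h1 := congrArg (Int.cast : ℤ → ZMod M) hdet
    push_cast at h1 ⊢
    rw [ZMod.natCast_self] at h1 ⊢
    linear_combination (x' : ZMod M) * h1

end AL

section TgTg

variable {M₀₀ M₁₀ M₀₁ M₁₁ q v : ℕ} (hq : q.Prime) (hv : v.Prime)
  (hq0 : ¬ q ∣ M₀₀) (hv0 : ¬ v ∣ M₀₀) (hq1 : ¬ q ∣ M₀₁) (hv1 : ¬ v ∣ M₁₀)
  (h10 : M₀₀ * q = M₁₀) (h01 : M₀₀ * v = M₀₁) (h11 : M₀₁ * q = M₁₁) (h11' : M₁₀ * v = M₁₁)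
variable {R : Type*} [CommRing R] {ε₀₀ : (ZMod M₀₀)ˣ →* Rˣ} {ε₁₀ : (ZMod M₁₀)ˣ →* Rˣ}
  {ε₀₁ : (ZMod M₀₁)ˣ →* Rˣ} {ε₁₁ : (ZMod M₁₁)ˣ →* Rˣ}
  {A : Type*} [AddCommGroup A] [Module R A]
  (e10 : infl (Dvd.intro q h10) ε₀₀ = ε₁₀) (e01 : infl (Dvd.intro v h01) ε₀₀ = ε₀₁)
  (e11 : infl (Dvd.intro q h11) ε₀₁ = ε₁₁) (e11' : infl (Dvd.intro v h11') ε₁₀ = ε₁₁)

include h10 h11' e10 e11' in
theorem infl_trans : infl (dvd_trans (Dvd.intro q h10) (Dvd.intro v h11')) ε₀₀ = ε₁₁ := by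
  subst e10 e11'
  ext u
  show ((ε₀₀ (ZMod.unitsMap _ u) : Rˣ) : R) =
    ((ε₀₀ (ZMod.unitsMap _ (ZMod.unitsMap _ u)) : Rˣ) : R)
  congr 2
  exact (DFunLike.congr_fun (ZMod.unitsMap_comp (Dvd.intro q h10) (Dvd.intro v h11')) u).symm

include hq hv hq0 hv0 hq1 hv1 h10 h01 h11 h11' e10 e01 e11 e11' in
/-- Traces at different primes commute. -/
theorem tg_tg_comm (x : HM M₁₁ ε₁₁ A) :
    tg hv hv0 h01 A e01 (tg hq hq1 h11 A e11 x) = tg hq hq0 h10 A e10 (tg hv hv1 h11' A e11' x) := by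
  have : NeZero q := ⟨hq.ne_zero⟩
  have : NeZero v := ⟨hv.ne_zero⟩
  have hw1 := (trC_isWeight hq hq1 h11 e11).comp (trC_isWeight hv hv0 h01 e01)
  have hw2 := (trC_isWeight hv hv1 h11' e11').comp (trC_isWeight hq hq0 h10 e10)
  have E1 : tg hv hv0 h01 A e01 (tg hq hq1 h11 A e11 x) =
      ((trC hq hq1 h11).comp (trC hv hv0 h01)).tr A hw1 x := (Corr.tr_comp _ _ _ _ x).symm
  have E2 : tg hq hq0 h10 A e10 (tg hv hv1 h11' A e11' x) =
      ((trC hv hv1 h11').comp (trC hq hq0 h10)).tr A hw2 x := (Corr.tr_comp _ _ _ _ x).symm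
  rw [E1, E2]
  have key : ∀ {P Q' : ℕ} {a b : ℕ} (ha : a.Prime) (hb : b.Prime) (haP : ¬ a ∣ P)
      (hbM : ¬ b ∣ M₀₀) (hP : M₀₀ * b = P) (hQ : P * a = Q'),
      PInj (Gamma0 Q') (fun z : Option (ZMod a) × Option (ZMod b) =>
        kRep P a z.1 * kRep M₀₀ b z.2) := by
    intro P Q' a b ha hb haP hbM hP hQ
    refine pInj_of_det 1 one_pos (fun x => by rw [Matrix.det_mul, det_kRep, det_kRep, mul_one]) ?_
    rintro ⟨k, l⟩ ⟨k', l'⟩ c hc
    simp only at hc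
    -- first the outer representatives
    have h1 : kRep M₀₀ b l = ((((kG P a k)⁻¹ * Subgroup.inclusion (Gamma0_le (Dvd.intro a hQ)) c *
        kG P a k' : Gamma0 P) : SL(2, ℤ)) : Matrix (Fin 2) (Fin 2) ℤ) * kRep M₀₀ b l' := by
      have h2 := congrArg (fun z => ((((kG P a k)⁻¹ : Gamma0 P) : SL(2, ℤ)) :
        Matrix (Fin 2) (Fin 2) ℤ) * z) hc
      rw [← coe_kG P a k] at h2
      rw [coe_inv_mul_cancel] at h2
      rw [h2, coe_mul_mul, coe_mul_mul]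
      rfl
    have h3 : l = l' := kRep_inj' hb hbM hP l l' _ h1
    subst h3
    rw [← Matrix.mul_assoc] at hc
    have h4 := mul_right_cancel_of_det (by rw [det_kRep]; exact one_pos) hc
    rw [kRep_inj' ha haP hQ k k' c h4]
  refine tr_eq_of_card ((trC_isRep hq hq1 h11).comp (trC_isRep hv hv0 h01))
    ((trC_isRep hv hv1 h11').comp (trC_isRep hq hq0 h10))
    (key hq hv hq1 hv0 h01 h11) (key hv hq hv1 hq0 h10 h11') hw1 hw2 ?_ ?_ x
  · rintro ⟨k, l⟩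
    obtain ⟨k', c₁, hc₁⟩ := exists_kRep' hq hq0 h10
      (Subgroup.inclusion (Gamma0_le (Dvd.intro v h01)) (kG M₀₁ q k) * kG M₀₀ v l)
    obtain ⟨l', c₂, hc₂⟩ := exists_kRep' hv hv1 h11' c₁
    refine ⟨(l', k'), c₂, 1, 1, one_pos, one_pos, ?_, ?_⟩
    · rw [one_smul, one_smul]
      show kRep M₀₁ q k * kRep M₀₀ v l = _ * (kRep M₁₀ v l' * kRep M₀₀ q k')
      rw [← Matrix.mul_assoc, ← hc₂, ← hc₁]
      rfl
    · show (1 : R) * 1 = 1 * 1 * ((chr M₁₁ ε₁₁ c₂ : Rˣ) : R)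
      rw [eps_eq_one (dvd_trans (Dvd.intro q h10) (Dvd.intro v h11'))
        (infl_trans h10 h11' e10 e11')]
      · ring
      · have h1 := congrFun (congrFun hc₁ 0) 0
        rw [entry_mul, kRep_00, mul_one] at h1
        have h2 : (((Subgroup.inclusion (Gamma0_le (Dvd.intro v h01)) (kG M₀₁ q k) *
            kG M₀₀ v l : Gamma0 M₀₀) : SL(2, ℤ)) : Matrix (Fin 2) (Fin 2) ℤ) 0 0 =
            kRep M₀₁ q k 0 0 * kRep M₀₀ v l 0 0 + kRep M₀₁ q k 0 1 * kRep M₀₀ v l 1 0 :=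
          entry_mul _ _ _ _
        rw [h2, kRep_00, kRep_00] at h1
        have h3 := congrFun (congrFun hc₂ 0) 0
        rw [entry_mul, kRep_00, mul_one] at h3
        have h4 := congrArg (Int.cast : ℤ → ZMod M₀₀) h1
        have h5 := congrArg (Int.cast : ℤ → ZMod M₀₀) h3
        have h6 : ((kRep M₁₀ v l' 1 0 : ℤ) : ZMod M₀₀) = 0 := by
          rw [ZMod.intCast_zmod_eq_zero_iff_dvd]
          have : (M₁₀ : ℤ) ∣ kRep M₁₀ v l' 1 0 := by
            rw [← ZMod.intCast_zmod_eq_zero_iff_dvd]; exact kRep_10 _ _ _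
          exact (Int.natCast_dvd_natCast.mpr (Dvd.intro q h10)).trans this
        push_cast at h4 h5
        rw [kRep_10, kRep_10, mul_zero, mul_zero, add_zero, add_zero] at h4
        rw [h6, mul_zero, add_zero] at h5
        exact h5.symm.trans h4.symm
  · rw [Fintype.card_prod, Fintype.card_prod, mul_comm]

include hq hv hq0 hq1 hv1 h10 h01 h11 h11' e10 e01 e11 e11' in
/-- The trace at `v` commutes with the Atkin–Lehner operator at `q`. -/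
theorem tg_wg_comm (x : HM M₁₁ ε₁₁ A) :
    tg hv hv1 h11' A e11' (wg hq hq1 h11 A e11 x) =
      wg hq hq0 h10 A e10 (tg hv hv1 h11' A e11' x) := by
  have : NeZero v := ⟨hv.ne_zero⟩
  have hM11 : ¬ q ∣ M₀₁ := hq1
  have hw1 := (wC_isWeight hq hq1 h11 e11 (wt ε₀₁ (unitOf M₀₁ q))).comp
    (trC_isWeight hv hv1 h11' e11')
  have hw2 := (trC_isWeight hv hv1 h11' e11').comp
    (wC_isWeight hq hq0 h10 e10 (wt ε₀₀ (unitOf M₀₀ q)))
  have E1 : tg hv hv1 h11' A e11' (wg hq hq1 h11 A e11 x) =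
      ((wC hq hq1 h11).comp (trC hv hv1 h11')).tr A hw1 x := (Corr.tr_comp _ _ _ _ x).symm
  have E2 : wg hq hq0 h10 A e10 (tg hv hv1 h11' A e11' x) =
      ((trC hv hv1 h11').comp (wC hq hq0 h10)).tr A hw2 x := (Corr.tr_comp _ _ _ _ x).symm
  rw [E1, E2]
  have hb0 := wbd hq hq0
  have hb1 := wbd hq hq1
  have h01z : (M₀₁ : ℤ) = M₀₀ * v := by rw [← h01]; push_cast; ring
  have h10z : (M₁₀ : ℤ) = M₀₀ * q := by rw [← h10]; push_cast; ring
  have h11z : (M₁₁ : ℤ) = M₀₀ * v * q := by rw [← h11, ← h01]; push_cast; ring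
  have hqz : (q : ℤ) ≠ 0 := by exact_mod_cast hq.ne_zero
  refine tr_eq_of_card ((wC_isRep hq hq1 h11).comp (trC_isRep hv hv1 h11'))
    ((trC_isRep hv hv1 h11').comp (wC_isRep hq hq0 h10)) ?_ ?_ hw1 hw2 ?_ ?_ x
  · refine pInj_of_det (q : ℤ) (by exact_mod_cast hq.pos)
      (fun x => by rw [Matrix.det_mul, det_kRep, det_wMat, mul_one]) ?_
    rintro ⟨⟨⟩, l⟩ ⟨⟨⟩, l'⟩ c hc
    have h1 : wMat hq hq1 *
        (((kG M₁₀ v l * (kG M₁₀ v l')⁻¹ : Gamma0 M₁₀) : SL(2, ℤ)) : Matrix (Fin 2) (Fin 2) ℤ) =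
          ((c : SL(2, ℤ)) : Matrix (Fin 2) (Fin 2) ℤ) * wMat hq hq1 := by
      refine mul_right_cancel_of_det (C := kRep M₁₀ v l') (by rw [det_kRep]; exact one_pos) ?_
      rw [Matrix.mul_assoc, ← coe_kG M₁₀ v l', mul_inv_mul_coe, coe_kG, coe_kG]
      rw [Matrix.mul_assoc]
      exact hc
    have h2 : ((kG M₁₀ v l * (kG M₁₀ v l')⁻¹ : Gamma0 M₁₀) : SL(2, ℤ)) ∈ Gamma0 M₁₁ := by
      rw [mem_Gamma0_iff]
      obtain ⟨z, hz⟩ := dvd_lower c
      rw [wMat] at h1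
      obtain ⟨h00, -, h10', -⟩ := (eq_mul_iff_entries _ _ _).mp h1
      rw [entry_mul] at h00 h10'
      simp only [Matrix.of_apply, Matrix.cons_val', Matrix.cons_val_zero, Matrix.cons_val_one,
        Matrix.cons_val_fin_one] at h00 h10'
      generalize hg : ((kG M₁₀ v l * (kG M₁₀ v l')⁻¹ : Gamma0 M₁₀) : SL(2, ℤ)) = g at *
      refine ⟨-((c : SL(2, ℤ)) : Matrix (Fin 2) (Fin 2) ℤ) 0 0 -
        ((c : SL(2, ℤ)) : Matrix (Fin 2) (Fin 2) ℤ) 0 1 * M₀₁ + z * q +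
        ((c : SL(2, ℤ)) : Matrix (Fin 2) (Fin 2) ℤ) 1 1, ?_⟩
      have hz' : ((c : SL(2, ℤ)) : Matrix (Fin 2) (Fin 2) ℤ) 1 0 = M₁₁ * z := hz
      rw [hz', h11z] at h10'
      rw [h11z]
      rw [h01z] at h00 h10' hb1 ⊢
      linear_combination (-(M₀₀ * v : ℤ)) * h00 + h10' -
        ((g : Matrix (Fin 2) (Fin 2) ℤ) 1 0) * hb1
    have h3 := kRep_inj' hv hv1 h11' l l' ⟨_, h2⟩ (by
      show kRep M₁₀ v l = (((kG M₁₀ v l * (kG M₁₀ v l')⁻¹ : Gamma0 M₁₀) : SL(2, ℤ)) :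
        Matrix (Fin 2) (Fin 2) ℤ) * kRep M₁₀ v l'
      rw [← coe_kG M₁₀ v l', mul_inv_mul_coe, coe_kG])
    rw [h3]
  · refine pInj_of_det (q : ℤ) (by exact_mod_cast hq.pos)
      (fun x => by rw [Matrix.det_mul, det_kRep, det_wMat, one_mul]) ?_
    rintro ⟨l, ⟨⟩⟩ ⟨l', ⟨⟩⟩ c hc
    rw [← Matrix.mul_assoc] at hc
    have h1 := mul_right_cancel_of_det (det_wMat_pos hq hq0) hc
    rw [kRep_inj' hv hv1 h11' l l' c h1]
  · rintro ⟨⟨⟩, l⟩
    -- `W kRep l` is of Atkin–Lehner type of level `M₁₀`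
    obtain ⟨t, ht⟩ : (M₁₀ : ℤ) ∣ kRep M₁₀ v l 1 0 := by
      rw [← ZMod.intCast_zmod_eq_zero_iff_dvd]; exact kRep_10 _ _ _
    have hk := det_kRep M₁₀ v l
    rw [Matrix.det_fin_two, kRep_00, ht] at hk
    have hdet' : (q : ℤ) * (1 + wb hq hq1 * M₀₀ * t) *
        (M₀₀ * v * kRep M₁₀ v l 0 1 + wd hq hq1 * kRep M₁₀ v l 1 1) -
        M₀₀ * (q * kRep M₁₀ v l 0 1 + wb hq hq1 * kRep M₁₀ v l 1 1) *
          (v + wd hq hq1 * q * t) = 1 := by
      rw [h10z] at hk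
      rw [h01z] at hb1
      linear_combination hk + (kRep M₁₀ v l 1 1 - M₀₀ * q * t * kRep M₁₀ v l 0 1) * hb1
    obtain ⟨g, hg, hg00⟩ := exists_al (M := M₀₀) (Q := q) h10 (x := 1)
      (y := wb hq hq0) (z := 1) (w := wd hq hq0)
      (x' := 1 + wb hq hq1 * M₀₀ * t) (y' := q * kRep M₁₀ v l 0 1 + wb hq hq1 * kRep M₁₀ v l 1 1)
      (z' := v + wd hq hq1 * q * t)
      (w' := M₀₀ * v * kRep M₁₀ v l 0 1 + wd hq hq1 * kRep M₁₀ v l 1 1)
      (by linear_combination hb0) hdet'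
    obtain ⟨l', c, hc⟩ := exists_kRep' hv hv1 h11' g
    refine ⟨(l', ()), c, 1, 1, one_pos, one_pos, ?_, ?_⟩
    · rw [one_smul, one_smul]
      show wMat hq hq1 * kRep M₁₀ v l = _ * (kRep M₁₀ v l' * wMat hq hq0)
      rw [← Matrix.mul_assoc, ← hc]
      have hW0 : wMat hq hq0 = !![(q : ℤ) * 1, wb hq hq0; M₀₀ * q * 1, q * wd hq hq0] := by
        rw [wMat, mul_one, mul_one]
      rw [hW0, ← hg, wMat]
      apply mat_ext <;> simp only [entry_mul, Matrix.of_apply,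
        Matrix.cons_val', Matrix.cons_val_zero, Matrix.cons_val_one, Matrix.cons_val_fin_one]
      · rw [kRep_00, ht, h10z]; ring
      · rw [h01z, kRep_00, ht, h10z]; ring
      · rw [h01z]; ring
    · show 1 * wt ε₀₀ (unitOf M₀₀ q) = wt ε₀₁ (unitOf M₀₁ q) * 1 * ((chr M₁₁ ε₁₁ c : Rˣ) : R)
      rw [eps_eq_one (dvd_trans (Dvd.intro q h10) (Dvd.intro v h11'))
        (infl_trans h10 h11' e10 e11'), wt_unitOf (Dvd.intro v h01) e01 hq hq1]
      · ring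
      · have h3 := congrFun (congrFun hc 0) 0
        rw [entry_mul, kRep_00, mul_one] at h3
        have h5 := congrArg (Int.cast : ℤ → ZMod M₀₀) h3
        have h6 : ((kRep M₁₀ v l' 1 0 : ℤ) : ZMod M₀₀) = 0 := by
          rw [ZMod.intCast_zmod_eq_zero_iff_dvd]
          have : (M₁₀ : ℤ) ∣ kRep M₁₀ v l' 1 0 := by
            rw [← ZMod.intCast_zmod_eq_zero_iff_dvd]; exact kRep_10 _ _ _
          exact (Int.natCast_dvd_natCast.mpr (Dvd.intro q h10)).trans this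
        push_cast at h5 hg00
        rw [h6, mul_zero, add_zero] at h5
        rw [mul_one, ZMod.natCast_self, mul_zero, zero_mul, add_zero] at hg00
        exact h5.symm.trans hg00
  · rw [Fintype.card_prod, Fintype.card_prod, mul_comm]

include hq hv hq1 hv1 h10 h01 h11 h11' e10 e11 e11' in
/-- Atkin–Lehner operators at different primes commute. -/
theorem wg_wg_comm (x : HM M₁₁ ε₁₁ A) :
    wg hv hv1 h11' A e11' (wg hq hq1 h11 A e11 x) =
      wg hq hq1 h11 A e11 (wg hv hv1 h11' A e11' x) := by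
  have hw1 := (wC_isWeight hq hq1 h11 e11 (wt ε₀₁ (unitOf M₀₁ q))).comp
    (wC_isWeight hv hv1 h11' e11' (wt ε₁₀ (unitOf M₁₀ v)))
  have hw2 := (wC_isWeight hv hv1 h11' e11' (wt ε₁₀ (unitOf M₁₀ v))).comp
    (wC_isWeight hq hq1 h11 e11 (wt ε₀₁ (unitOf M₀₁ q)))
  have E1 : wg hv hv1 h11' A e11' (wg hq hq1 h11 A e11 x) =
      ((wC hq hq1 h11).comp (wC hv hv1 h11')).tr A hw1 x := (Corr.tr_comp _ _ _ _ x).symm
  have E2 : wg hq hq1 h11 A e11 (wg hv hv1 h11' A e11' x) =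
      ((wC hv hv1 h11').comp (wC hq hq1 h11)).tr A hw2 x := (Corr.tr_comp _ _ _ _ x).symm
  rw [E1, E2]
  have hb0 := wbd hq hq1
  have hb1 := wbd hv hv1
  have h01z : (M₀₁ : ℤ) = M₀₀ * v := by rw [← h01]; push_cast; ring
  have h10z : (M₁₀ : ℤ) = M₀₀ * q := by rw [← h10]; push_cast; ring
  have h11n : M₀₀ * (q * v) = M₁₁ := by rw [← h11', ← h10]; ring
  rw [h01z] at hb0
  rw [h10z] at hb1
  refine tr_eq_of_card ((wC_isRep hq hq1 h11).comp (wC_isRep hv hv1 h11'))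
    ((wC_isRep hv hv1 h11').comp (wC_isRep hq hq1 h11)) (pInj_subsingleton _ _)
    (pInj_subsingleton _ _) hw1 hw2 ?_ rfl x
  rintro ⟨⟨⟩, ⟨⟩⟩
  have hdet : ((q * v : ℕ) : ℤ) * (1 + wb hq hq1 * M₀₀) *
      (wd hq hq1 * wd hv hv1 + M₀₀ * wb hv hv1) -
      M₀₀ * (q * wb hv hv1 + wb hq hq1 * v * wd hv hv1) * (v + wd hq hq1 * q) = 1 := by
    push_cast
    linear_combination hb1 + (v * wd hv hv1 - M₀₀ * q * wb hv hv1 : ℤ) * hb0
  have hdet' : ((q * v : ℕ) : ℤ) * (1 + wb hv hv1 * M₀₀) *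
      (wd hv hv1 * wd hq hq1 + M₀₀ * wb hq hq1) -
      M₀₀ * (v * wb hq hq1 + wb hv hv1 * q * wd hq hq1) * (q + wd hv hv1 * v) = 1 := by
    push_cast
    linear_combination hb1 + (v * wd hv hv1 - M₀₀ * q * wb hv hv1 : ℤ) * hb0
  obtain ⟨c, hc, hc00⟩ := exists_al (M := M₀₀) (Q := q * v) h11n hdet' hdet
  refine ⟨((), ()), c, 1, 1, one_pos, one_pos, ?_, ?_⟩
  · rw [one_smul, one_smul]
    show wMat hq hq1 * wMat hv hv1 = _ * (wMat hv hv1 * wMat hq hq1)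
    have H1 : wMat hq hq1 * wMat hv hv1 =
        !![((q * v : ℕ) : ℤ) * (1 + wb hq hq1 * M₀₀), q * wb hv hv1 + wb hq hq1 * v * wd hv hv1;
          M₀₀ * ((q * v : ℕ) : ℤ) * (v + wd hq hq1 * q),
          ((q * v : ℕ) : ℤ) * (wd hq hq1 * wd hv hv1 + M₀₀ * wb hv hv1)] := by
      rw [wMat, wMat, h01z, h10z]
      apply mat_ext <;> simp only [entry_mul, Matrix.of_apply,
        Matrix.cons_val', Matrix.cons_val_zero, Matrix.cons_val_one, Matrix.cons_val_fin_one]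
      all_goals push_cast; ring
    have H2 : wMat hv hv1 * wMat hq hq1 =
        !![((q * v : ℕ) : ℤ) * (1 + wb hv hv1 * M₀₀), v * wb hq hq1 + wb hv hv1 * q * wd hq hq1;
          M₀₀ * ((q * v : ℕ) : ℤ) * (q + wd hv hv1 * v),
          ((q * v : ℕ) : ℤ) * (wd hv hv1 * wd hq hq1 + M₀₀ * wb hq hq1)] := by
      rw [wMat, wMat, h01z, h10z]
      apply mat_ext <;> simp only [entry_mul, Matrix.of_apply,
        Matrix.cons_val', Matrix.cons_val_zero, Matrix.cons_val_one, Matrix.cons_val_fin_one]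
      all_goals push_cast; ring
    rw [H1, H2]
    exact hc
  · show wt ε₁₀ (unitOf M₁₀ v) * wt ε₀₁ (unitOf M₀₁ q) =
      wt ε₀₁ (unitOf M₀₁ q) * wt ε₁₀ (unitOf M₁₀ v) * ((chr M₁₁ ε₁₁ c : Rˣ) : R)
    rw [eps_eq_one (dvd_trans (Dvd.intro q h10) (Dvd.intro v h11'))
        (infl_trans h10 h11' e10 e11')]
    · ring
    · push_cast at hc00
      rw [ZMod.natCast_self, mul_zero, mul_zero, add_zero, mul_one] at hc00
      exact hc00

include hq hv hq0 hv0 hq1 hv1 h10 h01 h11 h11' e10 e01 e11 e11' in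
theorem tg_tB_comm (x : HM M₁₁ ε₁₁ A) :
    tg hv hv0 h01 A e01 (tB hq hq1 h11 A e11 x) = tB hq hq0 h10 A e10 (tg hv hv1 h11' A e11' x) := by
  rw [tB_apply, tg_tg_comm hq hv hq0 hv0 hq1 hv1 h10 h01 h11 h11' e10 e01 e11 e11',
    tg_wg_comm hq hv hq0 hq1 hv1 h10 h01 h11 h11' e10 e01 e11 e11', tB_apply]

include hq hv hq0 hv0 hq1 hv1 h10 h01 h11 h11' e10 e01 e11 e11' in
theorem tB_tB_comm (x : HM M₁₁ ε₁₁ A) :
    tB hv hv0 h01 A e01 (tB hq hq1 h11 A e11 x) = tB hq hq0 h10 A e10 (tB hv hv1 h11' A e11' x) := by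
  rw [tB_apply, tB_apply, ← tg_wg_comm hv hq hv0 hv1 hq1 h01 h10 h11' h11 e01 e10 e11' e11,
    tg_tg_comm hq hv hq0 hv0 hq1 hv1 h10 h01 h11 h11' e10 e01 e11 e11',
    wg_wg_comm hq hv hq1 hv1 h10 h01 h11 h11' e10 e11 e11',
    tg_wg_comm hq hv hq0 hq1 hv1 h10 h01 h11 h11' e10 e01 e11 e11', tB_apply, tB_apply]

end TgTg

end Fermat.Agent.HSide
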