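import Fermat.Agent.TwHecke.Semi
import Fermat.Agent.TwHecke.Par

/-!
# Degeneracy maps and traces with flexible levels and characters
-/

set_option autoImplicit false

noncomputable section

open Matrix.SpecialLinearGroup CongruenceSubgroup
open scoped MatrixGroups

namespace Fermat.Agent.HSide

open TwHecke HeckePar

/-! ### Degeneracy maps -/

section Dg

variable {M M' d : ℕ} {R : Type*} [CommRing R] {ε : (ZMod M)ˣ →* Rˣ} {ε' : (ZMod M')ˣ →* Rˣ}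

theorem dg_isWeight (hd : d ≠ 0) (h : M * d ∣ M') (hε : infl (dvd_of_mul h) ε = ε') (r : R) :
    (bCorr hd h).IsWeight (chr M ε) (chr M' ε') (fun _ => r) := by
  subst hε
  exact b_isWeight hd h ε r

variable (A : Type*) [AddCommGroup A] [Module R A] {B : Type*} [AddCommGroup B] [Module R B]

/-- The degeneracy map `f ↦ f(d z)`. -/
def dg (hd : d ≠ 0) (h : M * d ∣ M') (hε : infl (dvd_of_mul h) ε = ε') :
    HM M ε A →ₗ[R] HM M' ε' A := (bCorr hd h).tr A (dg_isWeight hd h hε 1)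

/-- The degeneracy map on cocycles. -/
def dgZ (hd : d ≠ 0) (h : M * d ∣ M') (hε : infl (dvd_of_mul h) ε = ε') :
    ZM M ε A →ₗ[R] ZM M' ε' A := (bCorr hd h).Ztr A (dg_isWeight hd h hε 1)

variable {A}

theorem dg_mk (hd : d ≠ 0) (h : M * d ∣ M') (hε : infl (dvd_of_mul h) ε = ε') (c : ZM M ε A) :
    dg A hd h hε (H1.mk c) = H1.mk (dgZ A hd h hε c) := rfl

@[simp] theorem dgZ_apply (hd : d ≠ 0) (h : M * d ∣ M') (hε : infl (dvd_of_mul h) ε = ε')
    (c : ZM M ε A) (g : Gamma0 M') : dgZ A hd h hε c g = c (bHom hd h g) := by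
  simp [dgZ, bCorr, Corr.ofHom]

theorem dg_rfl (hd : d ≠ 0) (h : M * d ∣ M') : dg A hd h (rfl : infl (dvd_of_mul h) ε = _) =
    degB hd h ε A := rfl

theorem gamma_ext {N : ℕ} {g g' : Gamma0 N}
    (h : ∀ i j, (g : SL(2, ℤ)) i j = (g' : SL(2, ℤ)) i j) : g = g' := by
  apply Subtype.ext
  ext i j
  exact h i j

theorem bHom_one (hd : d = 1) (hd0 : d ≠ 0) (h : M * d ∣ M') (g : Gamma0 M') :
    bHom hd0 h g = Subgroup.inclusion (Gamma0_le (dvd_of_mul h)) g := by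
  subst hd
  apply gamma_ext
  intro i j
  have h00 := bHom_00 hd0 h g
  have h01 := bHom_01 hd0 h g
  have h10 := bHom_10 hd0 h g
  have h11 := bHom_11 hd0 h g
  rw [Nat.cast_one, one_mul] at h01
  rw [Nat.cast_one, mul_one] at h10
  fin_cases i <;> fin_cases j
  · exact h00
  · exact h01
  · exact h10
  · exact h11

theorem dg_one (hd : d = 1) (hd0 : d ≠ 0) (h : M * d ∣ M') (x : HM M ε A) :
    dg A hd0 h (rfl : infl (dvd_of_mul h) ε = _) x = res (dvd_of_mul h) ε A x := by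
  induction x using H1.ind with
  | h c =>
    rw [dg_mk, res_mk]
    congr 1
    ext g
    rw [dgZ_apply, resZ_apply, bHom_one hd hd0 h g]

theorem bHom_bHom {M'' e f : ℕ} (hd : d ≠ 0) (he : e ≠ 0) (hf : f ≠ 0) (hdef : f = d * e)
    (h : M * d ∣ M') (h' : M' * e ∣ M'') (h'' : M * f ∣ M'') (g : Gamma0 M'') :
    bHom hd h (bHom he h' g) = bHom hf h'' g := by
  subst hdef
  have he' : (e : ℤ) ≠ 0 := by exact_mod_cast he
  have hd' : (d : ℤ) ≠ 0 := by exact_mod_cast hd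
  apply gamma_ext
  intro i j
  fin_cases i <;> fin_cases j
  · show (bHom hd h (bHom he h' g) : SL(2, ℤ)) 0 0 = (bHom hf h'' g : SL(2, ℤ)) 0 0
    rw [bHom_00, bHom_00, bHom_00]
  · show (bHom hd h (bHom he h' g) : SL(2, ℤ)) 0 1 = (bHom hf h'' g : SL(2, ℤ)) 0 1
    rw [bHom_01, bHom_01, bHom_01]
    push_cast
    ring
  · show (bHom hd h (bHom he h' g) : SL(2, ℤ)) 1 0 = (bHom hf h'' g : SL(2, ℤ)) 1 0
    have h1 := bHom_10 hd h (bHom he h' g)
    have h2 := bHom_10 he h' g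
    have h3 := bHom_10 hf h'' g
    push_cast at h3
    apply mul_right_cancel₀ (mul_ne_zero hd' he')
    rw [h3, ← mul_assoc, h1, h2]
  · show (bHom hd h (bHom he h' g) : SL(2, ℤ)) 1 1 = (bHom hf h'' g : SL(2, ℤ)) 1 1
    rw [bHom_11, bHom_11, bHom_11]

/-- composition of degeneracy maps -/
theorem dg_dg {M'' e f : ℕ} {ε'' : (ZMod M'')ˣ →* Rˣ} (hd : d ≠ 0) (he : e ≠ 0) (hf : f ≠ 0)
    (hdef : f = d * e) (h : M * d ∣ M') (h' : M' * e ∣ M'') (h'' : M * f ∣ M'')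
    (hε : infl (dvd_of_mul h) ε = ε') (hε' : infl (dvd_of_mul h') ε' = ε'')
    (hε'' : infl (dvd_of_mul h'') ε = ε'') (x : HM M ε A) :
    dg A he h' hε' (dg A hd h hε x) = dg A hf h'' hε'' x := by
  induction x using H1.ind with
  | h c =>
    rw [dg_mk, dg_mk, dg_mk]
    congr 1
    ext g
    rw [dgZ_apply, dgZ_apply, dgZ_apply, bHom_bHom hd he hf hdef h h' h'' g]

theorem dg_map (hd : d ≠ 0) (h : M * d ∣ M') (hε : infl (dvd_of_mul h) ε = ε') (f : A →ₗ[R] B)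
    (x : HM M ε A) : dg B hd h hε (H1.map _ f x) = H1.map _ f (dg A hd h hε x) :=
  Corr.tr_map _ _ _ _

theorem dg_heckeH {p : ℕ} [hp : Fact p.Prime] (hd : d ≠ 0) (h : M * d ∣ M')
    (hε : infl (dvd_of_mul h) ε = ε') (hpd : ¬ p ∣ d) (hpM : p ∣ M' ↔ p ∣ M) (x : HM M ε A) :
    dg A hd h hε (heckeH M p ε A x) = heckeH M' p ε' A (dg A hd h hε x) := by
  subst hε
  exact degB_heckeH ε hd h hpd hpM x

end Dg

/-! ### Traces -/

section Tg

variable {M M' q : ℕ} (hq : q.Prime) (hqM : ¬ q ∣ M) (h : M * q = M')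

include hq hqM h in
theorem exists_kRep' (g : Gamma0 M) : ∃ (y : Option (ZMod q)) (c : Gamma0 M'),
    ((g : SL(2, ℤ)) : Matrix (Fin 2) (Fin 2) ℤ) =
      ((c : SL(2, ℤ)) : Matrix (Fin 2) (Fin 2) ℤ) * kRep M q y := by
  subst h
  exact exists_kRep hq hqM g

include hq hqM h in
theorem kRep_inj' (x y : Option (ZMod q)) (c : Gamma0 M')
    (hc : kRep M q x = ((c : SL(2, ℤ)) : Matrix (Fin 2) (Fin 2) ℤ) * kRep M q y) : x = y := by
  subst h
  exact kRep_inj hq hqM x y c hc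

/-- The trace correspondence from `Γ₀(M')` to `Γ₀(M)`, `M' = M q`. -/
def trC : Corr (Gamma0 M') (Gamma0 M) (Option (ZMod q)) :=
  Corr.ofRep (kRep M q) (fun x => by rw [det_kRep]; exact one_pos)
    (fun g x => exists_kRep' hq hqM h (kG M q x * g)) (kRep_inj' hq hqM h)

theorem trC_isRep : IsRep (trC hq hqM h) (kRep M q) := Corr.ofRep_isRep _ _ _ _

include hq hqM h in
theorem kRep_pInj' : PInj (Gamma0 M') (kRep M q) :=
  pInj_of_det 1 one_pos (det_kRep M q) (kRep_inj' hq hqM h)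

/-- `g ↦ W g W⁻¹` -/
def wH : Gamma0 M' →* Gamma0 M' :=
  conjHom (wMat hq hqM) (det_wMat_pos hq hqM) (by subst h; exact wHom_ex hq hqM)

theorem wH_spec (g : Gamma0 M') :
    wMat hq hqM * ((g : SL(2, ℤ)) : Matrix (Fin 2) (Fin 2) ℤ) =
        ((wH hq hqM h g : SL(2, ℤ)) : Matrix (Fin 2) (Fin 2) ℤ) * wMat hq hqM :=
  conjHom_spec _ _ _ g

/-- the Atkin–Lehner correspondence -/
def wC : Corr (Gamma0 M') (Gamma0 M') Unit := Corr.ofHom (wH hq hqM h)

theorem wC_isRep : IsRep (wC hq hqM h) (fun _ => wMat hq hqM) :=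
  isRep_ofHom _ _ (det_wMat_pos hq hqM) (wH_spec hq hqM h)

variable {R : Type*} [CommRing R] {ε : (ZMod M)ˣ →* Rˣ} {ε' : (ZMod M')ˣ →* Rˣ}

theorem trC_isWeight (hε : infl (Dvd.intro q h) ε = ε') :
    (trC hq hqM h).IsWeight (chr M' ε') (chr M ε) (fun _ => 1) := by
  subst h hε
  exact tr_isWeight hq hqM ε

theorem wC_isWeight (hε : infl (Dvd.intro q h) ε = ε') (r : R) :
    (wC hq hqM h).IsWeight (chr M' ε') (chr M' ε') (fun _ => r) := by
  subst h hε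
  exact w_isWeight hq hqM ε r

variable (A : Type*) [AddCommGroup A] [Module R A] {B : Type*} [AddCommGroup B] [Module R B]

/-- The trace `H¹(Γ₀(M'), A(ε')) → H¹(Γ₀(M), A(ε))`, `M' = M q`. -/
def tg (hε : infl (Dvd.intro q h) ε = ε') : HM M' ε' A →ₗ[R] HM M ε A :=
  haveI : NeZero q := ⟨hq.ne_zero⟩
  (trC hq hqM h).tr A (trC_isWeight hq hqM h hε)

/-- The Atkin–Lehner operator of level `M' = M q`, `ε` a character modulo `M`. -/
def wg (hε : infl (Dvd.intro q h) ε = ε') : Module.End R (HM M' ε' A) :=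
  (wC hq hqM h).tr A (wC_isWeight hq hqM h hε (wt ε (unitOf M q)))

/-- The second trace. -/
def tB (hε : infl (Dvd.intro q h) ε = ε') : HM M' ε' A →ₗ[R] HM M ε A :=
  tg hq hqM h A hε ∘ₗ wg hq hqM h A hε

variable {A}

theorem tB_apply (hε : infl (Dvd.intro q h) ε = ε') (x : HM M' ε' A) :
    tB hq hqM h A hε x = tg hq hqM h A hε (wg hq hqM h A hε x) := rfl

theorem tg_rfl [NeZero q] : tg hq hqM rfl A (rfl : infl (Dvd.intro q rfl) ε = _) =
    trd hq hqM ε A := rfl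

theorem wg_rfl : wg hq hqM rfl A (rfl : infl (Dvd.intro q rfl) ε = _) = wq hq hqM ε A := rfl

theorem tg_map (hε : infl (Dvd.intro q h) ε = ε') (f : A →ₗ[R] B) (x : HM M' ε' A) :
    tg hq hqM h B hε (H1.map _ f x) = H1.map _ f (tg hq hqM h A hε x) :=
  have : NeZero q := ⟨hq.ne_zero⟩
  Corr.tr_map _ _ _ _

theorem wg_map (hε : infl (Dvd.intro q h) ε = ε') (f : A →ₗ[R] B) (x : HM M' ε' A) :
    wg hq hqM h B hε (H1.map _ f x) = H1.map _ f (wg hq hqM h A hε x) :=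
  Corr.tr_map _ _ _ _

theorem tB_map (hε : infl (Dvd.intro q h) ε = ε') (f : A →ₗ[R] B) (x : HM M' ε' A) :
    tB hq hqM h B hε (H1.map _ f x) = H1.map _ f (tB hq hqM h A hε x) := by
  rw [tB_apply, tB_apply, wg_map, tg_map]

section Hecke

variable {p : ℕ} [hp : Fact p.Prime]

theorem tg_heckeH (hε : infl (Dvd.intro q h) ε = ε') (hpq : p ≠ q) (x : HM M' ε' A) :
    tg hq hqM h A hε (heckeH M' p ε' A x) = heckeH M p ε A (tg hq hqM h A hε x) := by
  subst h hε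
  have : NeZero q := ⟨hq.ne_zero⟩
  exact trd_heckeH ε hq hqM hpq x

theorem wg_heckeH (hε : infl (Dvd.intro q h) ε = ε') (hpq : p ≠ q) (x : HM M' ε' A) :
    wg hq hqM h A hε (heckeH M' p ε' A x) = heckeH M' p ε' A (wg hq hqM h A hε x) := by
  subst h hε
  exact wq_heckeH ε hq hqM hpq x

theorem tB_heckeH (hε : infl (Dvd.intro q h) ε = ε') (hpq : p ≠ q) (x : HM M' ε' A) :
    tB hq hqM h A hε (heckeH M' p ε' A x) = heckeH M p ε A (tB hq hqM h A hε x) := by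
  rw [tB_apply, tB_apply, wg_heckeH _ _ _ _ hpq, tg_heckeH _ _ _ _ hpq]

end Hecke

/-! ### Relations -/

/-- `tr ∘ res = q + 1` -/
theorem tg_one {d : ℕ} (hd : d = 1) (hd0 : d ≠ 0) (hdM : M * d ∣ M')
    (hε : infl (Dvd.intro q h) ε = ε') (x : HM M ε A) :
    tg hq hqM h A hε (dg A hd0 hdM hε x) = ((q : R) + 1) • x := by
  subst h hε
  have : NeZero q := ⟨hq.ne_zero⟩
  rw [show dg A hd0 hdM _ x = res (dvd_mul_right M q) ε A x from dg_one hd hd0 hdM x]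
  exact trd_res ε hq hqM x

/-- `tr ∘ B = ε(q) T_q` -/
theorem tg_dg [Fact q.Prime] (hdM : M * q ∣ M') (hε : infl (Dvd.intro q h) ε = ε')
    (x : HM M ε A) : tg hq hqM h A hε (dg A hq.ne_zero hdM hε x) =
      (ε (unitOf M q) : R) • heckeH M q ε A x := by
  subst h hε
  have : NeZero q := ⟨hq.ne_zero⟩
  exact trd_degB ε hq hqM x

/-- `tr_B ∘ res = T_q` -/
theorem tB_one [Fact q.Prime] {d : ℕ} (hd : d = 1) (hd0 : d ≠ 0) (hdM : M * d ∣ M')
    (hε : infl (Dvd.intro q h) ε = ε') (x : HM M ε A) :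
    tB hq hqM h A hε (dg A hd0 hdM hε x) = heckeH M q ε A x := by
  subst h hε
  have : NeZero q := ⟨hq.ne_zero⟩
  rw [show dg A hd0 hdM _ x = res (dvd_mul_right M q) ε A x from dg_one hd hd0 hdM x]
  exact trB_res ε hq hqM x

/-- `tr_B ∘ B = q + 1` -/
theorem tB_dg (hdM : M * q ∣ M') (hε : infl (Dvd.intro q h) ε = ε')
    (x : HM M ε A) : tB hq hqM h A hε (dg A hq.ne_zero hdM hε x) = ((q : R) + 1) • x := by
  subst h hε
  have : NeZero q := ⟨hq.ne_zero⟩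
  exact trB_degB ε hq hqM x

end Tg

/-! ### Change of coefficients -/

section Semi

variable {M M' : ℕ} {R R' : Type*} [CommRing R] [CommRing R'] {σ : R →+* R'}
  {ε : (ZMod M)ˣ →* Rˣ} {ε' : (ZMod M')ˣ →* Rˣ} {χ : (ZMod M)ˣ →* R'ˣ} {χ' : (ZMod M')ˣ →* R'ˣ}
  {A A' : Type*} [AddCommGroup A] [Module R A] [AddCommGroup A'] [Module R' A']

theorem dg_mapₛ {d : ℕ} (hd : d ≠ 0) (h : M * d ∣ M') (hε : infl (dvd_of_mul h) ε = ε')
    (hχ : infl (dvd_of_mul h) χ = χ') (hs : ∀ u, (χ u : R') = σ (ε u))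
    (hs' : ∀ u, (χ' u : R') = σ (ε' u)) (f : A →ₛₗ[σ] A') (x : HM M ε A) :
    dg A' hd h hχ (HM.mapₛ hs f x) = HM.mapₛ hs' f (dg A hd h hε x) :=
  Corr.tr_mapₛ _ _ _ (fun _ => (map_one σ).symm) _ _ _ _

variable {q : ℕ} (hq : q.Prime) (hqM : ¬ q ∣ M) (h : M * q = M')

theorem tg_mapₛ (hε : infl (Dvd.intro q h) ε = ε')
    (hχ : infl (Dvd.intro q h) χ = χ') (hs : ∀ u, (χ u : R') = σ (ε u))
    (hs' : ∀ u, (χ' u : R') = σ (ε' u)) (f : A →ₛₗ[σ] A') (x : HM M' ε' A) :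
    tg hq hqM h A' hχ (HM.mapₛ hs' f x) = HM.mapₛ hs f (tg hq hqM h A hε x) :=
  have : NeZero q := ⟨hq.ne_zero⟩
  Corr.tr_mapₛ _ _ _ (fun _ => (map_one σ).symm) _ _ _ _

theorem wg_mapₛ (hε : infl (Dvd.intro q h) ε = ε')
    (hχ : infl (Dvd.intro q h) χ = χ') (hs : ∀ u, (χ u : R') = σ (ε u))
    (hs' : ∀ u, (χ' u : R') = σ (ε' u)) (f : A →ₛₗ[σ] A') (x : HM M' ε' A) :
    wg hq hqM h A' hχ (HM.mapₛ hs' f x) = HM.mapₛ hs' f (wg hq hqM h A hε x) :=
  Corr.tr_mapₛ _ _ _ (fun _ => wt_semi hs _) _ _ _ _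

theorem tB_mapₛ (hε : infl (Dvd.intro q h) ε = ε')
    (hχ : infl (Dvd.intro q h) χ = χ') (hs : ∀ u, (χ u : R') = σ (ε u))
    (hs' : ∀ u, (χ' u : R') = σ (ε' u)) (f : A →ₛₗ[σ] A') (x : HM M' ε' A) :
    tB hq hqM h A' hχ (HM.mapₛ hs' f x) = HM.mapₛ hs f (tB hq hqM h A hε x) := by
  rw [tB_apply, tB_apply, wg_mapₛ hq hqM h hε hχ hs hs', tg_mapₛ hq hqM h hε hχ hs hs']

end Semi

end Fermat.Agent.HSide
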