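import Fermat.Agent.HSide.Maps
import Fermat.Agent.HSide.BotIhara

/-!
# Ihara's lemma and its dual for the normalised maps
-/

set_option autoImplicit false
set_option linter.unusedSectionVars false

noncomputable section

open Matrix.SpecialLinearGroup CongruenceSubgroup IsLocalRing
open scoped MatrixGroups

namespace Fermat.Agent.HSide

open TwHecke HeckePar TwExact HeckeRep

variable {M M' v : ℕ} [NeZero M] (hv : v.Prime) (hvM : ¬ v ∣ M) (h : M * v = M')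
  {R : Type} [CommRing R] [IsLocalRing R] [IsNoetherianRing R] [IsAdicComplete (maximalIdeal R) R]
  {p : ℕ} [CharP (ResidueField R) p] (hp : p.Prime) (hp2 : p ≠ 2)
  {η : (ZMod M)ˣ →* Rˣ} {η' : (ZMod M')ˣ →* Rˣ} (hη : infl (Dvd.intro v h) η = η') {S : Set ℕ}
  {θ : PIdx S → ResidueField R} (hvS : v ∈ S) (hres : ∀ u, residue R (η u : R) = 1)
  (hne : S41hm.StrongNonEis S θ) (hG : Good M (η ^ 2) S θ)

theorem residue_sq {M : ℕ} {R : Type} [CommRing R] [IsLocalRing R] {η : (ZMod M)ˣ →* Rˣ}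
    (hres : ∀ u, residue R (η u : R) = 1) (u : (ZMod M)ˣ) :
    residue R (((η ^ 2) u : Rˣ) : R) = 1 := by
  rw [MonoidHom.pow_apply, Units.val_pow_eq_pow_val, map_pow, hres, one_pow]

include hp hp2 hres hne hG in
/-- **The pair of normalised traces is onto.** -/
theorem surj_j (x y : Hm M (η ^ 2) R S θ) :
    ∃ z : Hm M' (η' ^ 2) R S θ, j1 hv hvM h hη θ hvS z = x ∧ j2 hv hvM h hη θ hvS z = y := by
  obtain ⟨z, hz, h1, h2⟩ := surj (p := p) hp hp2 hv hvM h (residue_sq hres) hvS hne hG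
    (infl_sq _ hη) x.2 (Submodule.smul_mem _ (((η (unitOf M v))⁻¹ : Rˣ) : R) y.2)
  refine ⟨⟨z, hz⟩, Subtype.ext h1, Subtype.ext ?_⟩
  rw [coe_j2, h2, smul_smul, Units.mul_inv, one_smul]

include hvM hp hp2 hres hne hG in
/-- **Ihara's lemma for the normalised degeneracy maps**, modulo any element. -/
theorem ihara_i (hS : ∀ ℓ : ℕ, ℓ.Prime → ℓ ∣ M' → ℓ ∈ S) (ϖ : R) (x y : Hm M (η ^ 2) R S θ)
    (z : Hm M' (η' ^ 2) R S θ)
    (e : i1 hv h hη θ hvS x + i2 hv h hη θ hvS y = ϖ • z) :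
    (∃ x', x = ϖ • x') ∧ ∃ y', y = ϖ • y' := by
  have e' : dg R one_ne_zero (dvd1 h) (infl_sq _ hη) (x : HM M (η ^ 2) R) +
      dg R hv.ne_zero (dvdv h) (infl_sq _ hη)
        ((((η (unitOf M v))⁻¹ : Rˣ) : R) • (y : HM M (η ^ 2) R)) =
        ϖ • (z : HM M' (η' ^ 2) R) := by
    rw [map_smul]
    exact congrArg Subtype.val e
  obtain ⟨⟨x', hx', h1⟩, y', hy', h2⟩ := ihara (p := p) hp hp2 hv hvM h (residue_sq hres) hS hne
    hG rfl one_ne_zero (dvd1 h) (dvdv h) (infl_sq _ hη) (infl_sq _ hη) ϖ x.2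
    (Submodule.smul_mem _ _ y.2) z.2 e'
  refine ⟨⟨⟨x', hx'⟩, Subtype.ext h1⟩,
    ⟨⟨((η (unitOf M v) : Rˣ) : R) • y', Submodule.smul_mem _ _ hy'⟩, Subtype.ext ?_⟩⟩
  show (y : HM M (η ^ 2) R) = ϖ • (((η (unitOf M v) : Rˣ) : R) • y')
  rw [smul_comm, ← h2, smul_smul, Units.mul_inv, one_smul]

include hvM hp hp2 hres hne hG in
/-- The pair of normalised degeneracy maps is injective. -/
theorem inj_i (hS : ∀ ℓ : ℕ, ℓ.Prime → ℓ ∣ M' → ℓ ∈ S) (x y : Hm M (η ^ 2) R S θ)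
    (e : i1 hv h hη θ hvS x + i2 hv h hη θ hvS y = 0) : x = 0 ∧ y = 0 := by
  obtain ⟨⟨x', h1⟩, y', h2⟩ := ihara_i hv hvM h hp hp2 hη hvS hres hne hG hS 0 x y 0
    (by rw [e, smul_zero])
  rw [zero_smul] at h1 h2
  exact ⟨h1, h2⟩

end Fermat.Agent.HSide
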