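import Fermat.Agent.HSide.Squares
import Fermat.Agent.HSide.Bottom
import Fermat.Agent.HSide.IharaN
import Fermat.Agent.HSide.Base
import Fermat.Agent.HSide.Surj
import Fermat.Agent.HSide.BotI

/-!
# The projection to the bottom level
-/

set_option autoImplicit false
set_option linter.style.haveILetI false
set_option linter.unusedSectionVars false

noncomputable section

open Matrix.SpecialLinearGroup CongruenceSubgroup IsLocalRing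
open scoped MatrixGroups

namespace Fermat.Agent.HSide

open TwHecke HeckePar TwExact HeckeRep RTE

/-! ### The modules of the bottom level -/

/-- `2 ^ m` copies of the `𝔪`-part of level `N`. -/
abbrev BotM (ι : Type) (N : ℕ) {𝒪 : Type} [CommRing 𝒪] [IsLocalRing 𝒪] (S₀ : Finset ℕ)
    (a : ℕ → ResidueField 𝒪) : Type :=
  Finset ι → Hm N ((1 : (ZMod N)ˣ →* 𝒪ˣ) ^ 2) 𝒪 (↑S₀ : Set ℕ) (thOf a (↑S₀ : Set ℕ))

theorem infl_one {R : Type*} [CommRing R] {M M' : ℕ} (h : M ∣ M') :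
    infl h (1 : (ZMod M)ˣ →* Rˣ) = 1 := rfl

section BotMaps

variable {ι : Type} {𝒪 : Type} [CommRing 𝒪] [IsLocalRing 𝒪] {S₀ : Finset ℕ}
  {a : ℕ → ResidueField 𝒪}

/-- The operator `T_ℓ` of the bottom level. -/
def botT (ι : Type) (N : ℕ) (S₀ : Finset ℕ) (a : ℕ → ResidueField 𝒪) (ℓ : ℕ) [Fact ℓ.Prime] :
    Module.End 𝒪 (BotM ι N S₀ a) :=
  (tvm N ℓ (1 : (ZMod N)ˣ →* 𝒪ˣ) (1 ^ 2) (↑S₀ : Set ℕ) (thOf a (↑S₀ : Set ℕ))).compLeft _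

variable {N N' v : ℕ} (hv : v.Prime) (hvN : ¬ v ∣ N) (h : N * v = N') (hvS : v ∈ S₀)

variable (ι a) in
/-- The first degeneracy map of the bottom level. -/
def botI1 : BotM ι N S₀ a →ₗ[𝒪] BotM ι N' S₀ a :=
  (i1 hv h (infl_one _) (thOf a (↑S₀ : Set ℕ)) (Finset.mem_coe.mpr hvS)).compLeft _

variable (ι a) in
/-- The second degeneracy map of the bottom level. -/
def botI2 : BotM ι N S₀ a →ₗ[𝒪] BotM ι N' S₀ a :=
  (i2 hv h (infl_one _) (thOf a (↑S₀ : Set ℕ)) (Finset.mem_coe.mpr hvS)).compLeft _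

variable (ι a) in
/-- The first trace of the bottom level. -/
def botJ1 : BotM ι N' S₀ a →ₗ[𝒪] BotM ι N S₀ a :=
  (j1 hv hvN h (infl_one _) (thOf a (↑S₀ : Set ℕ)) (Finset.mem_coe.mpr hvS)).compLeft _

variable (ι a) in
/-- The second trace of the bottom level. -/
def botJ2 : BotM ι N' S₀ a →ₗ[𝒪] BotM ι N S₀ a :=
  (j2 hv hvN h (infl_one _) (thOf a (↑S₀ : Set ℕ)) (Finset.mem_coe.mpr hvS)).compLeft _

theorem botI1_apply (x : BotM ι N S₀ a) (J : Finset ι) : botI1 ι a hv h hvS x J =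
    i1 hv h (infl_one _) (thOf a (↑S₀ : Set ℕ)) (Finset.mem_coe.mpr hvS) (x J) := rfl

theorem botI2_apply (x : BotM ι N S₀ a) (J : Finset ι) : botI2 ι a hv h hvS x J =
    i2 hv h (infl_one _) (thOf a (↑S₀ : Set ℕ)) (Finset.mem_coe.mpr hvS) (x J) := rfl

theorem botJ1_apply (x : BotM ι N' S₀ a) (J : Finset ι) : botJ1 ι a hv hvN h hvS x J =
    j1 hv hvN h (infl_one _) (thOf a (↑S₀ : Set ℕ)) (Finset.mem_coe.mpr hvS) (x J) := rfl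

theorem botJ2_apply (x : BotM ι N' S₀ a) (J : Finset ι) : botJ2 ι a hv hvN h hvS x J =
    j2 hv hvN h (infl_one _) (thOf a (↑S₀ : Set ℕ)) (Finset.mem_coe.mpr hvS) (x J) := rfl

theorem botT_apply (ℓ : ℕ) [Fact ℓ.Prime] (x : BotM ι N S₀ a) (J : Finset ι) :
    botT ι N S₀ a ℓ x J =
      tvm N ℓ (1 : (ZMod N)ˣ →* 𝒪ˣ) (1 ^ 2) (↑S₀ : Set ℕ) (thOf a (↑S₀ : Set ℕ)) (x J) := rfl

end BotMaps

/-! ### The isomorphism and the maps -/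

section Equiv

variable {𝒪 : Type} [CommRing 𝒪] [IsLocalRing 𝒪] [IsNoetherianRing 𝒪]
  [IsAdicComplete (maximalIdeal 𝒪) 𝒪] [IsAddTorsionFree 𝒪] {p : ℕ} [hp : Fact p.Prime]
  {ι : Type} [Fintype ι] [DecidableEq ι] {S₀ S : Finset ℕ} {a : ℕ → ResidueField 𝒪} {qv : ι → ℕ}
  (I : BotInput p 𝒪 S₀ S a qv) {N M : ℕ} [NeZero N]
  (hNS : ∀ r : ℕ, r.Prime → r ∣ N → r ∈ S₀) (hM : N * ∏ i, qv i = M)

include I in
theorem BotInput.not_dvd_prod {v : ℕ} (hv : v.Prime) (hvS : v ∈ S₀) : ¬ v ∣ ∏ i, qv i := by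
  intro h
  obtain ⟨i, _, hi⟩ := (Prime.dvd_finsetProd_iff hv.prime _).mp h
  exact I.hqS₀ i ((Nat.prime_dvd_prime_iff_eq hv (I.hqv i)).mp hi ▸ hvS)

include I in
theorem BotInput.prime_dvd_iff {v : ℕ} (hv : v.Prime) (hvS : v ∈ S₀)
    (hM : N * ∏ i, qv i = M) : v ∣ M ↔ v ∣ N := by
  rw [← hM, hv.dvd_mul]
  exact or_iff_left (I.not_dvd_prod hv hvS)

/-- The isomorphism of the bottom level, for the character `1 ^ 2`. -/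
def BotInput.eqv : BotM ι N S₀ a ≃ₗ[𝒪]
    Hm M ((1 : (ZMod M)ˣ →* 𝒪ˣ) ^ 2) 𝒪 (↑S : Set ℕ) (thOf a (↑S : Set ℕ)) :=
  I.botEquiv hNS hM one_sq_eq (Dvd.intro _ hM) (infl_sq (Dvd.intro _ hM) (infl_one _))

theorem BotInput.coe_eqv (x : BotM ι N S₀ a) :
    (I.eqv hNS hM x : HM M ((1 : (ZMod M)ˣ →* 𝒪ˣ) ^ 2) 𝒪) =
      botSum 𝒪 qv I.ne_zero (BotInput.dvd hM) (Dvd.intro _ hM)
        (infl_sq (Dvd.intro _ hM) (infl_one _)) (fun J => (x J : HM N _ 𝒪)) := rfl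

/-- `T_ℓ` -/
theorem BotInput.eqv_T {ℓ : ℕ} [hℓ : Fact ℓ.Prime] (hℓS : ∀ i, ℓ ≠ qv i) (x : BotM ι N S₀ a) :
    I.eqv hNS hM (botT ι N S₀ a ℓ x) =
      tvm M ℓ (1 : (ZMod M)ˣ →* 𝒪ˣ) (1 ^ 2) (↑S : Set ℕ) (thOf a (↑S : Set ℕ))
        (I.eqv hNS hM x) := by
  have h1 : ∀ i, ¬ ℓ ∣ qv i := fun i h =>
    hℓS i ((Nat.prime_dvd_prime_iff_eq hℓ.out (I.hqv i)).mp h)
  have h2 : ℓ ∣ M ↔ ℓ ∣ N := by
    rw [← hM, hℓ.out.dvd_mul]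
    refine or_iff_left fun h => ?_
    obtain ⟨i, _, hi⟩ := (Prime.dvd_finsetProd_iff hℓ.out.prime _).mp h
    exact h1 i hi
  apply Subtype.ext
  rw [I.coe_eqv, coe_tvm, I.coe_eqv, MonoidHom.one_apply, Units.val_one, one_smul,
    ← botSum_heckeH _ _ _ _ h1 h2]
  congr 1
  funext J
  rw [botT_apply, coe_tvm, MonoidHom.one_apply, Units.val_one, one_smul]

variable {N₁ M₁ v : ℕ} [NeZero N₁] (hv : v.Prime) (hvN : ¬ v ∣ N) (hvM : ¬ v ∣ M)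
  (hN₁ : N * v = N₁) (hM₁ : M * v = M₁) (hvS₀ : v ∈ S₀)
  (hvS : v ∈ (↑S : Set ℕ)) (hNS₁ : ∀ r : ℕ, r.Prime → r ∣ N₁ → r ∈ S₀)
  (hMN₁ : N₁ * ∏ i, qv i = M₁)

theorem BotInput.eqv_I1 (x : BotM ι N S₀ a) :
    I.eqv hNS₁ hMN₁ (botI1 ι a hv hN₁ hvS₀ x) =
      i1 hv hM₁ (infl_one _) (thOf a (↑S : Set ℕ)) hvS (I.eqv hNS hM x) := by
  apply Subtype.ext
  rw [I.coe_eqv, coe_i1, I.coe_eqv]
  exact botSum_dg I.ne_zero (BotInput.dvd hM) (Dvd.intro _ hM)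
    (infl_sq (Dvd.intro _ hM) (infl_one _)) one_ne_zero (BotInput.dvd hMN₁) (Dvd.intro _ hMN₁)
    (infl_sq (Dvd.intro _ hMN₁) (infl_one _)) (dvd1 hN₁) (dvd1 hM₁)
    (infl_sq (Dvd.intro v hN₁) (infl_one _)) (infl_sq (Dvd.intro v hM₁) (infl_one _))
    (fun J => (x J : HM N ((1 : (ZMod N)ˣ →* 𝒪ˣ) ^ 2) 𝒪))

theorem BotInput.eqv_I2 (x : BotM ι N S₀ a) :
    I.eqv hNS₁ hMN₁ (botI2 ι a hv hN₁ hvS₀ x) =
      i2 hv hM₁ (infl_one _) (thOf a (↑S : Set ℕ)) hvS (I.eqv hNS hM x) := by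
  apply Subtype.ext
  rw [I.coe_eqv, coe_i2, I.coe_eqv, MonoidHom.one_apply, inv_one, Units.val_one, one_smul]
  rw [← botSum_dg I.ne_zero (BotInput.dvd hM) (Dvd.intro _ hM)
    (infl_sq (Dvd.intro _ hM) (infl_one _)) hv.ne_zero (BotInput.dvd hMN₁) (Dvd.intro _ hMN₁)
    (infl_sq (Dvd.intro _ hMN₁) (infl_one _)) (dvdv hN₁) (dvdv hM₁)
    (infl_sq (Dvd.intro v hN₁) (infl_one _)) (infl_sq (Dvd.intro v hM₁) (infl_one _))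
    (fun J => (x J : HM N ((1 : (ZMod N)ˣ →* 𝒪ˣ) ^ 2) 𝒪))]
  refine congrArg _ (funext fun J => ?_)
  rw [botI2_apply, coe_i2, MonoidHom.one_apply, inv_one, Units.val_one, one_smul]

theorem BotInput.eqv_J1 (x : BotM ι N₁ S₀ a) :
    I.eqv hNS hM (botJ1 ι a hv hvN hN₁ hvS₀ x) =
      j1 hv hvM hM₁ (infl_one _) (thOf a (↑S : Set ℕ)) hvS (I.eqv hNS₁ hMN₁ x) := by
  apply Subtype.ext
  rw [I.coe_eqv, coe_j1, I.coe_eqv]
  exact botSum_tg I.ne_zero (BotInput.dvd hM) (Dvd.intro _ hM)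
    (infl_sq (Dvd.intro _ hM) (infl_one _)) hv hvN hvM hN₁ hM₁ (BotInput.dvd hMN₁)
    (Dvd.intro _ hMN₁) (infl_sq (Dvd.intro _ hMN₁) (infl_one _))
    (infl_sq (Dvd.intro v hN₁) (infl_one _)) (infl_sq (Dvd.intro v hM₁) (infl_one _))
    (fun J => (x J : HM N₁ ((1 : (ZMod N₁)ˣ →* 𝒪ˣ) ^ 2) 𝒪))

theorem BotInput.eqv_J2 (x : BotM ι N₁ S₀ a) :
    I.eqv hNS hM (botJ2 ι a hv hvN hN₁ hvS₀ x) =
      j2 hv hvM hM₁ (infl_one _) (thOf a (↑S : Set ℕ)) hvS (I.eqv hNS₁ hMN₁ x) := by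
  apply Subtype.ext
  rw [I.coe_eqv, coe_j2, I.coe_eqv, MonoidHom.one_apply, Units.val_one, one_smul]
  rw [← botSum_tB I.ne_zero (BotInput.dvd hM) (Dvd.intro _ hM)
    (infl_sq (Dvd.intro _ hM) (infl_one _)) hv hvN hvM hN₁ hM₁ (BotInput.dvd hMN₁)
    (Dvd.intro _ hMN₁) (infl_sq (Dvd.intro _ hMN₁) (infl_one _))
    (infl_sq (Dvd.intro v hN₁) (infl_one _)) (infl_sq (Dvd.intro v hM₁) (infl_one _))
    (fun J => (x J : HM N₁ ((1 : (ZMod N₁)ˣ →* 𝒪ˣ) ^ 2) 𝒪))]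
  refine congrArg _ (funext fun J => ?_)
  rw [botJ2_apply, coe_j2, MonoidHom.one_apply, Units.val_one, one_smul]

end Equiv

/-! ### The projection -/

section Proj

variable {𝒪 : Type} [CommRing 𝒪] [IsLocalRing 𝒪] [IsNoetherianRing 𝒪]
  [IsAdicComplete (maximalIdeal 𝒪) 𝒪] [IsAddTorsionFree 𝒪] {p : ℕ} [hp : Fact p.Prime]
  {ι : Type} [Fintype ι] [DecidableEq ι] {S₀ S : Finset ℕ} {a : ℕ → ResidueField 𝒪} {qv : ι → ℕ}
  (I : BotInput p 𝒪 S₀ S a qv) {N M : ℕ} [NeZero N]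
  (hNS : ∀ r : ℕ, r.Prime → r ∣ N → r ∈ S₀) (hM : N * ∏ i, qv i = M)
  {R : Type} [CommRing R] [IsLocalRing R] (σ : R →+* 𝒪) [IsLocalHom σ]
  (hσ : Function.Surjective σ) {θ : PIdx (↑S : Set ℕ) → ResidueField R}
  (hθ : ∀ ℓ, thOf a (↑S : Set ℕ) ℓ = ResidueField.map σ (θ ℓ))
  {η : (ZMod M)ˣ →* Rˣ} (hη : ∀ u, σ (η u) = 1)

theorem one_eq_of {η : (ZMod M)ˣ →* Rˣ} (hη : ∀ u, σ (η u) = 1) (u : (ZMod M)ˣ) :
    (((1 : (ZMod M)ˣ →* 𝒪ˣ) u : 𝒪ˣ) : 𝒪) = σ (η u) := by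
  rw [hη, MonoidHom.one_apply, Units.val_one]

/-- The projection to the bottom level. -/
def BotInput.proj : Hm M (η ^ 2) R (↑S : Set ℕ) θ →ₛₗ[σ] BotM ι N S₀ a :=
  (I.eqv hNS hM).symm.toLinearMap.comp (sgm σ (sq_eq σ (one_eq_of σ hη)) hθ hσ)

theorem BotInput.eqv_proj (x : Hm M (η ^ 2) R (↑S : Set ℕ) θ) :
    I.eqv hNS hM (I.proj hNS hM σ hσ hθ hη x) = sgm σ (sq_eq σ (one_eq_of σ hη)) hθ hσ x :=
  (I.eqv hNS hM).apply_symm_apply _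

theorem BotInput.proj_eq_iff (x : Hm M (η ^ 2) R (↑S : Set ℕ) θ) (y : BotM ι N S₀ a) :
    I.proj hNS hM σ hσ hθ hη x = y ↔
      sgm σ (sq_eq σ (one_eq_of σ hη)) hθ hσ x = I.eqv hNS hM y := by
  rw [← I.eqv_proj hNS hM σ hσ hθ hη]
  exact (I.eqv hNS hM).injective.eq_iff.symm

theorem BotInput.proj_smul (r : R) (x : Hm M (η ^ 2) R (↑S : Set ℕ) θ) :
    I.proj hNS hM σ hσ hθ hη (r • x) = σ r • I.proj hNS hM σ hσ hθ hη x :=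
  map_smulₛₗ _ _ _

theorem BotInput.proj_T {ℓ : ℕ} [Fact ℓ.Prime] (hℓS : ∀ i, ℓ ≠ qv i)
    (x : Hm M (η ^ 2) R (↑S : Set ℕ) θ) :
    I.proj hNS hM σ hσ hθ hη (tvm M ℓ η (η ^ 2) (↑S : Set ℕ) θ x) =
      botT ι N S₀ a ℓ (I.proj hNS hM σ hσ hθ hη x) := by
  rw [I.proj_eq_iff, I.eqv_T hNS hM hℓS, I.eqv_proj, sgm_tvm σ hσ hθ (one_eq_of σ hη)]

section Good

variable [NeZero M] [IsNoetherianRing R] [IsAdicComplete (maximalIdeal R) R]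
  (hG : Good M (η ^ 2) (↑S : Set ℕ) θ)

include hG in
theorem BotInput.proj_surjective : Function.Surjective (I.proj hNS hM σ hσ hθ hη) := by
  intro y
  obtain ⟨x, hx⟩ := sgm_surjective σ (sq_eq σ (one_eq_of σ hη)) hθ hσ hG (I.eqv hNS hM y)
  exact ⟨x, (I.proj_eq_iff hNS hM σ hσ hθ hη x y).mpr hx⟩

include hG in
theorem BotInput.proj_eq_zero_iff (x : Hm M (η ^ 2) R (↑S : Set ℕ) θ) :
    I.proj hNS hM σ hσ hθ hη x = 0 ↔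
      x ∈ (RingHom.ker σ • ⊤ : Submodule R (Hm M (η ^ 2) R (↑S : Set ℕ) θ)) := by
  rw [I.proj_eq_iff, map_zero]
  exact sgm_ker σ (sq_eq σ (one_eq_of σ hη)) hθ hσ hG x

end Good

variable {N₁ M₁ v : ℕ} [NeZero N₁] (hv : v.Prime) (hvN : ¬ v ∣ N) (hvM : ¬ v ∣ M)
  (hN₁ : N * v = N₁) (hM₁ : M * v = M₁) (hvS₀ : v ∈ S₀)
  (hvS : v ∈ (↑S : Set ℕ)) (hNS₁ : ∀ r : ℕ, r.Prime → r ∣ N₁ → r ∈ S₀)
  (hMN₁ : N₁ * ∏ i, qv i = M₁) {η₁ : (ZMod M₁)ˣ →* Rˣ}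
  (hη₁ : ∀ u, σ (η₁ u) = 1) (hηη : infl (Dvd.intro v hM₁) η = η₁)

theorem BotInput.proj_i1 (x : Hm M (η ^ 2) R (↑S : Set ℕ) θ) :
    I.proj hNS₁ hMN₁ σ hσ hθ hη₁ (i1 hv hM₁ hηη θ hvS x) =
      botI1 ι a hv hN₁ hvS₀ (I.proj hNS hM σ hσ hθ hη x) := by
  rw [I.proj_eq_iff, I.eqv_I1 hNS hM hv hN₁ hM₁ hvS₀ hvS hNS₁ hMN₁, I.eqv_proj]
  exact sgm_i1 σ hσ hθ hv hM₁ hηη (infl_one _) hvS x

theorem BotInput.proj_i2 (x : Hm M (η ^ 2) R (↑S : Set ℕ) θ) :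
    I.proj hNS₁ hMN₁ σ hσ hθ hη₁ (i2 hv hM₁ hηη θ hvS x) =
      botI2 ι a hv hN₁ hvS₀ (I.proj hNS hM σ hσ hθ hη x) := by
  rw [I.proj_eq_iff, I.eqv_I2 hNS hM hv hN₁ hM₁ hvS₀ hvS hNS₁ hMN₁, I.eqv_proj]
  exact sgm_i2 σ hσ hθ hv hM₁ hηη (infl_one _) (one_eq_of σ hη) hvS x

theorem BotInput.proj_j1 (x : Hm M₁ (η₁ ^ 2) R (↑S : Set ℕ) θ) :
    I.proj hNS hM σ hσ hθ hη (j1 hv hvM hM₁ hηη θ hvS x) =
      botJ1 ι a hv hvN hN₁ hvS₀ (I.proj hNS₁ hMN₁ σ hσ hθ hη₁ x) := by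
  rw [I.proj_eq_iff, I.eqv_J1 hNS hM hv hvN hvM hN₁ hM₁ hvS₀ hvS hNS₁ hMN₁, I.eqv_proj]
  exact sgm_j1 σ hσ hθ hv hvM hM₁ hηη (infl_one _) hvS x

theorem BotInput.proj_j2 (x : Hm M₁ (η₁ ^ 2) R (↑S : Set ℕ) θ) :
    I.proj hNS hM σ hσ hθ hη (j2 hv hvM hM₁ hηη θ hvS x) =
      botJ2 ι a hv hvN hN₁ hvS₀ (I.proj hNS₁ hMN₁ σ hσ hθ hη₁ x) := by
  rw [I.proj_eq_iff, I.eqv_J2 hNS hM hv hvN hvM hN₁ hM₁ hvS₀ hvS hNS₁ hMN₁, I.eqv_proj]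
  exact sgm_j2 σ hσ hθ hv hvM hM₁ hηη (infl_one _) (one_eq_of σ hη) hvS x

end Proj

/-! ### Ihara's lemma at the bottom level -/

section Ihara

variable {𝒪 : Type} [CommRing 𝒪] [IsLocalRing 𝒪] [IsNoetherianRing 𝒪]
  [IsAdicComplete (maximalIdeal 𝒪) 𝒪] {p : ℕ} [CharP (ResidueField 𝒪) p]
  (hp : p.Prime) (hp2 : p ≠ 2) {ι : Type} {S₀ : Finset ℕ} {a : ℕ → ResidueField 𝒪}
  {N N₁ v : ℕ} [NeZero N] (hv : v.Prime) (hvN : ¬ v ∣ N) (hN₁ : N * v = N₁) (hvS₀ : v ∈ S₀)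
  (hNS₁ : ∀ r : ℕ, r.Prime → r ∣ N₁ → r ∈ S₀)
  (hne : S41hm.StrongNonEis (↑S₀ : Set ℕ) (thOf a (↑S₀ : Set ℕ)))
  (hG : Good N ((1 : (ZMod N)ˣ →* 𝒪ˣ) ^ 2) (↑S₀ : Set ℕ) (thOf a (↑S₀ : Set ℕ)))

include hp hp2 hvN hNS₁ hne hG in
theorem botIhara (ϖ : 𝒪) (x y : BotM ι N S₀ a) (z : BotM ι N₁ S₀ a)
    (e : botI1 ι a hv hN₁ hvS₀ x + botI2 ι a hv hN₁ hvS₀ y = ϖ • z) :
    (∃ x', x = ϖ • x') ∧ ∃ y', y = ϖ • y' := by
  have key : ∀ J, (∃ x', x J = ϖ • x') ∧ ∃ y', y J = ϖ • y' := fun J =>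
    ihara_i (p := p) hv hvN hN₁ hp hp2 (infl_one _) (Finset.mem_coe.mpr hvS₀)
      (fun u => by rw [MonoidHom.one_apply, Units.val_one, map_one]) hne hG hNS₁ ϖ (x J) (y J)
      (z J) (congrFun e J)
  choose x' hx' using fun J => (key J).1
  choose y' hy' using fun J => (key J).2
  exact ⟨⟨x', funext hx'⟩, ⟨y', funext hy'⟩⟩

include hp hp2 hne hG in
/-- the pair of traces at the bottom level is onto -/
theorem botSurj (x y : BotM ι N S₀ a) : ∃ z : BotM ι N₁ S₀ a,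
    botJ1 ι a hv hvN hN₁ hvS₀ z = x ∧ botJ2 ι a hv hvN hN₁ hvS₀ z = y := by
  have key : ∀ J, ∃ z, j1 hv hvN hN₁ (infl_one _) (thOf a (↑S₀ : Set ℕ))
      (Finset.mem_coe.mpr hvS₀) z = x J ∧ j2 hv hvN hN₁ (infl_one _) (thOf a (↑S₀ : Set ℕ))
      (Finset.mem_coe.mpr hvS₀) z = y J := fun J =>
    surj_j (p := p) hv hvN hN₁ hp hp2 (infl_one _) (Finset.mem_coe.mpr hvS₀)
      (fun u => by rw [MonoidHom.one_apply, Units.val_one, map_one]) hne hG (x J) (y J)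
  choose z hz using key
  exact ⟨z, funext fun J => (hz J).1, funext fun J => (hz J).2⟩

end Ihara

/-! ### The projection for `Base` -/

section ForBase

open Fermat.Agent.RT (aug gr)
open Fermat.Agent.RTD GalRep

variable (𝒪 : Type) [CommRing 𝒪] [IsLocalRing 𝒪] (p : ℕ) {m : ℕ} (qv : Fin m → ℕ)

/-- The augmentation. -/
abbrev augR : Lam 𝒪 p qv →+* 𝒪 := (aug 𝒪 (Dia p qv) : Lam 𝒪 p qv →+* 𝒪)

theorem augR_surjective : Function.Surjective (augR 𝒪 p qv) := fun x =>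
  ⟨algebraMap 𝒪 _ x, (aug 𝒪 (Dia p qv)).commutes x⟩

instance [IsLocalRing (Lam 𝒪 p qv)] : IsLocalHom (augR 𝒪 p qv) :=
  (augR_surjective 𝒪 p qv).isLocalHom

variable {𝒪 p qv} [hp : Fact p.Prime] {ι : Type} {qT : ι → ℕ} {S : Finset ℕ} (B : Base 𝒪 p qT S)

theorem Base.aug_eta (s : Finset ι) (u : (ZMod (B.lev qv s))ˣ) :
    augR 𝒪 p qv (B.eta qv s u : Lam 𝒪 p qv) = 1 :=
  RT.aug_gr _

theorem Base.lev_eq (s : Finset ι) : B.NS s * ∏ i, qv i = B.lev qv s := rfl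

theorem Base.map_th [IsLocalRing (Lam 𝒪 p qv)] (ℓ : PIdx (↑(B.Sn qv) : Set ℕ)) :
    thOf B.a (↑(B.Sn qv) : Set ℕ) ℓ = ResidueField.map (augR 𝒪 p qv) (B.th qv ℓ) := by
  obtain ⟨y, hy⟩ := residue_surjective (B.a (ℓ.1 : ℕ))
  show B.a (ℓ.1 : ℕ) = ResidueField.map (augR 𝒪 p qv)
    (ResidueField.map (algebraMap 𝒪 (Lam 𝒪 p qv)) (B.a (ℓ.1 : ℕ)))
  rw [← hy, ResidueField.map_residue, ResidueField.map_residue]
  congr 1
  exact ((aug 𝒪 (Dia p qv)).commutes y).symm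

variable (h30 : S29aux.S30Statement) (h35 : Stmt35) (A : Auxs B qv)

omit hp in
include h30 h35 A in
theorem Base.botInput : BotInput p 𝒪 S (B.Sn qv) B.a qv where
  h30 := h30
  h35 := h35
  hS := B.S_sub
  hpS := B.pS
  hp𝒪 := B.p_mem
  hrep := ⟨B.ρb, B.frob⟩
  hE := (B.ne _ B.S_sub).one
  hinj := A.inj
  hqv := A.prime
  hqS₀ := A.notMem
  hqS := B.qv_mem
  ha := A.frob

variable [IsLocalRing (Lam 𝒪 p qv)] [IsNoetherianRing 𝒪] [IsAdicComplete (maximalIdeal 𝒪) 𝒪]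
  [IsAddTorsionFree 𝒪]

/-- **The projection to the bottom level**, semilinear form. -/
def Base.piₛ (s : Finset ι) : B.MM qv s →ₛₗ[augR 𝒪 p qv] (Finset (Fin m) → B.M0 s) :=
  (B.botInput h30 h35 A).proj (B.NS_mem s) (B.lev_eq s) (augR 𝒪 p qv)
    (augR_surjective 𝒪 p qv) B.map_th (B.aug_eta s)

/-- **The projection to the bottom level.** -/
def Base.pi (s : Finset ι) : B.MM qv s →+ (Finset (Fin m) → B.M0 s) :=
  (B.piₛ h30 h35 A s).toAddMonoidHom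

theorem Base.pi_smul (s : Finset ι) (l : Lam 𝒪 p qv) (x : B.MM qv s) :
    B.pi h30 h35 A s (l • x) = aug 𝒪 (Dia p qv) l • B.pi h30 h35 A s x :=
  (B.piₛ h30 h35 A s).map_smulₛₗ l x

theorem Base.pi_tvm (s : Finset ι) {ℓ : ℕ} [Fact ℓ.Prime] (hℓ : ∀ i, ℓ ≠ qv i)
    (x : B.MM qv s) :
    B.pi h30 h35 A s (tvm (B.lev qv s) ℓ (B.eta qv s) (B.eta qv s ^ 2) _ (B.th qv) x) =
      botT (Fin m) (B.NS s) S B.a ℓ (B.pi h30 h35 A s x) :=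
  (B.botInput h30 h35 A).proj_T (B.NS_mem s) (B.lev_eq s) (augR 𝒪 p qv)
    (augR_surjective 𝒪 p qv) B.map_th (B.aug_eta s) hℓ x

theorem tvo_apply {R : Type} [CommRing R] [IsLocalRing R] {S : Set ℕ} {M ℓ : ℕ} [Fact ℓ.Prime]
    (η ε : (ZMod M)ˣ →* Rˣ) (θ : PIdx S → ResidueField R) (x : Hm M ε R S θ) :
    tvo M ℓ η ε S θ x = tvm M ℓ η ε S θ x := by
  rw [tvo_eq]

theorem tvo_apply_zero {R : Type} [CommRing R] [IsLocalRing R] {S : Set ℕ} {M ℓ : ℕ}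
    (hℓ : ¬ ℓ.Prime) (η ε : (ZMod M)ˣ →* Rˣ) (θ : PIdx S → ResidueField R) (x : Hm M ε R S θ) :
    tvo M ℓ η ε S θ x = 0 := by
  rw [tvo_zero hℓ]
  rfl

theorem Base.pi_T_prime (s : Finset ι) {ℓ : ℕ} [Fact ℓ.Prime] (hℓ : ∀ i, ℓ ≠ qv i)
    (x : B.MM qv s) (J : Finset (Fin m)) :
    B.pi h30 h35 A s (B.T qv s ℓ x) J = B.T0 s ℓ (B.pi h30 h35 A s x J) :=
  ((congrArg (fun z => B.pi h30 h35 A s z J) (tvo_apply _ _ _ x)).trans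
    (congrFun (B.pi_tvm h30 h35 A s hℓ x) J)).trans
    (tvo_apply _ _ _ (B.pi h30 h35 A s x J)).symm

/-- The projection commutes with the Hecke operators (`ℓ` not one of the `qv i`). -/
theorem Base.pi_T (s : Finset ι) {ℓ : ℕ} (hℓ : ∀ i, ℓ ≠ qv i) (x : B.MM qv s)
    (J : Finset (Fin m)) :
    B.pi h30 h35 A s (B.T qv s ℓ x) J = B.T0 s ℓ (B.pi h30 h35 A s x J) := by
  by_cases h : ℓ.Prime
  · haveI : Fact ℓ.Prime := ⟨h⟩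
    exact B.pi_T_prime h30 h35 A s hℓ x J
  · have e1 : B.T qv s ℓ x = 0 := tvo_apply_zero h _ _ _ x
    have e2 : B.T0 s ℓ (B.pi h30 h35 A s x J) = 0 := tvo_apply_zero h _ _ _ _
    rw [e1, map_zero]
    exact e2.symm

theorem Base.pi_hT (s : Finset ι) (ℓ : PIdx (↑(B.Sn qv) : Set ℕ)) (x : B.MM qv s)
    (J : Finset (Fin m)) :
    B.pi h30 h35 A s (hT (B.eta qv s) (B.eta qv s ^ 2) _ (B.th qv) ℓ x) J =
      hT (1 : (ZMod (B.NS s))ˣ →* 𝒪ˣ) (1 ^ 2) (↑S : Set ℕ) (thOf B.a (↑S : Set ℕ))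
        ⟨ℓ.1, fun h => ℓ.2 (B.S_sub h)⟩ (B.pi h30 h35 A s x J) := by
  haveI : Fact (ℓ.1 : ℕ).Prime := ⟨ℓ.1.2⟩
  have h1 : ∀ i, (ℓ.1 : ℕ) ≠ qv i := fun i h => ℓ.2 (h ▸ B.qv_mem i)
  exact congrFun (B.pi_tvm h30 h35 A s h1 x) J

include A in
theorem Base.pi_surjective (s : Finset ι) : Function.Surjective (B.pi h30 h35 A s) := by
  have : NeZero (B.lev qv s) := ⟨B.lev_ne A s⟩
  have := HSide.isAdicComplete_groupRing (𝒪 := 𝒪) (Δ := Dia p qv)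
  have := HSide.isNoetherianRing_groupRing (𝒪 := 𝒪) (Δ := Dia p qv)
  exact (B.botInput h30 h35 A).proj_surjective (B.NS_mem s) (B.lev_eq s) (augR 𝒪 p qv)
    (augR_surjective 𝒪 p qv) B.map_th (B.aug_eta s) (B.good_lev A s)

theorem Base.pi_eq_zero_iff (s : Finset ι) (x : B.MM qv s) :
    B.pi h30 h35 A s x = 0 ↔
      x ∈ (RingHom.ker (aug 𝒪 (Dia p qv)) • ⊤ : Submodule (Lam 𝒪 p qv) (B.MM qv s)) := by
  have : NeZero (B.lev qv s) := ⟨B.lev_ne A s⟩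
  have := HSide.isAdicComplete_groupRing (𝒪 := 𝒪) (Δ := Dia p qv)
  have := HSide.isNoetherianRing_groupRing (𝒪 := 𝒪) (Δ := Dia p qv)
  exact (B.botInput h30 h35 A).proj_eq_zero_iff (B.NS_mem s) (B.lev_eq s) (augR 𝒪 p qv)
    (augR_surjective 𝒪 p qv) B.map_th (B.aug_eta s) (B.good_lev A s) x

theorem Base.pi_ker (s : Finset ι) (x : B.MM qv s) (hx : B.pi h30 h35 A s x = 0) :
    x ∈ (RingHom.ker (aug 𝒪 (Dia p qv)) • ⊤ : Submodule (Lam 𝒪 p qv) (B.MM qv s)) :=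
  (B.pi_eq_zero_iff h30 h35 A s x).mp hx

section Insert

variable [DecidableEq ι] {s : Finset ι} {v : ι} (hv : v ∉ s)

theorem Base.pi_mi1 (x : B.MM qv s) (J : Finset (Fin m)) :
    B.pi h30 h35 A (insert v s) (B.mi1 qv hv x) J = B.bi1 hv (B.pi h30 h35 A s x J) :=
  congrFun ((B.botInput h30 h35 A).proj_i1 (B.NS_mem s) (B.lev_eq s) (augR 𝒪 p qv)
    (augR_surjective 𝒪 p qv) B.map_th (B.aug_eta s) (B.qT_prime v) (B.NS_insert hv)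
    (B.lev_insert hv) (B.qT_S v) (B.qT_mem v) (B.NS_mem (insert v s)) (B.lev_eq (insert v s))
    (B.aug_eta (insert v s)) (B.eta_insert hv) x) J

theorem Base.pi_mi2 (x : B.MM qv s) (J : Finset (Fin m)) :
    B.pi h30 h35 A (insert v s) (B.mi2 qv hv x) J = B.bi2 hv (B.pi h30 h35 A s x J) :=
  congrFun ((B.botInput h30 h35 A).proj_i2 (B.NS_mem s) (B.lev_eq s) (augR 𝒪 p qv)
    (augR_surjective 𝒪 p qv) B.map_th (B.aug_eta s) (B.qT_prime v) (B.NS_insert hv)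
    (B.lev_insert hv) (B.qT_S v) (B.qT_mem v) (B.NS_mem (insert v s)) (B.lev_eq (insert v s))
    (B.aug_eta (insert v s)) (B.eta_insert hv) x) J

/-- the first trace of the bottom level -/
def Base.bj1 : B.M0 (insert v s) →ₗ[𝒪] B.M0 s :=
  j1 (η := 1) (η' := 1) (B.qT_prime v) (B.qT_not_dvd_NS hv) (B.NS_insert hv) rfl _ (B.qT_mem' v)

/-- the second trace of the bottom level -/
def Base.bj2 : B.M0 (insert v s) →ₗ[𝒪] B.M0 s :=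
  j2 (η := 1) (η' := 1) (B.qT_prime v) (B.qT_not_dvd_NS hv) (B.NS_insert hv) rfl _ (B.qT_mem' v)

theorem Base.pi_mj1 (x : B.MM qv (insert v s)) (J : Finset (Fin m)) :
    B.pi h30 h35 A s (B.mj1 hv A x) J = B.bj1 hv (B.pi h30 h35 A (insert v s) x J) :=
  congrFun ((B.botInput h30 h35 A).proj_j1 (B.NS_mem s) (B.lev_eq s) (augR 𝒪 p qv)
    (augR_surjective 𝒪 p qv) B.map_th (B.aug_eta s) (B.qT_prime v) (B.qT_not_dvd_NS hv)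
    (B.qT_not_dvd_lev A hv) (B.NS_insert hv) (B.lev_insert hv) (B.qT_S v) (B.qT_mem v)
    (B.NS_mem (insert v s)) (B.lev_eq (insert v s)) (B.aug_eta (insert v s))
    (B.eta_insert hv) x) J

theorem Base.pi_mj2 (x : B.MM qv (insert v s)) (J : Finset (Fin m)) :
    B.pi h30 h35 A s (B.mj2 hv A x) J = B.bj2 hv (B.pi h30 h35 A (insert v s) x J) :=
  congrFun ((B.botInput h30 h35 A).proj_j2 (B.NS_mem s) (B.lev_eq s) (augR 𝒪 p qv)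
    (augR_surjective 𝒪 p qv) B.map_th (B.aug_eta s) (B.qT_prime v) (B.qT_not_dvd_NS hv)
    (B.qT_not_dvd_lev A hv) (B.NS_insert hv) (B.lev_insert hv) (B.qT_S v) (B.qT_mem v)
    (B.NS_mem (insert v s)) (B.lev_eq (insert v s)) (B.aug_eta (insert v s))
    (B.eta_insert hv) x) J

end Insert

include h30 h35 A in
/-- **The rank.** -/
theorem Base.finrank_MM [DecidableEq ι] (s : Finset ι) :
    Module.finrank (Lam 𝒪 p qv) (B.MM qv s) = 2 ^ m * Module.finrank 𝒪 (B.M0 s) := by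
  have h1 := B.free_MM A s
  have := h1.1
  have := h1.2
  have : Module.Free 𝒪 (B.M0 s) := (B.good_M0 s).free
  have : Module.Finite 𝒪 (B.M0 s) := finite_Hm _ _ _
  rw [finrank_eq_of_surj (augR_surjective 𝒪 p qv) (B.piₛ h30 h35 A s)
    (B.pi_surjective h30 h35 A s) (B.pi_ker h30 h35 A s), Module.finrank_pi_fintype,
    Finset.sum_const, Finset.card_univ, Fintype.card_finset, Fintype.card_fin, smul_eq_mul]

include h30 h35 A in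
/-- **The basis.** -/
theorem Base.nonempty_basis [DecidableEq ι] (s : Finset ι) :
    Nonempty (Module.Basis (Fin (2 ^ m * Module.finrank 𝒪 (B.M0 s))) (Lam 𝒪 p qv)
      (B.MM qv s)) := by
  have h1 := B.free_MM A s
  have := h1.1
  have := h1.2
  exact ⟨Module.finBasisOfFinrankEq _ _ (B.finrank_MM h30 h35 A s)⟩

end ForBase

end Fermat.Agent.HSide
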