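import Fermat.Agent.HSide.Comm2
import Fermat.Agent.HSide.Aug
import Fermat.Agent.HeckeRep.Act

/-!
# The degeneracy maps and traces on the `𝔪`-parts, for the characters `η²`
-/

set_option autoImplicit false
set_option linter.style.haveILetI false

noncomputable section

open Matrix.SpecialLinearGroup CongruenceSubgroup IsLocalRing
open scoped MatrixGroups

namespace Fermat.Agent.HSide

open TwHecke HeckePar TwExact HeckeRep

section Prelim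

theorem ne_of_PIdx {S : Set ℕ} {v : ℕ} (hvS : v ∈ S) (ℓ : PIdx S) : (ℓ.1 : ℕ) ≠ v :=
  fun h => ℓ.2 (h ▸ hvS)

theorem infl_sq {R : Type*} [CommRing R] {M M' : ℕ} (h : M ∣ M') {η : (ZMod M)ˣ →* Rˣ}
    {η' : (ZMod M')ˣ →* Rˣ} (hη : infl h η = η') : infl h (η ^ 2) = η' ^ 2 := by
  subst hη
  rfl

theorem dvd1 {M M' v : ℕ} (h : M * v = M') : M * 1 ∣ M' := by rw [mul_one]; exact Dvd.intro v h

theorem dvdv {M M' v : ℕ} (h : M * v = M') : M * v ∣ M' := by rw [h]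

theorem prime_dvd_iff {M M' v p : ℕ} (hp : p.Prime) (hv : v.Prime) (hpv : p ≠ v)
    (h : M * v = M') : p ∣ M' ↔ p ∣ M := by
  subst h
  rw [hp.dvd_mul]
  refine ⟨fun h1 => h1.resolve_right fun h2 => ?_, Or.inl⟩
  exact hpv ((Nat.prime_dvd_prime_iff_eq hp hv).mp h2)

theorem mpart_restrict_comm {R : Type} [CommRing R] [IsLocalRing R] {ι : Type}
    {θ : ι → ResidueField R} {H : Type} [AddCommGroup H] [Module R H] {T : ι → Module.End R H}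
    (hT : ∀ i j, Commute (T i) (T j)) (f : Module.End R H) (hf : ∀ i x, f (T i x) = T i (f x))
    {x : H} (hx : x ∈ mpart θ T hT) : f x ∈ mpart θ T hT := mpart_stable hT f hf hx

end Prelim

section Ops

variable {M M' : ℕ} {R : Type} [CommRing R] [IsLocalRing R] {S : Set ℕ}

theorem hop_heckeH_comm {v : ℕ} [Fact v.Prime] {ε : (ZMod M)ˣ →* Rˣ} (i : PIdx S)
    (x : HM M ε R) : heckeH M v ε R (hop M ε R S i x) = hop M ε R S i (heckeH M v ε R x) :=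
  LinearMap.congr_fun (heckeP_commute M ε R ⟨v, Fact.out⟩ i.1).eq x

/-- The normalised Hecke operator `η(v) T_v` on the `𝔪`-part, `v` any prime. -/
def tvm (M v : ℕ) [Fact v.Prime] (η ε : (ZMod M)ˣ →* Rˣ) (S : Set ℕ) (θ : PIdx S → ResidueField R) :
    Module.End R (Hm M ε R S θ) :=
  ((η (unitOf M v) : Rˣ) : R) • (heckeH M v ε R).restrict
    fun _ hx => mpart_stable _ (heckeH M v ε R) (fun i x => hop_heckeH_comm i x) hx

theorem coe_tvm {v : ℕ} [Fact v.Prime] (η ε : (ZMod M)ˣ →* Rˣ) (θ : PIdx S → ResidueField R)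
    (x : Hm M ε R S θ) : (tvm M v η ε S θ x : HM M ε R) =
      ((η (unitOf M v) : Rˣ) : R) • heckeH M v ε R x := rfl

end Ops

section Maps

variable {M M' v : ℕ} (hv : v.Prime) (hvM : ¬ v ∣ M) (h : M * v = M')
  {R : Type} [CommRing R] [IsLocalRing R] {η : (ZMod M)ˣ →* Rˣ} {η' : (ZMod M')ˣ →* Rˣ}
  (hη : infl (Dvd.intro v h) η = η') {S : Set ℕ} (θ : PIdx S → ResidueField R) (hvS : v ∈ S)

section Hop

variable {ε : (ZMod M)ˣ →* Rˣ} {ε' : (ZMod M')ˣ →* Rˣ} (hε : infl (Dvd.intro v h) ε = ε')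

include hv h hvS in
theorem dg_hop {d : ℕ} (hd : d ≠ 0) (hdv : d = 1 ∨ d = v) (hM : M * d ∣ M')
    (i : PIdx S) (x : HM M ε R) :
    dg R hd hM hε (hop M ε R S i x) = hop M' ε' R S i (dg R hd hM hε x) := by
  have : Fact (i.1 : ℕ).Prime := ⟨i.1.2⟩
  have hne := ne_of_PIdx hvS i
  refine dg_heckeH (p := (i.1 : ℕ)) hd hM hε ?_ (prime_dvd_iff i.1.2 hv hne h) x
  rcases hdv with rfl | rfl
  · exact fun h1 => i.1.2.one_lt.ne' (Nat.dvd_one.mp h1)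
  · exact fun h1 => hne ((Nat.prime_dvd_prime_iff_eq i.1.2 hv).mp h1)

include hvS in
theorem tg_hop (i : PIdx S) (x : HM M' ε' R) :
    tg hv hvM h R hε (hop M' ε' R S i x) = hop M ε R S i (tg hv hvM h R hε x) := by
  have : Fact (i.1 : ℕ).Prime := ⟨i.1.2⟩
  exact tg_heckeH (p := (i.1 : ℕ)) hv hvM h hε (ne_of_PIdx hvS i) x

include hvS in
theorem tB_hop (i : PIdx S) (x : HM M' ε' R) :
    tB hv hvM h R hε (hop M' ε' R S i x) = hop M ε R S i (tB hv hvM h R hε x) := by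
  have : Fact (i.1 : ℕ).Prime := ⟨i.1.2⟩
  exact tB_heckeH (p := (i.1 : ℕ)) hv hvM h hε (ne_of_PIdx hvS i) x

end Hop

/-- the restriction map -/
def i1 : Hm M (η ^ 2) R S θ →ₗ[R] Hm M' (η' ^ 2) R S θ :=
  (dg R one_ne_zero (dvd1 h) (infl_sq _ hη)).restrict fun _ hx =>
    map_mem_mpart _ _ _ (fun i x => dg_hop hv h hvS (infl_sq _ hη) _ (Or.inl rfl) _ i x) hx

/-- the normalised degeneracy map -/
def i2 : Hm M (η ^ 2) R S θ →ₗ[R] Hm M' (η' ^ 2) R S θ :=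
  (((η (unitOf M v))⁻¹ : Rˣ) : R) •
    (dg R hv.ne_zero (dvdv h) (infl_sq _ hη)).restrict fun _ hx =>
      map_mem_mpart _ _ _ (fun i x => dg_hop hv h hvS (infl_sq _ hη) _ (Or.inr rfl) _ i x) hx

/-- the trace -/
def j1 : Hm M' (η' ^ 2) R S θ →ₗ[R] Hm M (η ^ 2) R S θ :=
  (tg hv hvM h R (infl_sq _ hη)).restrict fun _ hx =>
    map_mem_mpart _ _ _ (fun i x => tg_hop hv hvM h hvS (infl_sq _ hη) i x) hx

/-- the normalised second trace -/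
def j2 : Hm M' (η' ^ 2) R S θ →ₗ[R] Hm M (η ^ 2) R S θ :=
  ((η (unitOf M v) : Rˣ) : R) • (tB hv hvM h R (infl_sq _ hη)).restrict fun _ hx =>
    map_mem_mpart _ _ _ (fun i x => tB_hop hv hvM h hvS (infl_sq _ hη) i x) hx

theorem coe_i1 (x : Hm M (η ^ 2) R S θ) : (i1 hv h hη θ hvS x : HM M' (η' ^ 2) R) =
    dg R one_ne_zero (dvd1 h) (infl_sq _ hη) (x : HM M (η ^ 2) R) := rfl

theorem coe_i2 (x : Hm M (η ^ 2) R S θ) : (i2 hv h hη θ hvS x : HM M' (η' ^ 2) R) =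
    (((η (unitOf M v))⁻¹ : Rˣ) : R) •
      dg R hv.ne_zero (dvdv h) (infl_sq _ hη) (x : HM M (η ^ 2) R) := rfl

theorem coe_j1 (x : Hm M' (η' ^ 2) R S θ) : (j1 hv hvM h hη θ hvS x : HM M (η ^ 2) R) =
    tg hv hvM h R (infl_sq _ hη) (x : HM M' (η' ^ 2) R) := rfl

theorem coe_j2 (x : Hm M' (η' ^ 2) R S θ) : (j2 hv hvM h hη θ hvS x : HM M (η ^ 2) R) =
    ((η (unitOf M v) : Rˣ) : R) • tB hv hvM h R (infl_sq _ hη) (x : HM M' (η' ^ 2) R) := rfl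

/-! ### Relations -/

theorem j1_i1 (x : Hm M (η ^ 2) R S θ) :
    j1 hv hvM h hη θ hvS (i1 hv h hη θ hvS x) = ((v : R) + 1) • x := by
  apply Subtype.ext
  rw [coe_j1, coe_i1]
  exact tg_one hv hvM h rfl _ _ _ _

theorem j1_i2 [Fact v.Prime] (x : Hm M (η ^ 2) R S θ) :
    j1 hv hvM h hη θ hvS (i2 hv h hη θ hvS x) = tvm M v η (η ^ 2) S θ x := by
  apply Subtype.ext
  rw [coe_j1, coe_i2, map_smul, coe_tvm, tg_dg hv hvM h, smul_smul]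
  congr 1
  rw [MonoidHom.pow_apply, ← Units.val_mul, pow_two, inv_mul_cancel_left]

theorem j2_i1 [Fact v.Prime] (x : Hm M (η ^ 2) R S θ) :
    j2 hv hvM h hη θ hvS (i1 hv h hη θ hvS x) = tvm M v η (η ^ 2) S θ x := by
  apply Subtype.ext
  rw [coe_j2, coe_i1, coe_tvm, tB_one hv hvM h rfl]

theorem j2_i2 (x : Hm M (η ^ 2) R S θ) :
    j2 hv hvM h hη θ hvS (i2 hv h hη θ hvS x) = ((v : R) + 1) • x := by
  apply Subtype.ext
  rw [coe_j2, coe_i2, map_smul, tB_dg hv hvM h, smul_smul, ← Units.val_mul, mul_inv_cancel,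
    Units.val_one, one_smul]
  rfl

/-! ### Hecke equivariance -/

theorem eta_unitOf {M M' ℓ : ℕ} {η : (ZMod M)ˣ →* Rˣ} {η' : (ZMod M')ˣ →* Rˣ} (hM : M ∣ M')
    (hη : infl hM η = η') (hℓ : ℓ.Prime) (hℓM : ¬ ℓ ∣ M') : η' (unitOf M' ℓ) = η (unitOf M ℓ) := by
  subst hη
  show η (ZMod.unitsMap hM (unitOf M' ℓ)) = _
  rw [unitOf_unitsMap hM hℓ hℓM]

theorem coe_hT' {M : ℕ} (η ε : (ZMod M)ˣ →* Rˣ) (θ : PIdx S → ResidueField R) (ℓ : PIdx S)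
    (x : Hm M ε R S θ) : ((hT η ε S θ ℓ x : Hm M ε R S θ) : HM M ε R) =
      ((η (unitOf M ℓ.1) : Rˣ) : R) • hop M ε R S ℓ (x : HM M ε R) := rfl

variable (hMS : ∀ ℓ : ℕ, ℓ.Prime → ℓ ∣ M' → ℓ ∈ S)

include hMS in
theorem i1_hT (ℓ : PIdx S) (x : Hm M (η ^ 2) R S θ) : i1 hv h hη θ hvS (hT η (η ^ 2) S θ ℓ x) =
    hT η' (η' ^ 2) S θ ℓ (i1 hv h hη θ hvS x) := by
  apply Subtype.ext
  rw [coe_i1, coe_hT', coe_hT', coe_i1, map_smul,
    eta_unitOf (Dvd.intro v h) hη ℓ.1.2 (fun hd => ℓ.2 (hMS _ ℓ.1.2 hd))]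
  congr 1
  exact dg_hop hv h hvS (infl_sq _ hη) _ (Or.inl rfl) _ ℓ _

include hMS in
theorem i2_hT (ℓ : PIdx S) (x : Hm M (η ^ 2) R S θ) : i2 hv h hη θ hvS (hT η (η ^ 2) S θ ℓ x) =
    hT η' (η' ^ 2) S θ ℓ (i2 hv h hη θ hvS x) := by
  apply Subtype.ext
  rw [coe_i2, coe_hT', coe_hT', coe_i2, map_smul, map_smul, smul_comm,
    eta_unitOf (Dvd.intro v h) hη ℓ.1.2 (fun hd => ℓ.2 (hMS _ ℓ.1.2 hd))]
  congr 2
  exact dg_hop hv h hvS (infl_sq _ hη) _ (Or.inr rfl) _ ℓ _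

include hMS in
theorem j1_hT (ℓ : PIdx S) (x : Hm M' (η' ^ 2) R S θ) :
    j1 hv hvM h hη θ hvS (hT η' (η' ^ 2) S θ ℓ x) =
      hT η (η ^ 2) S θ ℓ (j1 hv hvM h hη θ hvS x) := by
  apply Subtype.ext
  rw [coe_j1, coe_hT', coe_hT', coe_j1, map_smul,
    eta_unitOf (Dvd.intro v h) hη ℓ.1.2 (fun hd => ℓ.2 (hMS _ ℓ.1.2 hd))]
  congr 1
  exact tg_hop hv hvM h hvS (infl_sq _ hη) ℓ _

include hMS in
theorem j2_hT (ℓ : PIdx S) (x : Hm M' (η' ^ 2) R S θ) :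
    j2 hv hvM h hη θ hvS (hT η' (η' ^ 2) S θ ℓ x) =
      hT η (η ^ 2) S θ ℓ (j2 hv hvM h hη θ hvS x) := by
  apply Subtype.ext
  rw [coe_j2, coe_hT', coe_hT', coe_j2, map_smul, map_smul, smul_comm,
    eta_unitOf (Dvd.intro v h) hη ℓ.1.2 (fun hd => ℓ.2 (hMS _ ℓ.1.2 hd))]
  congr 2
  exact tB_hop hv hvM h hvS (infl_sq _ hη) ℓ _

end Maps

end Fermat.Agent.HSide
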