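import Fermat.Agent.HSide.Maps

/-!
# Commuting squares for the normalised degeneracy maps and traces
-/

set_option autoImplicit false
set_option linter.unusedSectionVars false

noncomputable section

open Matrix.SpecialLinearGroup CongruenceSubgroup IsLocalRing
open scoped MatrixGroups

namespace Fermat.Agent.HSide

open TwHecke HeckePar TwExact HeckeRep

/-! ### Values of the characters -/

section Eta

variable {R : Type} [CommRing R] [IsLocalRing R]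

theorem unitOf_eq_one_of_dvd {M q : ℕ} (hq : q.Prime) (h : q ∣ M) : unitOf M q = 1 := by
  rw [unitOf, dif_neg]
  intro hu
  rw [Int.cast_natCast, ZMod.isUnit_iff_coprime] at hu
  exact hq.one_lt.ne' (Nat.dvd_one.mp (hu ▸ Nat.dvd_gcd dvd_rfl h))

theorem eta_unitOf' {M M' q : ℕ} {η : (ZMod M)ˣ →* Rˣ} {η' : (ZMod M')ˣ →* Rˣ} (hM : M ∣ M')
    (hη : infl hM η = η') (hq : q.Prime) (hiff : q ∣ M' ↔ q ∣ M) :
    η' (unitOf M' q) = η (unitOf M q) := by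
  by_cases h : q ∣ M
  · rw [unitOf_eq_one_of_dvd hq h, unitOf_eq_one_of_dvd hq (hiff.mpr h), map_one, map_one]
  · exact eta_unitOf hM hη hq fun h' => h (hiff.mp h')

end Eta

/-! ### The sixteen squares -/

section Squares

variable {M₀₀ M₁₀ M₀₁ M₁₁ q v : ℕ} (hq : q.Prime) (hv : v.Prime) (hqv : q ≠ v)
  (h10 : M₀₀ * q = M₁₀) (h01 : M₀₀ * v = M₀₁) (h11 : M₀₁ * q = M₁₁) (h11' : M₁₀ * v = M₁₁)
  {R : Type} [CommRing R] [IsLocalRing R] {η₀₀ : (ZMod M₀₀)ˣ →* Rˣ} {η₁₀ : (ZMod M₁₀)ˣ →* Rˣ}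
  {η₀₁ : (ZMod M₀₁)ˣ →* Rˣ} {η₁₁ : (ZMod M₁₁)ˣ →* Rˣ}
  (e10 : infl (Dvd.intro q h10) η₀₀ = η₁₀) (e01 : infl (Dvd.intro v h01) η₀₀ = η₀₁)
  (e11 : infl (Dvd.intro q h11) η₀₁ = η₁₁) (e11' : infl (Dvd.intro v h11') η₁₀ = η₁₁)
  {S : Set ℕ} (θ : PIdx S → ResidueField R) (hqS : q ∈ S) (hvS : v ∈ S)

include h10 h11' in
theorem dvd_mul_of (d : ℕ) (hd : d ∣ q * v) : M₀₀ * d ∣ M₁₁ := by
  rw [← h11', ← h10, mul_assoc]
  exact mul_dvd_mul_left _ hd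

include h10 h11' e10 e11' in
theorem infl_sq_trans {h : M₀₀ ∣ M₁₁} : infl h (η₀₀ ^ 2) = η₁₁ ^ 2 :=
  infl_sq h (infl_trans h10 h11' e10 e11')

include hq hv hqv e10 in
theorem eta_v : η₁₀ (unitOf M₁₀ v) = η₀₀ (unitOf M₀₀ v) :=
  eta_unitOf' _ e10 hv (prime_dvd_iff hv hq hqv.symm h10)

/-- `i₁ i₁` -/
theorem i1_i1_comm (x : Hm M₀₀ (η₀₀ ^ 2) R S θ) :
    i1 hq h11 e11 θ hqS (i1 hv h01 e01 θ hvS x) =
      i1 hv h11' e11' θ hvS (i1 hq h10 e10 θ hqS x) := by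
  have h0 : M₀₀ * 1 ∣ M₁₁ := dvd_mul_of h10 h11' 1 (one_dvd _)
  apply Subtype.ext
  rw [coe_i1, coe_i1, coe_i1, coe_i1,
    dg_dg one_ne_zero one_ne_zero one_ne_zero rfl _ _ h0 _ _
      (infl_sq_trans h10 h11' e10 e11'),
    dg_dg one_ne_zero one_ne_zero one_ne_zero rfl _ _ h0 _ _
      (infl_sq_trans h10 h11' e10 e11')]

include hqv in
/-- `i₁ i₂` -/
theorem i1_i2_comm (x : Hm M₀₀ (η₀₀ ^ 2) R S θ) :
    i1 hq h11 e11 θ hqS (i2 hv h01 e01 θ hvS x) =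
      i2 hv h11' e11' θ hvS (i1 hq h10 e10 θ hqS x) := by
  have h0 : M₀₀ * v ∣ M₁₁ := dvd_mul_of h10 h11' v (dvd_mul_left _ _)
  apply Subtype.ext
  rw [coe_i1, coe_i2, coe_i2, coe_i1, map_smul,
    dg_dg hv.ne_zero one_ne_zero hv.ne_zero (mul_one v).symm _ _ h0 _ _
      (infl_sq_trans h10 h11' e10 e11'),
    dg_dg one_ne_zero hv.ne_zero hv.ne_zero (one_mul v).symm _ _ h0 _ _
      (infl_sq_trans h10 h11' e10 e11'), eta_v hq hv hqv h10 e10]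

include hqv in
/-- `i₂ i₁` -/
theorem i2_i1_comm (x : Hm M₀₀ (η₀₀ ^ 2) R S θ) :
    i2 hq h11 e11 θ hqS (i1 hv h01 e01 θ hvS x) =
      i1 hv h11' e11' θ hvS (i2 hq h10 e10 θ hqS x) :=
  (i1_i2_comm hv hq hqv.symm h01 h10 h11' h11 e01 e10 e11' e11 θ hvS hqS x).symm

include hqv in
/-- `i₂ i₂` -/
theorem i2_i2_comm (x : Hm M₀₀ (η₀₀ ^ 2) R S θ) :
    i2 hq h11 e11 θ hqS (i2 hv h01 e01 θ hvS x) =
      i2 hv h11' e11' θ hvS (i2 hq h10 e10 θ hqS x) := by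
  have h0 : M₀₀ * (q * v) ∣ M₁₁ := dvd_mul_of h10 h11' (q * v) dvd_rfl
  have hne : q * v ≠ 0 := mul_ne_zero hq.ne_zero hv.ne_zero
  apply Subtype.ext
  rw [coe_i2, coe_i2, coe_i2, coe_i2, map_smul, map_smul,
    dg_dg hv.ne_zero hq.ne_zero hne (mul_comm q v) _ _ h0 _ _
      (infl_sq_trans h10 h11' e10 e11'),
    dg_dg hq.ne_zero hv.ne_zero hne rfl _ _ h0 _ _
      (infl_sq_trans h10 h11' e10 e11'), eta_v hq hv hqv h10 e10,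
    eta_v hv hq hqv.symm h01 e01, smul_comm]

variable (hq0 : ¬ q ∣ M₀₀) (hv0 : ¬ v ∣ M₀₀) (hq1 : ¬ q ∣ M₀₁) (hv1 : ¬ v ∣ M₁₀)

/-- `j₁` at `v` and `i₁` at `q` -/
theorem j1_i1_comm (x : Hm M₀₁ (η₀₁ ^ 2) R S θ) :
    j1 hv hv1 h11' e11' θ hvS (i1 hq h11 e11 θ hqS x) =
      i1 hq h10 e10 θ hqS (j1 hv hv0 h01 e01 θ hvS x) := by
  apply Subtype.ext
  rw [coe_j1, coe_i1, coe_i1, coe_j1]
  exact tg_dg_comm hv hv0 hv1 h01 h11' one_ne_zero _ _ _ _ _ _ _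

include hqv in
/-- `j₁` at `v` and `i₂` at `q` -/
theorem j1_i2_comm (x : Hm M₀₁ (η₀₁ ^ 2) R S θ) :
    j1 hv hv1 h11' e11' θ hvS (i2 hq h11 e11 θ hqS x) =
      i2 hq h10 e10 θ hqS (j1 hv hv0 h01 e01 θ hvS x) := by
  apply Subtype.ext
  rw [coe_j1, coe_i2, coe_i2, coe_j1, map_smul, eta_v hv hq hqv.symm h01 e01]
  congr 1
  exact tg_dg_comm hv hv0 hv1 h01 h11' hq.ne_zero _ _ _ _ _ _ _

include hqv in
/-- `j₂` at `v` and `i₁` at `q` -/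
theorem j2_i1_comm (x : Hm M₀₁ (η₀₁ ^ 2) R S θ) :
    j2 hv hv1 h11' e11' θ hvS (i1 hq h11 e11 θ hqS x) =
      i1 hq h10 e10 θ hqS (j2 hv hv0 h01 e01 θ hvS x) := by
  apply Subtype.ext
  rw [coe_j2, coe_i1, coe_i1, coe_j2, map_smul, eta_v hq hv hqv h10 e10]
  congr 1
  exact tB_dg_comm hv hv0 hv1 h01 h11' one_ne_zero _ _ _ _ _ _ _

include hqv in
/-- `j₂` at `v` and `i₂` at `q` -/
theorem j2_i2_comm (x : Hm M₀₁ (η₀₁ ^ 2) R S θ) :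
    j2 hv hv1 h11' e11' θ hvS (i2 hq h11 e11 θ hqS x) =
      i2 hq h10 e10 θ hqS (j2 hv hv0 h01 e01 θ hvS x) := by
  apply Subtype.ext
  rw [coe_j2, coe_i2, coe_i2, coe_j2, map_smul, map_smul, eta_v hv hq hqv.symm h01 e01,
    eta_v hq hv hqv h10 e10, smul_comm]
  congr 2
  exact tB_dg_comm hv hv0 hv1 h01 h11' hq.ne_zero _ _ _ _ _ _ _

/-- `j₁ j₁` -/
theorem j1_j1_comm (x : Hm M₁₁ (η₁₁ ^ 2) R S θ) :
    j1 hv hv0 h01 e01 θ hvS (j1 hq hq1 h11 e11 θ hqS x) =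
      j1 hq hq0 h10 e10 θ hqS (j1 hv hv1 h11' e11' θ hvS x) := by
  apply Subtype.ext
  rw [coe_j1, coe_j1, coe_j1, coe_j1]
  exact tg_tg_comm hq hv hq0 hv0 hq1 hv1 h10 h01 h11 h11' _ _ _ _ _

include hqv in
/-- `j₁` at `v` and `j₂` at `q` -/
theorem j1_j2_comm (x : Hm M₁₁ (η₁₁ ^ 2) R S θ) :
    j1 hv hv0 h01 e01 θ hvS (j2 hq hq1 h11 e11 θ hqS x) =
      j2 hq hq0 h10 e10 θ hqS (j1 hv hv1 h11' e11' θ hvS x) := by
  apply Subtype.ext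
  rw [coe_j1, coe_j2, coe_j2, coe_j1, map_smul, eta_v hv hq hqv.symm h01 e01]
  congr 1
  exact tg_tB_comm hq hv hq0 hv0 hq1 hv1 h10 h01 h11 h11' _ _ _ _ _

include hqv in
/-- `j₂` at `v` and `j₁` at `q` -/
theorem j2_j1_comm (x : Hm M₁₁ (η₁₁ ^ 2) R S θ) :
    j2 hv hv0 h01 e01 θ hvS (j1 hq hq1 h11 e11 θ hqS x) =
      j1 hq hq0 h10 e10 θ hqS (j2 hv hv1 h11' e11' θ hvS x) :=
  (j1_j2_comm hv hq hqv.symm h01 h10 h11' h11 e01 e10 e11' e11 θ hvS hqS hv0 hq0 hv1 hq1 x).symm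

include hqv in
/-- `j₂ j₂` -/
theorem j2_j2_comm (x : Hm M₁₁ (η₁₁ ^ 2) R S θ) :
    j2 hv hv0 h01 e01 θ hvS (j2 hq hq1 h11 e11 θ hqS x) =
      j2 hq hq0 h10 e10 θ hqS (j2 hv hv1 h11' e11' θ hvS x) := by
  apply Subtype.ext
  rw [coe_j2, coe_j2, coe_j2, coe_j2, map_smul, map_smul, eta_v hv hq hqv.symm h01 e01,
    eta_v hq hv hqv h10 e10, smul_comm]
  congr 2
  exact tB_tB_comm hq hv hq0 hv0 hq1 hv1 h10 h01 h11 h11' _ _ _ _ _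

end Squares

/-! ### The operator `T_q` and the maps at `v ≠ q` -/

section Tvm

variable {M M' v q : ℕ} (hv : v.Prime) (hvM : ¬ v ∣ M) (h : M * v = M') [hq : Fact q.Prime]
  (hqv : q ≠ v) {R : Type} [CommRing R] [IsLocalRing R] {η : (ZMod M)ˣ →* Rˣ}
  {η' : (ZMod M')ˣ →* Rˣ} (hη : infl (Dvd.intro v h) η = η') {S : Set ℕ}
  (θ : PIdx S → ResidueField R) (hvS : v ∈ S)

include hqv in
theorem i1_tvm (x : Hm M (η ^ 2) R S θ) : i1 hv h hη θ hvS (tvm M q η (η ^ 2) S θ x) =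
    tvm M' q η' (η' ^ 2) S θ (i1 hv h hη θ hvS x) := by
  have hiff := prime_dvd_iff hq.out hv hqv h
  apply Subtype.ext
  rw [coe_i1, coe_tvm, coe_tvm, coe_i1, map_smul, eta_unitOf' (Dvd.intro v h) hη hq.out hiff]
  congr 1
  exact dg_heckeH one_ne_zero _ _ (fun h1 => hq.out.one_lt.ne' (Nat.dvd_one.mp h1)) hiff _

include hqv in
theorem i2_tvm (x : Hm M (η ^ 2) R S θ) : i2 hv h hη θ hvS (tvm M q η (η ^ 2) S θ x) =
    tvm M' q η' (η' ^ 2) S θ (i2 hv h hη θ hvS x) := by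
  have hiff := prime_dvd_iff hq.out hv hqv h
  apply Subtype.ext
  rw [coe_i2, coe_tvm, coe_tvm, coe_i2, map_smul, map_smul, smul_comm,
    eta_unitOf' (Dvd.intro v h) hη hq.out hiff]
  congr 2
  exact dg_heckeH hv.ne_zero _ _
    (fun h1 => hqv ((Nat.prime_dvd_prime_iff_eq hq.out hv).mp h1)) hiff _

include hqv in
theorem j1_tvm (x : Hm M' (η' ^ 2) R S θ) :
    j1 hv hvM h hη θ hvS (tvm M' q η' (η' ^ 2) S θ x) =
      tvm M q η (η ^ 2) S θ (j1 hv hvM h hη θ hvS x) := by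
  have hiff := prime_dvd_iff hq.out hv hqv h
  apply Subtype.ext
  rw [coe_j1, coe_tvm, coe_tvm, coe_j1, map_smul, eta_unitOf' (Dvd.intro v h) hη hq.out hiff]
  congr 1
  exact tg_heckeH hv hvM h _ hqv _

include hqv in
theorem j2_tvm (x : Hm M' (η' ^ 2) R S θ) :
    j2 hv hvM h hη θ hvS (tvm M' q η' (η' ^ 2) S θ x) =
      tvm M q η (η ^ 2) S θ (j2 hv hvM h hη θ hvS x) := by
  have hiff := prime_dvd_iff hq.out hv hqv h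
  apply Subtype.ext
  rw [coe_j2, coe_tvm, coe_tvm, coe_j2, map_smul, map_smul, smul_comm,
    eta_unitOf' (Dvd.intro v h) hη hq.out hiff]
  congr 2
  exact tB_heckeH hv hvM h _ hqv _

end Tvm

/-! ### Change of coefficients -/

section Sgm

variable {R R' : Type} [CommRing R] [CommRing R'] (σ : R →+* R') [IsLocalRing R] [IsLocalRing R']
  [IsLocalHom σ] (hσ : Function.Surjective σ) {S : Set ℕ} {θ : PIdx S → ResidueField R}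
  {θ' : PIdx S → ResidueField R'} (hθ : ∀ ℓ, θ' ℓ = ResidueField.map σ (θ ℓ))

theorem sq_eq {M : ℕ} {η : (ZMod M)ˣ →* Rˣ} {χ : (ZMod M)ˣ →* R'ˣ}
    (hη : ∀ u, (χ u : R') = σ (η u)) (u : (ZMod M)ˣ) :
    (((χ ^ 2) u : R'ˣ) : R') = σ (((η ^ 2) u : Rˣ) : R) := by
  rw [MonoidHom.pow_apply, MonoidHom.pow_apply, Units.val_pow_eq_pow_val,
    Units.val_pow_eq_pow_val, map_pow, hη]

theorem inv_eq {M : ℕ} {η : (ZMod M)ˣ →* Rˣ} {χ : (ZMod M)ˣ →* R'ˣ}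
    (hη : ∀ u, (χ u : R') = σ (η u)) (u : (ZMod M)ˣ) :
    (((χ u)⁻¹ : R'ˣ) : R') = σ (((η u)⁻¹ : Rˣ) : R) := by
  rw [← map_inv, hη, map_inv]

section Op

variable {M : ℕ} {η : (ZMod M)ˣ →* Rˣ} {χ : (ZMod M)ˣ →* R'ˣ} {ε : (ZMod M)ˣ →* Rˣ}
  {ε' : (ZMod M)ˣ →* R'ˣ} (hη : ∀ u, (χ u : R') = σ (η u)) (hε : ∀ u, (ε' u : R') = σ (ε u))

include hη in
theorem sgm_hT (ℓ : PIdx S) (x : Hm M ε R S θ) :
    sgm σ hε hθ hσ (hT η ε S θ ℓ x) = hT χ ε' S θ' ℓ (sgm σ hε hθ hσ x) := by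
  have : Fact (ℓ.1 : ℕ).Prime := ⟨ℓ.1.2⟩
  apply Subtype.ext
  rw [coe_sgm, coe_hT', coe_hT', coe_sgm, map_smulₛₗ, ← hη]
  congr 1
  exact sg_heckeH σ hε (p := (ℓ.1 : ℕ)) _

include hη in
theorem sgm_tvm {q : ℕ} [Fact q.Prime] (x : Hm M ε R S θ) :
    sgm σ hε hθ hσ (tvm M q η ε S θ x) = tvm M q χ ε' S θ' (sgm σ hε hθ hσ x) := by
  apply Subtype.ext
  rw [coe_sgm, coe_tvm, coe_tvm, coe_sgm, map_smulₛₗ, ← hη]
  congr 1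
  exact sg_heckeH σ hε (p := q) _

end Op

variable {M M' v : ℕ} (hv : v.Prime) (hvM : ¬ v ∣ M) (h : M * v = M')
  {η : (ZMod M)ˣ →* Rˣ} {η' : (ZMod M')ˣ →* Rˣ} (hη : infl (Dvd.intro v h) η = η')
  {χ : (ZMod M)ˣ →* R'ˣ} {χ' : (ZMod M')ˣ →* R'ˣ} (hχ : infl (Dvd.intro v h) χ = χ')
  (hs : ∀ u, (χ u : R') = σ (η u)) (hs' : ∀ u, (χ' u : R') = σ (η' u)) (hvS : v ∈ S)
  {k : ∀ u, (((χ ^ 2) u : R'ˣ) : R') = σ (((η ^ 2) u : Rˣ) : R)}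
  {k' : ∀ u, (((χ' ^ 2) u : R'ˣ) : R') = σ (((η' ^ 2) u : Rˣ) : R)}

theorem sgm_i1 (x : Hm M (η ^ 2) R S θ) : sgm σ k' hθ hσ (i1 hv h hη θ hvS x) =
    i1 hv h hχ θ' hvS (sgm σ k hθ hσ x) := by
  apply Subtype.ext
  rw [coe_sgm, coe_i1, coe_i1, coe_sgm]
  exact (dg_mapₛ one_ne_zero _ _ _ k k' _ _).symm

include hs in
theorem sgm_i2 (x : Hm M (η ^ 2) R S θ) : sgm σ k' hθ hσ (i2 hv h hη θ hvS x) =
    i2 hv h hχ θ' hvS (sgm σ k hθ hσ x) := by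
  apply Subtype.ext
  rw [coe_sgm, coe_i2, coe_i2, coe_sgm, map_smulₛₗ, ← inv_eq σ hs]
  congr 1
  exact (dg_mapₛ hv.ne_zero _ _ _ k k' _ _).symm

theorem sgm_j1 (x : Hm M' (η' ^ 2) R S θ) : sgm σ k hθ hσ (j1 hv hvM h hη θ hvS x) =
    j1 hv hvM h hχ θ' hvS (sgm σ k' hθ hσ x) := by
  apply Subtype.ext
  rw [coe_sgm, coe_j1, coe_j1, coe_sgm]
  exact (tg_mapₛ hv hvM h _ _ k k' _ _).symm

include hs in
theorem sgm_j2 (x : Hm M' (η' ^ 2) R S θ) : sgm σ k hθ hσ (j2 hv hvM h hη θ hvS x) =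
    j2 hv hvM h hχ θ' hvS (sgm σ k' hθ hσ x) := by
  apply Subtype.ext
  rw [coe_sgm, coe_j2, coe_j2, coe_sgm, map_smulₛₗ, ← hs]
  congr 1
  exact (tB_mapₛ hv hvM h _ _ k k' _ _).symm

end Sgm

end Fermat.Agent.HSide
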