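import Fermat.Agent.HSide.Base
import Fermat.Agent.HSide.Squares
import Fermat.Agent.HSide.IharaN

/-!
# The maps on the modules of the Hecke side
-/

set_option autoImplicit false
set_option linter.style.haveILetI false

noncomputable section

open Matrix.SpecialLinearGroup CongruenceSubgroup IsLocalRing
open scoped MatrixGroups

namespace Fermat.Agent.HSide

open TwHecke HeckePar TwExact HeckeRep RTE RTD GalRep

section Tvo

variable {R : Type} [CommRing R] [IsLocalRing R] {S : Set ℕ}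

/-- `η(ℓ) T_ℓ` if `ℓ` is a prime, `0` otherwise -/
def tvo (M ℓ : ℕ) (η ε : (ZMod M)ˣ →* Rˣ) (S : Set ℕ) (θ : PIdx S → ResidueField R) :
    Module.End R (Hm M ε R S θ) :=
  if h : ℓ.Prime then (haveI : Fact ℓ.Prime := ⟨h⟩; tvm M ℓ η ε S θ) else 0

theorem tvo_eq {M ℓ : ℕ} [hℓ : Fact ℓ.Prime] (η ε : (ZMod M)ˣ →* Rˣ)
    (θ : PIdx S → ResidueField R) : tvo M ℓ η ε S θ = tvm M ℓ η ε S θ := by
  rw [tvo, dif_pos hℓ.out]

theorem tvo_hT {M : ℕ} (η ε : (ZMod M)ˣ →* Rˣ) (θ : PIdx S → ResidueField R) (ℓ : PIdx S) :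
    tvo M (ℓ.1 : ℕ) η ε S θ = hT η ε S θ ℓ := by
  have : Fact (ℓ.1 : ℕ).Prime := ⟨ℓ.1.2⟩
  rw [tvo_eq]
  rfl

theorem tvo_zero {M ℓ : ℕ} (hℓ : ¬ ℓ.Prime) (η ε : (ZMod M)ˣ →* Rˣ)
    (θ : PIdx S → ResidueField R) : tvo M ℓ η ε S θ = 0 := dif_neg hℓ

variable {M M' v : ℕ} (hv : v.Prime) (hvM : ¬ v ∣ M) (h : M * v = M')
  {η : (ZMod M)ˣ →* Rˣ} {η' : (ZMod M')ˣ →* Rˣ} (hη : infl (Dvd.intro v h) η = η')
  (θ : PIdx S → ResidueField R) (hvS : v ∈ S) {q : ℕ} (hqv : q ≠ v)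

include hqv

theorem i1_tvo (x : Hm M (η ^ 2) R S θ) : i1 hv h hη θ hvS (tvo M q η (η ^ 2) S θ x) =
    tvo M' q η' (η' ^ 2) S θ (i1 hv h hη θ hvS x) := by
  by_cases hq : q.Prime
  · have : Fact q.Prime := ⟨hq⟩
    rw [tvo_eq, tvo_eq]
    exact i1_tvm hv h hqv hη θ hvS x
  · rw [tvo_zero hq, tvo_zero hq, LinearMap.zero_apply, LinearMap.zero_apply, map_zero]

theorem i2_tvo (x : Hm M (η ^ 2) R S θ) : i2 hv h hη θ hvS (tvo M q η (η ^ 2) S θ x) =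
    tvo M' q η' (η' ^ 2) S θ (i2 hv h hη θ hvS x) := by
  by_cases hq : q.Prime
  · have : Fact q.Prime := ⟨hq⟩
    rw [tvo_eq, tvo_eq]
    exact i2_tvm hv h hqv hη θ hvS x
  · rw [tvo_zero hq, tvo_zero hq, LinearMap.zero_apply, LinearMap.zero_apply, map_zero]

theorem j1_tvo (x : Hm M' (η' ^ 2) R S θ) : j1 hv hvM h hη θ hvS (tvo M' q η' (η' ^ 2) S θ x) =
    tvo M q η (η ^ 2) S θ (j1 hv hvM h hη θ hvS x) := by
  by_cases hq : q.Prime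
  · have : Fact q.Prime := ⟨hq⟩
    rw [tvo_eq, tvo_eq]
    exact j1_tvm hv hvM h hqv hη θ hvS x
  · rw [tvo_zero hq, tvo_zero hq, LinearMap.zero_apply, LinearMap.zero_apply, map_zero]

theorem j2_tvo (x : Hm M' (η' ^ 2) R S θ) : j2 hv hvM h hη θ hvS (tvo M' q η' (η' ^ 2) S θ x) =
    tvo M q η (η ^ 2) S θ (j2 hv hvM h hη θ hvS x) := by
  by_cases hq : q.Prime
  · have : Fact q.Prime := ⟨hq⟩
    rw [tvo_eq, tvo_eq]
    exact j2_tvm hv hvM h hqv hη θ hvS x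
  · rw [tvo_zero hq, tvo_zero hq, LinearMap.zero_apply, LinearMap.zero_apply, map_zero]

end Tvo

section Maps

variable {𝒪 : Type} [CommRing 𝒪] [IsLocalRing 𝒪]
  {p : ℕ} {ι : Type} [DecidableEq ι] {qT : ι → ℕ} {S : Finset ℕ} (B : Base 𝒪 p qT S) {m : ℕ}
  (qv : Fin m → ℕ) [IsLocalRing (Lam 𝒪 p qv)]

/-- the Hecke operators on the modules -/
def Base.T (s : Finset ι) (ℓ : ℕ) : Module.End (Lam 𝒪 p qv) (B.MM qv s) :=
  tvo (B.lev qv s) ℓ (B.eta qv s) (B.eta qv s ^ 2) (↑(B.Sn qv) : Set ℕ) (B.th qv)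

/-- the Hecke operators on the bottom modules -/
def Base.T0 (s : Finset ι) (ℓ : ℕ) : Module.End 𝒪 (B.M0 s) :=
  tvo (B.NS s) ℓ 1 (1 ^ 2) (↑S : Set ℕ) (thOf B.a (↑S : Set ℕ))

variable {s : Finset ι} {v : ι} (hv : v ∉ s)

/-- the first degeneracy map -/
def Base.mi1 : B.MM qv s →ₗ[Lam 𝒪 p qv] B.MM qv (insert v s) :=
  HSide.i1 (B.qT_prime v) (B.lev_insert hv) (B.eta_insert hv) (B.th qv) (B.qT_mem v)

/-- the second degeneracy map -/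
def Base.mi2 : B.MM qv s →ₗ[Lam 𝒪 p qv] B.MM qv (insert v s) :=
  HSide.i2 (B.qT_prime v) (B.lev_insert hv) (B.eta_insert hv) (B.th qv) (B.qT_mem v)

variable {qv} (A : Auxs B qv)

/-- the first trace -/
def Base.mj1 : B.MM qv (insert v s) →ₗ[Lam 𝒪 p qv] B.MM qv s :=
  HSide.j1 (B.qT_prime v) (B.qT_not_dvd_lev A hv) (B.lev_insert hv) (B.eta_insert hv) (B.th qv)
    (B.qT_mem v)

/-- the second trace -/
def Base.mj2 : B.MM qv (insert v s) →ₗ[Lam 𝒪 p qv] B.MM qv s :=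
  HSide.j2 (B.qT_prime v) (B.qT_not_dvd_lev A hv) (B.lev_insert hv) (B.eta_insert hv) (B.th qv)
    (B.qT_mem v)

theorem Base.mj1_mi1 (x : B.MM qv s) : B.mj1 hv A (B.mi1 qv hv x) = (qT v + 1) • x := by
  rw [Base.mj1, Base.mi1, j1_i1, ← Nat.cast_smul_eq_nsmul (Lam 𝒪 p qv)]
  push_cast
  rfl

theorem Base.mj2_mi2 (x : B.MM qv s) : B.mj2 hv A (B.mi2 qv hv x) = (qT v + 1) • x := by
  rw [Base.mj2, Base.mi2, j2_i2, ← Nat.cast_smul_eq_nsmul (Lam 𝒪 p qv)]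
  push_cast
  rfl

theorem Base.mj1_mi2 (x : B.MM qv s) : B.mj1 hv A (B.mi2 qv hv x) = B.T qv s (qT v) x := by
  have : Fact (qT v).Prime := ⟨B.qT_prime v⟩
  rw [Base.mj1, Base.mi2, j1_i2, Base.T, tvo_eq]

theorem Base.mj2_mi1 (x : B.MM qv s) : B.mj2 hv A (B.mi1 qv hv x) = B.T qv s (qT v) x := by
  have : Fact (qT v).Prime := ⟨B.qT_prime v⟩
  rw [Base.mj2, Base.mi1, j2_i1, Base.T, tvo_eq]

variable {q : ℕ} (hq : q ≠ qT v)
include hq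

theorem Base.mi1_T (x : B.MM qv s) :
    B.mi1 qv hv (B.T qv s q x) = B.T qv (insert v s) q (B.mi1 qv hv x) :=
  i1_tvo _ _ _ _ _ hq x

theorem Base.mi2_T (x : B.MM qv s) :
    B.mi2 qv hv (B.T qv s q x) = B.T qv (insert v s) q (B.mi2 qv hv x) :=
  i2_tvo _ _ _ _ _ hq x

theorem Base.mj1_T (x : B.MM qv (insert v s)) :
    B.mj1 hv A (B.T qv (insert v s) q x) = B.T qv s q (B.mj1 hv A x) :=
  j1_tvo _ _ _ _ _ _ hq x

theorem Base.mj2_T (x : B.MM qv (insert v s)) :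
    B.mj2 hv A (B.T qv (insert v s) q x) = B.T qv s q (B.mj2 hv A x) :=
  j2_tvo _ _ _ _ _ _ hq x

end Maps

end Fermat.Agent.HSide
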