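import Fermat.Agent.HeckeRep.CondStrict
import Fermat.Agent.NewRel.Inst
import Fermat.Agent.HSide.NewP
import Fermat.Agent.HSide.ActT

/-!
# The strictly ordinary type of the Hecke representations modulo the annihilator of the
`p`-new kernels

`B` is a base of level `N` prime to `p`, `B.mulP hqp` the base of level `N * p`.

* `Base.type_strict_MM`: the Hecke representation of level `(B.mulP hqp).lev2 qv s`, modulo the
  annihilator of the kernel of `B.t1`, `B.t2`, is of type `Lord`;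
* `Base.type_strict_M0`: the same at the bottom level.
-/

set_option autoImplicit false
set_option linter.unusedSectionVars false
set_option linter.unusedVariables false

noncomputable section

open CongruenceSubgroup
open scoped MatrixGroups

namespace Fermat.Agent.HSide

open IsLocalRing TwHecke HeckePar TwExact HeckeRep GalRep CuspForm RTE RTD
open Oldforms (ALData)
open NewRel (pnew)

section Squarefree

variable {𝒪 : Type} [CommRing 𝒪] [IsLocalRing 𝒪] {p : ℕ} {ι : Type} {qT : ι → ℕ} {S : Finset ℕ}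
  (B : Base 𝒪 p qT S)

theorem Base.squarefree_NS (hN : Squarefree B.N) (s : Finset ι) : Squarefree (B.NS s) := by
  have h := squarefree_mul_prod hN (s.map ⟨qT, B.qT_inj⟩) (by
    intro v hv
    obtain ⟨w, -, rfl⟩ := Finset.mem_map.mp hv
    exact ⟨B.qT_prime w, B.qT_N w⟩)
  rwa [Finset.prod_map] at h

/-- away from the auxiliary primes, the levels are squarefree. -/
theorem Base.not_sq_dvd_lev2 {m : ℕ} {qv : Fin m → ℕ} (A : Auxs B qv) (hN : Squarefree B.N)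
    (s : Finset ι) {q : ℕ} (hq : q.Prime) (hqS : q ∈ S) : ¬ q ^ 2 ∣ B.lev2 qv s :=
  not_sq_dvd_level rfl A.prime (B.lev2_eq s) (B.squarefree_NS hN s) hq
    fun i hi => A.notMem i (hi ▸ hqS)

theorem Base.not_sq_dvd_NS (hN : Squarefree B.N) (s : Finset ι) {q : ℕ} (hq : q.Prime) :
    ¬ q ^ 2 ∣ B.NS s := by
  intro h
  rw [pow_two] at h
  exact hq.one_lt.ne' (Nat.isUnit_iff.mp (B.squarefree_NS hN s q h))

theorem Base.squarefree_mulP [hp : Fact p.Prime] (hqp : ∀ v, qT v ≠ p) (hpN : ¬ p ∣ B.N)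
    (hN : Squarefree B.N) : Squarefree (B.mulP hqp).N := by
  show Squarefree (B.N * p)
  exact (Nat.squarefree_mul ((hp.out.coprime_iff_not_dvd.mpr hpN).symm)).mpr
    ⟨hN, hp.out.prime.squarefree⟩

end Squarefree

section Top

variable {𝒪 : Type} [CommRing 𝒪] [IsDomain 𝒪] [IsDiscreteValuationRing 𝒪]
  [IsAdicComplete (maximalIdeal 𝒪) 𝒪] [Finite (ResidueField 𝒪)] [CharZero 𝒪]
  {p : ℕ} [hp : Fact p.Prime] {ι : Type} {qT : ι → ℕ} {S : Finset ℕ}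
  (B : Base 𝒪 p qT S) {m : ℕ} {qv : Fin m → ℕ}

/-- **Type `Lord` modulo the annihilator of the `p`-new kernel.** -/
theorem Base.type_strict_MM [IsLocalRing (Lam 𝒪 p qv)] (A : Auxs B qv) (hqp : ∀ v, qT v ≠ p)
    (hpN : ¬ p ∣ B.N) (hNsq : Squarefree B.N) (𝓢 : Setup 𝒪 p) (hSg : 𝓢.Sg = S)
    {ρbar : ResidualGaloisRep (ResidueField 𝒪)} (hρ : 𝓢.ρbar = ρbar)
    (ctx : HCtx p ρbar (B.Sn qv) (thOf B.a (↑(B.Sn qv) : Set ℕ)))
    (hord : (GaloisRepAdic.ofResidualGaloisRep 𝓢.ρbar).IsStrictOrdinaryAt p) (s : Finset ι)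
    [NeZero ((B.mulP hqp).lev2 qv s)]
    (hLS : ∀ q : ℕ, q.Prime → q ∣ (B.mulP hqp).lev2 qv s → q ∈ B.Sn qv)
    (h : Occ ((B.mulP hqp).lev2 qv s) (↑(B.Sn qv) : Set ℕ) (thOf B.a (↑(B.Sn qv) : Set ℕ)))
    (act : heckeLocal ((B.mulP hqp).lev2 qv s) (↑(B.Sn qv) : Set ℕ) 𝒪 (sysHom h) →+*
      Module.End (Lam 𝒪 p qv) ((B.mulP hqp).MM qv s))
    (hact : ∀ ℓ, act (heckeLocal.π ((B.mulP hqp).lev2 qv s) (↑(B.Sn qv) : Set ℕ) 𝒪 (sysHom h)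
        (genS ((B.mulP hqp).lev2 qv s) (↑(B.Sn qv) : Set ℕ) ℓ)) =
      hT ((B.mulP hqp).eta qv s) ((B.mulP hqp).eta qv s ^ 2) (↑(B.Sn qv) : Set ℕ) (B.th qv) ℓ)
    {B' : Type} [CommRing B'] [IsLocalRing B'] [IsNoetherianRing B'] [Algebra 𝒪 B']
    [IsLocalHom (algebraMap 𝒪 B')]
    (f : heckeLocal ((B.mulP hqp).lev2 qv s) (↑(B.Sn qv) : Set ℕ) 𝒪 (sysHom h) →ₐ[𝒪] B')
    (hf : IsLocalHom (f : heckeLocal ((B.mulP hqp).lev2 qv s) (↑(B.Sn qv) : Set ℕ) 𝒪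
      (sysHom h) →+* B'))
    (hfK : ∀ t, (∀ x, B.t1 hqp hpN A s x = 0 → B.t2 hqp hpN A s x = 0 → act t x = 0) →
      f t = 0) :
    𝓢.type (Lord p) (Finset.univ.image qv) ((heckeDatum ctx hLS h).ρ.baseChangeAlong
      (f : heckeLocal ((B.mulP hqp).lev2 qv s) (↑(B.Sn qv) : Set ℕ) 𝒪 (sysHom h) →+* B') hf) := by
  subst hρ
  have hA := B.auxs_mulP hqp A
  have hNZ : NeZero ((B.mulP hqp).lev qv s) := ⟨(B.mulP hqp).lev_ne hA s⟩
  have hL : (B.mulP hqp).lev2 qv s = B.lev2 qv s * p := by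
    rw [lev2, lev2, ← B.lev_mulP hqp]
    ring
  have hL' : (B.mulP hqp).lev2 qv s = p * B.lev2 qv s := by rw [hL, mul_comm]
  have hm : ¬ p ∣ B.lev2 qv s := B.not_dvd_lev2 hp.out (B.p_not_dvd_lev hqp hpN A s)
  obtain ⟨D⟩ := Oldforms.exists_ALData hp.out hL' hm
  refine type_strict 𝓢 ctx hL hm hLS h (fun q hq hd => ?_) (fun q hq hqp' => ?_) hord f hf D
    fun a ha => ?_
  · rw [hSg]
    exact hLS q hq hd
  · rw [hSg] at hq
    refine (B.mulP hqp).not_sq_dvd_lev2 hA (B.squarefree_mulP hqp hpN hNsq) s ?_ hq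
    exact 𝓢.prime q (show q ∈ 𝓢.Sg from hSg ▸ hq)
  · exact hfK _ fun x h1 h2 => NewRel.Base.act_newKer hA s D
      (B.p_not_dvd_lev hqp hpN A s) (B.lev_mulP hqp s) rfl (η := B.eta qv s) rfl
      (B.eta_mulP hqp s) B.p_mem_Sn (sysHom h) act hact a ha x h1 h2

end Top

section Bot

variable {𝒪 : Type} [CommRing 𝒪] [IsDomain 𝒪] [IsDiscreteValuationRing 𝒪]
  [IsAdicComplete (maximalIdeal 𝒪) 𝒪] [Finite (ResidueField 𝒪)] [CharZero 𝒪]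
  {p : ℕ} [hp : Fact p.Prime] {ι : Type} {qT : ι → ℕ} {S : Finset ℕ}
  (B : Base 𝒪 p qT S)

/-- **Type `Lord` modulo the annihilator of the `p`-new kernel, bottom level.** -/
theorem Base.type_strict_M0 (hqp : ∀ v, qT v ≠ p)
    (hpN : ¬ p ∣ B.N) (hNsq : Squarefree B.N) (𝓢 : Setup 𝒪 p) (hSg : 𝓢.Sg = S)
    {ρbar : ResidualGaloisRep (ResidueField 𝒪)} (hρ : 𝓢.ρbar = ρbar)
    (ctx : HCtx p ρbar S (thOf B.a (↑S : Set ℕ)))
    (hord : (GaloisRepAdic.ofResidualGaloisRep 𝓢.ρbar).IsStrictOrdinaryAt p) (s : Finset ι)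
    (hLS : ∀ q : ℕ, q.Prime → q ∣ (B.mulP hqp).NS s → q ∈ S)
    (h : Occ ((B.mulP hqp).NS s) (↑S : Set ℕ) (thOf B.a (↑S : Set ℕ)))
    (act : heckeLocal ((B.mulP hqp).NS s) (↑S : Set ℕ) 𝒪 (sysHom h) →+*
      Module.End 𝒪 ((B.mulP hqp).M0 s))
    (hact : ∀ ℓ, act (heckeLocal.π ((B.mulP hqp).NS s) (↑S : Set ℕ) 𝒪 (sysHom h)
        (genS ((B.mulP hqp).NS s) (↑S : Set ℕ) ℓ)) =
      hT (1 : (ZMod ((B.mulP hqp).NS s))ˣ →* 𝒪ˣ) ((1 : (ZMod ((B.mulP hqp).NS s))ˣ →* 𝒪ˣ) ^ 2)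
        (↑S : Set ℕ) (thOf B.a (↑S : Set ℕ)) ℓ)
    {B' : Type} [CommRing B'] [IsLocalRing B'] [IsNoetherianRing B'] [Algebra 𝒪 B']
    [IsLocalHom (algebraMap 𝒪 B')]
    (f : heckeLocal ((B.mulP hqp).NS s) (↑S : Set ℕ) 𝒪 (sysHom h) →ₐ[𝒪] B')
    (hf : IsLocalHom (f : heckeLocal ((B.mulP hqp).NS s) (↑S : Set ℕ) 𝒪 (sysHom h) →+* B'))
    (hfK : ∀ t, (∀ x, B.b1 hqp hpN s x = 0 → B.b2 hqp hpN s x = 0 → act t x = 0) → f t = 0) :
    𝓢.type (Lord p) ∅ ((heckeDatum ctx hLS h).ρ.baseChangeAlong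
      (f : heckeLocal ((B.mulP hqp).NS s) (↑S : Set ℕ) 𝒪 (sysHom h) →+* B') hf) := by
  subst hρ
  have hL : (B.mulP hqp).NS s = B.NS s * p := (B.NS_mulP hqp s).symm
  have hL' : (B.mulP hqp).NS s = p * B.NS s := by rw [hL, mul_comm]
  have hm : ¬ p ∣ B.NS s := B.p_not_dvd_NS hqp hpN s
  obtain ⟨D⟩ := Oldforms.exists_ALData hp.out hL' hm
  refine type_strict 𝓢 ctx hL hm hLS h (fun q hq hd => ?_) (fun q hq hqp' => ?_) hord f hf D
    fun a ha => ?_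
  · rw [hSg]
    exact Finset.mem_union_left _ (hLS q hq hd)
  · exact (B.mulP hqp).not_sq_dvd_NS (B.squarefree_mulP hqp hpN hNsq) s
      (𝓢.prime q hq)
  · exact hfK _ fun x h1 h2 => NewRel.Base.act_newKer₀ (B.mulP hqp) s D hm (B.NS_mulP hqp s)
      rfl B.pS (sysHom h) act hact a ha x h1 h2

/-- **Type `Lord` modulo the annihilator of the `p`-new kernel, bottom level, sums of copies.** -/
theorem Base.type_strict_M0_pi (hqp : ∀ v, qT v ≠ p)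
    (hpN : ¬ p ∣ B.N) (hNsq : Squarefree B.N) (𝓢 : Setup 𝒪 p) (hSg : 𝓢.Sg = S)
    {ρbar : ResidualGaloisRep (ResidueField 𝒪)} (hρ : 𝓢.ρbar = ρbar)
    (ctx : HCtx p ρbar S (thOf B.a (↑S : Set ℕ)))
    (hord : (GaloisRepAdic.ofResidualGaloisRep 𝓢.ρbar).IsStrictOrdinaryAt p) (s : Finset ι)
    (hLS : ∀ q : ℕ, q.Prime → q ∣ (B.mulP hqp).NS s → q ∈ S)
    (h : Occ ((B.mulP hqp).NS s) (↑S : Set ℕ) (thOf B.a (↑S : Set ℕ)))
    (act : heckeLocal ((B.mulP hqp).NS s) (↑S : Set ℕ) 𝒪 (sysHom h) →+*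
      Module.End 𝒪 ((B.mulP hqp).M0 s))
    (hact : ∀ ℓ, act (heckeLocal.π ((B.mulP hqp).NS s) (↑S : Set ℕ) 𝒪 (sysHom h)
        (genS ((B.mulP hqp).NS s) (↑S : Set ℕ) ℓ)) =
      hT (1 : (ZMod ((B.mulP hqp).NS s))ˣ →* 𝒪ˣ) ((1 : (ZMod ((B.mulP hqp).NS s))ˣ →* 𝒪ˣ) ^ 2)
        (↑S : Set ℕ) (thOf B.a (↑S : Set ℕ)) ℓ)
    (κ : Type) [Nonempty κ]
    {B' : Type} [CommRing B'] [IsLocalRing B'] [IsNoetherianRing B'] [Algebra 𝒪 B']
    [IsLocalHom (algebraMap 𝒪 B')]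
    (f : heckeLocal ((B.mulP hqp).NS s) (↑S : Set ℕ) 𝒪 (sysHom h) →ₐ[𝒪] B')
    (hf : IsLocalHom (f : heckeLocal ((B.mulP hqp).NS s) (↑S : Set ℕ) 𝒪 (sysHom h) →+* B'))
    (hfK : ∀ t, (∀ x : κ → (B.mulP hqp).M0 s, (∀ J, B.b1 hqp hpN s (x J) = 0) →
      (∀ J, B.b2 hqp hpN s (x J) = 0) → ∀ J, act t (x J) = 0) → f t = 0) :
    𝓢.type (Lord p) ∅ ((heckeDatum ctx hLS h).ρ.baseChangeAlong
      (f : heckeLocal ((B.mulP hqp).NS s) (↑S : Set ℕ) 𝒪 (sysHom h) →+* B') hf) :=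
  B.type_strict_M0 hqp hpN hNsq 𝓢 hSg hρ ctx hord s hLS h act hact f hf fun t ht =>
    hfK t fun x h1 h2 J => ht (x J) (h1 J) (h2 J)

end Bot

end Fermat.Agent.HSide

end
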